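import Fermat.Agent.TwoComp.Defs
import Fermat.Prelude.Def_AlgebraicCurve_BaseChangeGalois

/-!
# Semilinear automorphisms compatible with two-component reduction data
-/

set_option autoImplicit false

open AlgebraicCurve WithZero Module
open scoped IntermediateField
open Fermat.Agent.RR Fermat.Agent.Deuring Fermat.Agent.FF

namespace Fermat.Agent.TwoComp

variable {K Fm F k F' : Type*} [Field K] [Field Fm] [Algebra K Fm] [Field F] [Algebra K F]
  [Field k] [Field F'] [Algebra k F'] {q : ℕ}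

/-- A semilinear automorphism `g` of `F` (an element of the decomposition group acting on the
coefficients) which induces the endomorphism `e` of the residue function field `F'` and `s` on
the residue field `k`. -/
structure Data.ActS (D : Data K Fm F k F' q) (g : SemilinearAut K F) (e : F' →+* F')
    (s : k →+* k) : Prop where
  mem₁ : ∀ f ∈ D.O₁, g • f ∈ D.O₁
  mem₂ : ∀ f ∈ D.O₂, g • f ∈ D.O₂
  ρ₁ : ∀ (f : F) (hf : f ∈ D.O₁), D.ρ₁ ⟨g • f, mem₁ f hf⟩ = e (D.ρ₁ ⟨f, hf⟩)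
  ρ₂ : ∀ (f : F) (hf : f ∈ D.O₂), D.ρ₂ ⟨g • f, mem₂ f hf⟩ = e (D.ρ₂ ⟨f, hf⟩)
  e_algebraMap : ∀ c : k, e (algebraMap k F' c) = algebraMap k F' (s c)
  e_V : ∀ f : F', e (D.V f) = D.V (e f)
  e_σ : ∀ f : F', e (D.σ f) = D.σ (e f)
  αj : g • D.α D.j = D.α D.j
  βj : g • D.β D.j = D.β D.j
  memA : ∀ a ∈ D.G.A, SemilinearAut.baseAut g a ∈ D.G.A
  res : ∀ (a : K) (ha : a ∈ D.G.A), D.G.res ⟨SemilinearAut.baseAut g a, memA a ha⟩ = s (D.G.res ⟨a, ha⟩)

end Fermat.Agent.TwoComp
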