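import Fermat.Agent.Deuring.Sup
import Fermat.Agent.FF.AlgClosed
import Fermat.Agent.FF.Fundamental
import Fermat.Agent.RR.Weil

/-!
# The spaces `L(n · (y)_∞)`
-/

set_option autoImplicit false

open AlgebraicCurve WithZero Module Polynomial
open scoped IntermediateField
open Fermat.Agent.FF Fermat.Agent.Deuring

namespace Fermat.Agent.TwoComp

variable {K F : Type*} [Field K] [Field F] [Algebra K F]

section Basic

variable [IsFF K F]

/-- The pole divisor. -/
noncomputable def poleD (y : F) : Divisor K F := zeroDiv y⁻¹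

theorem poleD_apply (y : F) (v : Place K F) : poleD (K := K) y v = max (-v.ord y) 0 := by
  rw [poleD, zeroDiv_apply, v.ord_inv]

theorem poleD_nonneg (y : F) : 0 ≤ poleD (K := K) y := zeroDiv_nonneg _

omit [IsFF K F] in
theorem adjoin_inv (y : F) : K⟮y⁻¹⟯ = K⟮y⟯ := isFF_nontrivial_adjoin_inv y

omit [IsFF K F] in
theorem finrank_adjoin_inv (y : F) : finrank K⟮y⁻¹⟯ F = finrank K⟮y⟯ F := by
  rw [adjoin_inv]

theorem degree_poleD {y : F} (hy : Transcendental K y) :
    Divisor.degree (poleD (K := K) y) = finrank K⟮y⟯ F := by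
  rw [poleD, degree_zeroDiv (FF.transcendental_inv hy), finrank_adjoin_inv]

variable (K F) in
/-- Riemann–Roch in the form used here. -/
theorem exists_RR : ∃ c d₀ : ℤ, ∀ D : Divisor K F, d₀ ≤ Divisor.degree D →
    (finrank K (riemannRochSpace D) : ℤ) = Divisor.degree D + c := by
  obtain ⟨x, hx⟩ := IsFF.exists_transcendental (K := K) (F := F)
  have := IsFF.finite_adjoin x hx
  have : Nonempty (Place K F) := exists_place
  have : ∀ v : Place K F, v.FiniteResidue := fun v => ⟨inferInstance⟩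
  refine ⟨RR.ell (0 : Divisor K F) - genusFF K F,
    2 * (genusFF K F : ℤ) - 2 * RR.ell (0 : Divisor K F) + 1, fun D hD => ?_⟩
  have := RR.ell_eq (K := K) x hx (D := D) (by omega)
  rw [RR.ell] at this
  omega

/-- `L(n · (y)_∞)`. -/
noncomputable def Lp (y : F) (n : ℤ) : Submodule K F := riemannRochSpace (n • poleD y)

variable {y : F}

theorem mem_Lp {n : ℤ} {f : F} :
    f ∈ Lp (K := K) y n ↔ ∀ v : Place K F, v.adicValuation f ≤ exp (n * max (-v.ord y) 0) := by
  change (∀ v : Place K F, v.adicValuation f ≤ exp ((n • poleD y : Divisor K F) v)) ↔ _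
  simp only [Finsupp.smul_apply, poleD_apply, smul_eq_mul]

theorem mem_Lp' {n : ℤ} {f : F} (hf : f ≠ 0) :
    f ∈ Lp (K := K) y n ↔ ∀ v : Place K F, -(n * max (-v.ord y) 0) ≤ v.ord f := by
  rw [Lp, mem_L_iff hf]
  simp only [Finsupp.smul_apply, poleD_apply, smul_eq_mul]

instance (n : ℤ) : FiniteDimensional K (Lp (K := K) y n) := finite_riemannRochSpace _

theorem Lp_mono {m n : ℤ} (h : m ≤ n) : Lp (K := K) y m ≤ Lp y n := by
  apply L_mono
  intro v
  simp only [Finsupp.smul_apply, smul_eq_mul]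
  exact mul_le_mul_of_nonneg_right h (poleD_nonneg y v)

theorem mul_mem_Lp {m n : ℤ} {f g : F} (hf : f ∈ Lp (K := K) y m) (hg : g ∈ Lp (K := K) y n) :
    f * g ∈ Lp (K := K) y (m + n) := by
  rw [Lp, add_smul]
  exact mem_L_mul hf hg

theorem one_mem_Lp {n : ℤ} (hn : 0 ≤ n) : (1 : F) ∈ Lp (K := K) y n := by
  rw [mem_Lp]
  intro v
  rw [map_one, ← exp_zero, exp_le_exp]
  positivity

theorem self_mem_Lp : y ∈ Lp (K := K) y 1 := by
  rcases eq_or_ne y 0 with rfl | hy
  · exact Submodule.zero_mem _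
  rw [mem_Lp' hy]
  intro v
  have := le_max_left (-v.ord y) 0
  omega

theorem pow_mem_Lp {n : ℤ} {f : F} (hf : f ∈ Lp (K := K) y n) (m : ℕ) :
    f ^ m ∈ Lp (K := K) y (m * n) := by
  induction m with
  | zero => simpa using one_mem_Lp (K := K) (y := y) (le_refl 0)
  | succ m ih =>
    rw [pow_succ]
    have := mul_mem_Lp ih hf
    convert this using 2
    push_cast
    ring

theorem self_pow_mem_Lp (m : ℕ) : y ^ m ∈ Lp (K := K) y m := by
  have := pow_mem_Lp (self_mem_Lp (K := K) (y := y)) m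
  simpa using this

theorem mem_Lp_of_pow_mem {n : ℤ} {f : F} {m : ℕ} (hm : 0 < m)
    (hf : f ^ m ∈ Lp (K := K) y (m * n)) : f ∈ Lp (K := K) y n := by
  rcases eq_or_ne f 0 with rfl | hf0
  · exact Submodule.zero_mem _
  rw [mem_Lp' (pow_ne_zero _ hf0)] at hf
  rw [mem_Lp' hf0]
  intro v
  have h1 := hf v
  rw [ord_pow] at h1
  have hm' : (0 : ℤ) < m := by exact_mod_cast hm
  by_contra h2
  push Not at h2
  have h3 : (m : ℤ) * v.ord f < m * -(n * max (-v.ord y) 0) := mul_lt_mul_of_pos_left h2 hm'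
  have h4 : (m : ℤ) * -(n * max (-v.ord y) 0) = -(m * n * max (-v.ord y) 0) := by ring
  omega

theorem ord_nonneg_of_mem_Lp {n : ℤ} {f : F} (hf : f ∈ Lp (K := K) y n) (v : Place K F)
    (hv : 0 ≤ v.ord y) : f ∈ v.toValuationSubring := by
  rw [mem_iff_val_le_one]
  have := mem_Lp.mp hf v
  rwa [max_eq_right (by omega), mul_zero, exp_zero] at this

/-- Description of `L(n(y)_∞)` on two charts. -/
theorem mem_Lp_iff_places {n : ℕ} {f : F} (hy0 : y ≠ 0) :
    f ∈ Lp (K := K) y n ↔
      (∀ w : Place K F, y ∈ w.toValuationSubring → f ∈ w.toValuationSubring) ∧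
      (∀ w : Place K F, y⁻¹ ∈ w.toValuationSubring → f * y⁻¹ ^ n ∈ w.toValuationSubring) := by
  constructor
  · intro hf
    refine ⟨fun w hw => ord_nonneg_of_mem_Lp hf w ((mem_iff_ord_nonneg w hy0).mp hw), fun w hw => ?_⟩
    rcases eq_or_ne f 0 with rfl | hf0
    · rw [zero_mul]; exact w.toValuationSubring.zero_mem
    rw [mem_iff_ord_nonneg w (inv_ne_zero hy0), w.ord_inv] at hw
    rw [mem_iff_ord_nonneg w (mul_ne_zero hf0 (pow_ne_zero _ (inv_ne_zero hy0))),
      w.ord_mul hf0 (pow_ne_zero _ (inv_ne_zero hy0)), ord_pow, w.ord_inv]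
    have h1 := (mem_Lp' hf0).mp hf w
    rw [max_eq_left hw] at h1
    linarith
  · rintro ⟨h1, h2⟩
    rcases eq_or_ne f 0 with rfl | hf0
    · exact Submodule.zero_mem _
    rw [mem_Lp' hf0]
    intro v
    rcases le_or_gt 0 (v.ord y) with hv | hv
    · have h3 := h1 v ((mem_iff_ord_nonneg v hy0).mpr hv)
      rw [mem_iff_ord_nonneg v hf0] at h3
      rw [max_eq_right (by omega)]
      omega
    · have h3 := h2 v ((mem_iff_ord_nonneg v (inv_ne_zero hy0)).mpr (by rw [v.ord_inv]; omega))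
      rw [mem_iff_ord_nonneg v (mul_ne_zero hf0 (pow_ne_zero _ (inv_ne_zero hy0))),
        v.ord_mul hf0 (pow_ne_zero _ (inv_ne_zero hy0)), ord_pow, v.ord_inv] at h3
      rw [max_eq_left (by omega)]
      linarith

theorem isIntegral_adjoin_iff {z f : F} :
    IsIntegral (Algebra.adjoin K {z}) f ↔
      ∀ w : Place K F, z ∈ w.toValuationSubring → f ∈ w.toValuationSubring := by
  rw [isIntegral_iff_forall_place]
  refine forall_congr' fun w => ?_
  have : (∀ r ∈ Algebra.adjoin K {z}, r ∈ w.toValuationSubring) ↔ z ∈ w.toValuationSubring := by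
    constructor
    · intro h; exact h z (Algebra.self_mem_adjoin_singleton K z)
    · intro h r hr
      rw [Algebra.adjoin_singleton_eq_range_aeval] at hr
      obtain ⟨p, rfl⟩ := hr
      exact aeval_mem w h p
  rw [this]

/-- Description of `L(n(y)_∞)` by integrality conditions. -/
theorem mem_Lp_iff_isIntegral {n : ℕ} {f : F} (hy0 : y ≠ 0) :
    f ∈ Lp (K := K) y n ↔ IsIntegral (Algebra.adjoin K {y}) f ∧
      IsIntegral (Algebra.adjoin K {y⁻¹}) (f * y⁻¹ ^ n) := by
  rw [mem_Lp_iff_places hy0, isIntegral_adjoin_iff, isIntegral_adjoin_iff]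

/-- The dimension of `L(n(y)_∞)`. -/
theorem exists_finrank_Lp (hy : Transcendental K y) :
    ∃ (c : ℤ) (n₀ : ℕ), ∀ n : ℤ, n₀ ≤ n →
      (finrank K (Lp (K := K) y n) : ℤ) = n * finrank K⟮y⟯ F + c := by
  obtain ⟨c, d₀, h⟩ := exists_RR K F
  have hfin := IsFF.finite_adjoin y hy
  have hpos : 0 < finrank K⟮y⟯ F := finrank_pos
  refine ⟨c, d₀.toNat, fun n hn => ?_⟩
  have hdeg : Divisor.degree (n • poleD (K := K) y) = n * finrank K⟮y⟯ F := by
    rw [map_zsmul, degree_poleD hy, smul_eq_mul]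
  rw [Lp, h _ ?_, hdeg]
  rw [hdeg]
  have h1 : d₀ ≤ n := (Int.self_le_toNat d₀).trans hn
  have h2 : 0 ≤ n := (by positivity : (0 : ℤ) ≤ d₀.toNat).trans hn
  have h3 : (1 : ℤ) ≤ finrank K⟮y⟯ F := by exact_mod_cast hpos
  nlinarith

/-- Multiplication by `y ^ m`. -/
noncomputable def mulPow (y : F) (m : ℕ) : F →ₗ[K] F := LinearMap.mulLeft K (y ^ m)

omit [IsFF K F] in
theorem mulPow_injective (hy0 : y ≠ 0) (m : ℕ) : Function.Injective (mulPow (K := K) y m) :=
  fun _ _ h => mul_left_cancel₀ (pow_ne_zero m hy0) h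

/-- Leading parts at infinity come from a bounded space. -/
theorem exists_leading (hy : Transcendental K y) :
    ∃ c₁ : ℕ, ∀ c m : ℕ, c₁ ≤ c → ∀ a ∈ Lp (K := K) y (c + m : ℕ),
      ∃ b ∈ Lp (K := K) y c, ∃ a' ∈ Lp (K := K) y ((c + m : ℕ) - 1), a = y ^ m * b + a' := by
  obtain ⟨c', n₀, hdim⟩ := exists_finrank_Lp (K := K) hy
  have hy0 : y ≠ 0 := by rintro rfl; exact hy isAlgebraic_zero
  refine ⟨n₀ + 1, fun c m hc a ha => ?_⟩
  set T := (Lp (K := K) y c).map (mulPow (K := K) y m) with hT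
  set B := Lp (K := K) y ((c + m : ℕ) - 1) with hB
  have hTle : T ≤ Lp (K := K) y (c + m : ℕ) := by
    rintro _ ⟨b, hb, rfl⟩
    have := mul_mem_Lp (self_pow_mem_Lp (K := K) (y := y) m) hb
    rw [mulPow, LinearMap.mulLeft_apply]
    convert this using 2
    push_cast
    ring
  have hBle : B ≤ Lp (K := K) y (c + m : ℕ) := Lp_mono (by omega)
  have hinf : T ⊓ B = (Lp (K := K) y (c - 1)).map (mulPow (K := K) y m) := by
    apply le_antisymm
    · rintro _ ⟨⟨b, hb, rfl⟩, hb2⟩
      refine ⟨b, ?_, rfl⟩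
      rcases eq_or_ne b 0 with rfl | hb0
      · exact Submodule.zero_mem _
      change b ∈ Lp (K := K) y (c - 1)
      change (mulPow (K := K) y m) b ∈ B at hb2
      rw [mulPow, LinearMap.mulLeft_apply, hB,
        mem_Lp' (mul_ne_zero (pow_ne_zero m hy0) hb0)] at hb2
      rw [mem_Lp' hb0]
      intro v
      have h1 := hb2 v
      rw [v.ord_mul (pow_ne_zero m hy0) hb0, ord_pow] at h1
      rcases le_or_gt 0 (v.ord y) with hv | hv
      · have h2 := (mem_Lp' hb0).mp hb v
        rw [max_eq_right (by omega)] at h2 ⊢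
        omega
      · rw [max_eq_left (by omega)] at h1 ⊢
        push_cast at h1
        nlinarith
    · rintro _ ⟨b, hb, rfl⟩
      refine ⟨⟨b, Lp_mono (by omega) hb, rfl⟩, ?_⟩
      have := mul_mem_Lp (self_pow_mem_Lp (K := K) (y := y) m) hb
      rw [mulPow, LinearMap.mulLeft_apply]
      change _ ∈ B
      rw [hB]
      convert this using 2
      push_cast
      ring
  have h1 := Submodule.finrank_sup_add_finrank_inf_eq T B
  have h2 : finrank K T = finrank K (Lp (K := K) y c) :=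
    (Submodule.equivMapOfInjective _ (mulPow_injective hy0 m) _).finrank_eq.symm
  have h3 : finrank K (T ⊓ B : Submodule K F) = finrank K (Lp (K := K) y (c - 1)) := by
    rw [hinf]
    exact (Submodule.equivMapOfInjective _ (mulPow_injective hy0 m) _).finrank_eq.symm
  have e1 := hdim c (by omega)
  have e2 := hdim (c - 1) (by omega)
  have e3 := hdim ((c + m : ℕ) - 1) (by push_cast; omega)
  have e4 := hdim (c + m : ℕ) (by push_cast; omega)
  rw [← hB] at e3
  have h4 : T ⊔ B = Lp (K := K) y (c + m : ℕ) := by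
    apply Submodule.eq_of_le_of_finrank_eq (sup_le hTle hBle)
    rw [h2, h3] at h1
    zify at h1
    rw [e1, e2, e3] at h1
    have e5 : (finrank K (T ⊔ B : Submodule K F) : ℤ) =
        finrank K (Lp (K := K) y (c + m : ℕ)) := by
      rw [e4]
      push_cast
      push_cast at h1
      linarith
    exact_mod_cast e5
  rw [← h4, Submodule.mem_sup] at ha
  obtain ⟨t, ht, a', ha', rfl⟩ := ha
  obtain ⟨b, hb, rfl⟩ := ht
  exact ⟨b, hb, a', ha', rfl⟩

end Basic

end Fermat.Agent.TwoComp
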