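import Fermat.Agent.TwoComp.RedRing
import Mathlib.RingTheory.Polynomial.RationalRoot
import Mathlib.RingTheory.Valuation.LocalSubring
import Mathlib.RingTheory.PrincipalIdealDomain

/-!
# Orthonormal bases and integrality
-/

set_option autoImplicit false

open Module Polynomial
open scoped IntermediateField

namespace Fermat.Agent.TwoComp

namespace RedRing

variable {K F k E : Type*} [Field K] [Field F] [Algebra K F] [Field k] [CommRing E]
  [Algebra k E] {R : RedRing K F k E}

theorem ρ_eq_zero_of_mul {a : R.A} (ha : R.res a = 0) (g : R.O) :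
    R.ρ (R.algA a * g) = 0 := by
  rw [map_mul, ρ_algA, ha, map_zero, zero_mul]

/-- Sums with coefficients in `A`. -/
theorem ρ_sum_smul {ι : Type*} [Fintype ι] (c : ι → R.A) (f : ι → R.O) :
    R.ρ (∑ i, R.algA (c i) * f i) = ∑ i, R.res (c i) • R.ρ (f i) := by
  rw [map_sum]
  exact Finset.sum_congr rfl fun i _ => by rw [map_mul, ρ_algA, Algebra.smul_def]

/-- If the reductions are independent, coordinates of elements of `O` are in `A`. -/
theorem coord_mem {ι : Type*} [Fintype ι] {b : ι → R.O}
    (hli : LinearIndependent k (fun i => R.ρ (b i))) {c : ι → K}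
    (hc : ∑ i, c i • (b i : F) ∈ R.O) (i : ι) : c i ∈ R.A := by
  by_contra hi
  have hne : c ≠ 0 := by rintro rfl; exact hi R.A.zero_mem
  obtain ⟨l, hl0, hl⟩ := exists_max R.A c hne
  have hlA : c l ∉ R.A := by
    intro h
    apply hi
    have h1 := R.A.mul_mem _ _ h (hl i)
    rwa [mul_inv_cancel_left₀ hl0] at h1
  have hinvA : (c l)⁻¹ ∈ R.A := (R.A.mem_or_inv_mem (c l)).resolve_left hlA
  have h0 : R.res ⟨(c l)⁻¹, hinvA⟩ = 0 := by
    rw [R.res_eq_zero_iff, ValuationSubring.mem_nonunits_iff, map_inv₀]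
    apply inv_lt_one_of_one_lt₀
    rw [← not_le, ValuationSubring.valuation_le_one_iff]
    exact hlA
  have h1 : ∑ i, R.algA ⟨_, hl i⟩ * b i = R.algA ⟨_, hinvA⟩ * ⟨_, hc⟩ := by
    apply Subtype.ext
    rw [AddSubmonoidClass.coe_finsetSum, Subring.coe_mul, coe_algA, Finset.mul_sum]
    refine Finset.sum_congr rfl fun i _ => ?_
    rw [Subring.coe_mul, coe_algA, Algebra.smul_def, ← mul_assoc, ← map_mul]
  have h2 := congrArg R.ρ h1
  rw [ρ_sum_smul, ρ_eq_zero_of_mul h0] at h2
  have h3 := Fintype.linearIndependent_iff.mp hli _ h2 l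
  have h4 : (⟨(c l)⁻¹ * c l, hl l⟩ : R.A) = 1 := Subtype.ext (inv_mul_cancel₀ hl0)
  rw [h4, map_one] at h3
  exact one_ne_zero h3

/-- A family with independent reductions is independent. -/
theorem linearIndependent_of_ρ {ι : Type*} [Fintype ι] {b : ι → R.O}
    (hli : LinearIndependent k (fun i => R.ρ (b i))) :
    LinearIndependent K (fun i => (b i : F)) := by
  rw [Fintype.linearIndependent_iff]
  intro c hc
  by_contra hne
  push Not at hne
  have hne' : c ≠ 0 := by
    rintro rfl
    obtain ⟨i, hi⟩ := hne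
    exact hi rfl
  obtain ⟨l, hl0, hl⟩ := exists_max R.A c hne'
  have h1 : ∑ i, R.algA ⟨_, hl i⟩ * b i = 0 := by
    apply Subtype.ext
    rw [AddSubmonoidClass.coe_finsetSum, Subring.coe_zero]
    have : ∑ i, ((R.algA ⟨_, hl i⟩ * b i : R.O) : F) = (c l)⁻¹ • ∑ i, c i • (b i : F) := by
      rw [Finset.smul_sum]
      refine Finset.sum_congr rfl fun i _ => ?_
      rw [Subring.coe_mul, coe_algA, smul_smul, Algebra.smul_def]
    rw [this, hc, smul_zero]
  have h2 := congrArg R.ρ h1
  rw [ρ_sum_smul, map_zero] at h2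
  have h3 := Fintype.linearIndependent_iff.mp hli _ h2 l
  have h4 : (⟨(c l)⁻¹ * c l, hl l⟩ : R.A) = 1 := Subtype.ext (inv_mul_cancel₀ hl0)
  rw [h4, map_one] at h3
  exact one_ne_zero h3

/-- Orthonormal bases. -/
def Ortho (R : RedRing K F k E) : Prop :=
  ∀ (V : Submodule K F) [FiniteDimensional K V],
    ∃ (b : Basis (Fin (finrank K V)) K V) (hb : ∀ i, ((b i : V) : F) ∈ R.O),
      LinearIndependent k (fun i => R.ρ ⟨((b i : V) : F), hb i⟩)

theorem Indep.ortho [Nontrivial E] {x : R.O} (hx : R.Generic x) {ι : Type*} [Fintype ι]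
    [Nonempty ι] {f : ι → R.O} (hf : Indep x f) (hcard : Fintype.card ι = finrank K⟮(x : F)⟯ F) :
    R.Ortho := by
  classical
  intro V _
  set d := finrank K V with hd
  let v := Module.finBasis K V
  let B := basisOfLinearIndependentOfCardEqFinrank (hf.linearIndependent hx) hcard
  have hB : ∀ i, B i = (f i : F) := fun i => by
    simp [B]
  -- coordinates of `v a`
  obtain ⟨q, p, hq, hp⟩ := hx.exists_common' (ι := Fin d × ι)
    (fun ai => (B.repr (v ai.1 : F) ai.2 : F)) (fun ai => SetLike.coe_mem _)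
  have hq0 := hx.ev_ne_zero hq
  have hqinv := hx.inv_ev_mem hq
  set Q : F := ((R.ev x q : R.O) : F) with hQ
  obtain ⟨M, hM⟩ : ∃ M : ℕ, ∀ ai, (p ai).natDegree < M :=
    ⟨(Finset.univ.sup fun ai => (p ai).natDegree) + 1, fun ai =>
      Nat.lt_succ_of_le (Finset.le_sup (f := fun ai => (p ai).natDegree) (Finset.mem_univ ai))⟩
  let t : ι × Fin M → R.O := fun im => x ^ (im.2 : ℕ) * f im.1 * ⟨Q⁻¹, hqinv⟩
  -- reductions of t are independent
  have htli : LinearIndependent k (fun im => R.ρ (t im)) := by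
    rw [Fintype.linearIndependent_iff]
    intro c hc
    have h1 : ∑ i, aeval (R.ρ x) (∑ m : Fin M, C (c (i, m)) * X ^ (m : ℕ)) * R.ρ (f i) = 0 := by
      have h2 : R.ρ ⟨Q⁻¹, hqinv⟩ * R.ρ (R.ev x q) = 1 := by
        rw [← map_mul, ← map_one R.ρ]
        exact congrArg R.ρ (Subtype.ext (inv_mul_cancel₀ hq0))
      have h3 : (∑ i, aeval (R.ρ x) (∑ m : Fin M, C (c (i, m)) * X ^ (m : ℕ)) * R.ρ (f i)) *
          R.ρ ⟨Q⁻¹, hqinv⟩ = 0 := by
        rw [← hc, Finset.sum_mul, Fintype.sum_prod_type]
        refine Finset.sum_congr rfl fun i _ => ?_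
        rw [map_sum, Finset.sum_mul, Finset.sum_mul]
        refine Finset.sum_congr rfl fun m _ => ?_
        simp only [t, map_mul, map_pow, aeval_C, aeval_X, Algebra.smul_def]
        ring
      have h4 := congrArg (· * R.ρ (R.ev x q)) h3
      simp only [mul_assoc, h2, mul_one, zero_mul] at h4
      exact h4
    rintro ⟨i, m⟩
    have h5 := hf _ h1 i
    have h6 := congrArg (fun r => r.coeff (m : ℕ)) h5
    simp only [finsetSum_coeff, coeff_C_mul, coeff_X_pow, coeff_zero, mul_ite, mul_one,
      mul_zero] at h6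
    rw [Finset.sum_eq_single m] at h6
    · simpa using h6
    · intro b _ hb
      rw [if_neg]
      intro h
      exact hb (Fin.ext h.symm)
    · simp
  have htliK := linearIndependent_of_ρ htli
  let φ : (ι × Fin M → K) →ₗ[K] F := Fintype.linearCombination K (fun im => ((t im : R.O) : F))
  have hφinj : Function.Injective φ := by
    rw [injective_iff_map_eq_zero]
    intro c hc
    exact funext (Fintype.linearIndependent_iff.mp htliK c hc)
  have hVφ : V ≤ LinearMap.range φ := by
    have h1 : ∀ a, ((v a : V) : F) ∈ LinearMap.range φ := by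
      intro a
      refine ⟨fun im => (p (a, im.1)).coeff im.2, ?_⟩
      have h2 : ((v a : V) : F) = ∑ i, B.repr (v a : F) i • B i := (B.sum_repr _).symm
      rw [h2]
      change ∑ im : ι × Fin M, (p (a, im.1)).coeff im.2 • ((t im : R.O) : F) = _
      rw [Fintype.sum_prod_type]
      refine Finset.sum_congr rfl fun i _ => ?_
      have h3 := hp (a, i)
      rw [Algebra.smul_def, hB]
      have h4 : (algebraMap K⟮(x : F)⟯ F) (B.repr (v a : F) i) = aeval (x : F) (p (a, i)) * Q⁻¹ := by
        rw [← h3, mul_assoc, mul_inv_cancel₀ hq0, mul_one]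
        rfl
      rw [h4, aeval_eq_sum_range' (hM (a, i)), Finset.sum_range, Finset.sum_mul, Finset.sum_mul]
      refine Finset.sum_congr rfl fun m _ => ?_
      simp only [t, Subring.coe_mul, Subring.coe_pow, Algebra.smul_def]
      ring
    intro w hw
    have h5 : w = ∑ a, v.repr ⟨w, hw⟩ a • ((v a : V) : F) := by
      conv_lhs => rw [show w = ((⟨w, hw⟩ : V) : F) from rfl, ← v.sum_repr ⟨w, hw⟩]
      rw [Submodule.coe_sum]
      rfl
    rw [h5]
    exact Submodule.sum_mem _ fun a _ => Submodule.smul_mem _ _ (h1 a)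
  let W := V.comap φ
  have hW : finrank K W = d := by
    have h1 : (V.comap φ).map φ = V := by
      rw [Submodule.map_comap_eq, inf_eq_right.mpr hVφ]
    have h2 := (Submodule.equivMapOfInjective φ hφinj W).finrank_eq
    rw [h2, h1]
  obtain ⟨b, hbW, hbli⟩ := exists_ortho R.A R.res d W hW
  have hbO : ∀ a, φ (fun im => (b a im : K)) = ((∑ im, R.algA (b a im) * t im : R.O) : F) := by
    intro a
    change ∑ im, (b a im : K) • ((t im : R.O) : F) = _
    rw [AddSubmonoidClass.coe_finsetSum]
    exact Finset.sum_congr rfl fun im _ => Algebra.smul_def _ _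
  let e : Fin d → V := fun a => ⟨φ (fun im => (b a im : K)), hbW a⟩
  have heO : ∀ a, ((e a : V) : F) ∈ R.O := fun a => by
    change φ (fun im => (b a im : K)) ∈ R.O
    rw [hbO]; exact SetLike.coe_mem _
  have heρ : ∀ a, R.ρ ⟨_, heO a⟩ = ∑ im, R.res (b a im) • R.ρ (t im) := by
    intro a
    rw [← ρ_sum_smul]
    exact congrArg R.ρ (Subtype.ext (hbO a))
  have heli : LinearIndependent k (fun a => R.ρ ⟨_, heO a⟩) := by
    simp only [heρ]
    rw [Fintype.linearIndependent_iff] at hbli ⊢
    intro c hc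
    apply hbli
    have h1 : ∑ im, (∑ a, c a * R.res (b a im)) • R.ρ (t im) = 0 := by
      rw [← hc]
      simp only [Finset.smul_sum, Finset.sum_smul, smul_smul]
      rw [Finset.sum_comm]
    have h2 := Fintype.linearIndependent_iff.mp htli _ h1
    funext im
    simpa using h2 im
  have heliK : LinearIndependent K e := by
    have h1 := linearIndependent_of_ρ (b := fun a => (⟨_, heO a⟩ : R.O)) heli
    exact LinearIndependent.of_comp V.subtype h1
  refine ⟨basisOfLinearIndependentOfCardEqFinrank' e heliK (by simp [hd]), ?_, ?_⟩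
  · intro i
    rw [coe_basisOfLinearIndependentOfCardEqFinrank']
    exact heO i
  · simpa using heli

/-- Integrality over `K[x]` inside `O` descends to the reduction. -/
theorem Indep.isIntegral_ρ [Nontrivial E] {x : R.O} (hx : R.Generic x) {ι : Type*} [Fintype ι]
    [Nonempty ι] {f : ι → R.O} (hf : Indep x f) (hcard : Fintype.card ι = finrank K⟮(x : F)⟯ F)
    (g : R.O) (hg : IsIntegral (Algebra.adjoin K {(x : F)}) (g : F)) :
    IsIntegral (Algebra.adjoin k {R.ρ x}) (R.ρ g) := by
  classical
  let B := basisOfLinearIndependentOfCardEqFinrank (hf.linearIndependent hx) hcard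
  have hB : ∀ i, B i = (f i : F) := fun i => by simp [B]
  let _ : Algebra hx.valL F := ((algebraMap K⟮(x : F)⟯ F).comp (algebraMap hx.valL _)).toAlgebra
  have : IsScalarTower hx.valL K⟮(x : F)⟯ F := IsScalarTower.of_algebraMap_eq fun _ => rfl
  have hint : IsIntegral hx.valL (g : F) := by
    refine isIntegral_of_smul_mem_submodule (M := F)
      (Submodule.span hx.valL (Set.range fun i => ((f i : R.O) : F))) ?_ ?_ (g : F) ?_
    · rw [Submodule.ne_bot_iff]
      obtain ⟨i⟩ := ‹Nonempty ι›
      exact ⟨_, Submodule.subset_span ⟨i, rfl⟩, (hf.linearIndependent hx).ne_zero i⟩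
    · exact Submodule.fg_span (Set.finite_range _)
    · intro n hn
      induction hn using Submodule.span_induction with
      | mem n hn =>
        obtain ⟨l, rfl⟩ := hn
        have h1 : (g : F) * (f l : F) = ∑ i, (B.repr ((g : F) * (f l : F)) i : F) * (f i : F) := by
          conv_lhs => rw [← B.sum_repr ((g : F) * (f l : F))]
          refine Finset.sum_congr rfl fun i _ => ?_
          rw [Algebra.smul_def, hB]
          rfl
        have h2 : ∀ i, (B.repr ((g : F) * (f l : F)) i : F) ∈ R.O := by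
          apply hf.mem_of_sum_mem hx
          rw [← h1]
          exact (g * f l).2
        rw [smul_eq_mul, h1]
        refine Submodule.sum_mem _ fun i _ => ?_
        have h3 : (B.repr ((g : F) * (f l : F)) i : F) * (f i : F) =
            (⟨_, (hx.mem_valL _).mpr (h2 i)⟩ : hx.valL) • (f i : F) := by
          rw [Algebra.smul_def]; rfl
        rw [h3]
        exact Submodule.smul_mem _ _ (Submodule.subset_span ⟨i, rfl⟩)
      | zero => simp
      | add a b _ _ ha hb => rw [smul_add]; exact Submodule.add_mem _ ha hb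
      | smul c a _ ha =>
        rw [smul_comm]
        exact Submodule.smul_mem _ _ ha
  set P := minpoly K⟮(x : F)⟯ (g : F) with hP
  have hPO : ∀ i, (P.coeff i : F) ∈ R.O := by
    intro i
    have h1 := minpoly.isIntegrallyClosed_eq_field_fractions' K⟮(x : F)⟯ hint
    rw [← hP] at h1
    rw [h1, coeff_map]
    exact ((minpoly hx.valL (g : F)).coeff i).2
  have hPK : ∀ i, (P.coeff i : F) ∈ Algebra.adjoin K {(x : F)} := by
    intro i
    open IntermediateField.algebraAdjoinAdjoin in
    have hpid : IsPrincipalIdealRing (Algebra.adjoin K {(x : F)}) :=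
      IsPrincipalIdealRing.of_surjective
        (Polynomial.algEquivOfTranscendental K _ hx.transcendental : K[X] →+* _)
        (Polynomial.algEquivOfTranscendental K _ hx.transcendental).surjective
    open IntermediateField.algebraAdjoinAdjoin in
    have h1 := minpoly.isIntegrallyClosed_eq_field_fractions' K⟮(x : F)⟯ hg
    rw [← hP] at h1
    rw [h1, coeff_map]
    exact ((minpoly (Algebra.adjoin K {(x : F)}) (g : F)).coeff i).2
  have hcoef : ∀ i, ∃ p : R.A[X], (P.coeff i : F) = ((R.ev x p : R.O) : F) := by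
    intro i
    have h1 := hPK i
    rw [Algebra.adjoin_singleton_eq_range_aeval] at h1
    obtain ⟨r, hr⟩ := h1
    replace hr : aeval (x : F) r = (P.coeff i : F) := hr
    rcases eq_or_ne r 0 with rfl | hr0
    · exact ⟨0, by rw [← hr]; simp⟩
    obtain ⟨c, p₀, hc, hpc, hp₀⟩ := exists_primitive R.A R.res hr0
    have h2 : (P.coeff i : F) = algebraMap K F c * ((R.ev x p₀ : R.O) : F) := by
      rw [← hr, hpc, map_mul, aeval_C, coe_ev]
    have hcA : c ∈ R.A := by
      rw [← R.mem_O_iff]
      have h3 : algebraMap K F c = (P.coeff i : F) * ((R.ev x p₀ : R.O) : F)⁻¹ := by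
        rw [h2, mul_assoc, mul_inv_cancel₀ (hx.ev_ne_zero hp₀), mul_one]
      rw [h3]
      exact R.O.mul_mem (hPO i) (hx.inv_ev_mem hp₀)
    refine ⟨C ⟨c, hcA⟩ * p₀, ?_⟩
    rw [h2, map_mul, Subring.coe_mul]
    congr 1
    simp [ev]
  choose p hp using hcoef
  have hint' : IsIntegral K⟮(x : F)⟯ (g : F) := hint.tower_top
  have hmonic : P.Monic := minpoly.monic hint'
  set d := P.natDegree with hd
  have hrel : g ^ d + ∑ i ∈ Finset.range d, R.ev x (p i) * g ^ i = 0 := by
    apply Subtype.ext
    have h1 : aeval (g : F) P = 0 := minpoly.aeval _ _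
    rw [hmonic.as_sum, map_add, map_pow, aeval_X, map_sum] at h1
    rw [Subring.coe_zero, ← h1, Subring.coe_add, Subring.coe_pow, AddSubmonoidClass.coe_finsetSum]
    congr 1
    refine Finset.sum_congr rfl fun i _ => ?_
    rw [Subring.coe_mul, Subring.coe_pow, ← hp, map_mul, map_pow, aeval_C, aeval_X]
    rfl
  have hrel2 := congrArg R.ρ hrel
  rw [map_add, map_pow, map_sum, map_zero] at hrel2
  have hmem : ∀ i, R.ρ (R.ev x (p i)) ∈ Algebra.adjoin k {R.ρ x} := by
    intro i
    rw [ρ_ev]
    exact aeval_mem_adjoin_singleton k (R.ρ x)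
  refine ⟨X ^ d + ∑ i ∈ Finset.range d, C (⟨_, hmem i⟩ : Algebra.adjoin k {R.ρ x}) * X ^ i, ?_, ?_⟩
  · apply monic_X_pow_add
    rcases Nat.eq_zero_or_pos d with h0 | h0
    · rw [h0]; simp
    · rw [degree_lt_iff_coeff_zero]
      intro m hm
      rw [finsetSum_coeff]
      refine Finset.sum_eq_zero fun i hi => ?_
      rw [coeff_C_mul, coeff_X_pow, if_neg, mul_zero]
      rw [Finset.mem_range] at hi
      omega
  · rw [eval₂_add, eval₂_pow, eval₂_X, eval₂_finsetSum]
    rw [← hrel2]
    congr 1
    refine Finset.sum_congr rfl fun i _ => ?_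
    rw [eval₂_mul, eval₂_C, eval₂_pow, eval₂_X, map_mul, map_pow]
    rfl

end RedRing

end Fermat.Agent.TwoComp
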