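import Fermat.Agent.TwoComp.Defs
import Fermat.Agent.TwoComp.Ortho
import Fermat.Agent.TwoComp.Lp

/-!
# The two component reduction as a reduction ring
-/

set_option autoImplicit false

open AlgebraicCurve WithZero Module Polynomial
open scoped IntermediateField
open Fermat.Agent.RR Fermat.Agent.Deuring Fermat.Agent.FF

namespace Fermat.Agent.TwoComp

namespace Data

variable {K Fm F k F' : Type*} [Field K] [Field Fm] [Algebra K Fm] [Field F]
    [Algebra K F] [Field k] [Field F'] [Algebra k F'] {q : ℕ} (D : Data K Fm F k F' q)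

/-- Exchange the two components. -/
def swap : Data K Fm F k F' q where
  G := D.G
  O₁ := D.O₂
  O₂ := D.O₁
  ρ₁ := D.ρ₂
  ρ₂ := D.ρ₁
  ρ₁_eq_zero_iff := D.ρ₂_eq_zero_iff
  ρ₂_eq_zero_iff := D.ρ₁_eq_zero_iff
  mem_O₁_iff := D.mem_O₂_iff
  mem_O₂_iff := D.mem_O₁_iff
  ρ₁_algebraMap := D.ρ₂_algebraMap
  ρ₂_algebraMap := D.ρ₁_algebraMap
  surj := fun a b => by
    obtain ⟨f, h₁, h₂, ha, hb⟩ := D.surj b a
    exact ⟨f, h₂, h₁, hb, ha⟩
  V := D.V
  σ := D.σ
  σ_algebraMap := D.σ_algebraMap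
  V_σ := D.V_σ
  α := D.β
  β := D.α
  α_mem₁ := D.β_mem₂
  α_mem₂ := D.β_mem₁
  β_mem₁ := D.α_mem₂
  β_mem₂ := D.α_mem₁
  ρ₁_α := D.ρ₂_β
  ρ₂_α := D.ρ₁_β
  ρ₁_β := D.ρ₂_α
  ρ₂_β := D.ρ₁_α
  j := D.j
  j_mem := D.j_mem
  ρ_j_transcendental := D.ρ_j_transcendental
  V_j := D.V_j
  ψ := D.ψ
  ψ_pos := D.ψ_pos
  finrank_Fm := D.finrank_Fm
  finrank_F' := D.finrank_F'
  finrank_α := D.finrank_β
  finrank_β := D.finrank_α
  cusp_α := D.cusp_β
  cusp_β := D.cusp_α
  c₀ := D.c₀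
  good := D.good

/-- The reduction of `j`. -/
def jb : F' := D.G.ρ ⟨D.j, D.j_mem⟩

theorem jb_transcendental : Transcendental k D.jb := D.ρ_j_transcendental

theorem jb_ne_zero : D.jb ≠ 0 := by
  intro h
  exact D.jb_transcendental (h ▸ isAlgebraic_zero)

theorem V_jb : D.V D.jb = D.jb ^ q := D.V_j

/-- The ring of functions integral at both components. -/
def O : Subring F := D.O₁.toSubring ⊓ D.O₂.toSubring

theorem mem_O {f : F} : f ∈ D.O ↔ f ∈ D.O₁ ∧ f ∈ D.O₂ := Iff.rfl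

/-- inclusion in the first valuation ring -/
def incl₁ : D.O →+* D.O₁ where
  toFun x := ⟨x, (D.mem_O.mp x.2).1⟩
  map_one' := rfl
  map_mul' _ _ := rfl
  map_zero' := rfl
  map_add' _ _ := rfl

/-- inclusion in the second valuation ring -/
def incl₂ : D.O →+* D.O₂ where
  toFun x := ⟨x, (D.mem_O.mp x.2).2⟩
  map_one' := rfl
  map_mul' _ _ := rfl
  map_zero' := rfl
  map_add' _ _ := rfl

/-- The joint reduction map. -/
def ρ : D.O →+* F' × F' := (D.ρ₁.comp D.incl₁).prod (D.ρ₂.comp D.incl₂)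

theorem ρ_apply (x : D.O) : D.ρ x = (D.ρ₁ (D.incl₁ x), D.ρ₂ (D.incl₂ x)) := rfl

theorem fst_ρ (x : D.O) : (D.ρ x).1 = D.ρ₁ ⟨x, (D.mem_O.mp x.2).1⟩ := rfl

theorem snd_ρ (x : D.O) : (D.ρ x).2 = D.ρ₂ ⟨x, (D.mem_O.mp x.2).2⟩ := rfl

theorem inv_mem_O₁ {x : F} (hx : x ∈ D.O₁) (h : D.ρ₁ ⟨x, hx⟩ ≠ 0) : x⁻¹ ∈ D.O₁ := by
  rw [ne_eq, D.ρ₁_eq_zero_iff, ValuationSubring.mem_nonunits_iff, not_lt] at h
  rw [← ValuationSubring.valuation_le_one_iff, map_inv₀]
  exact inv_le_one_of_one_le₀ h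

theorem inv_mem_O₂ {x : F} (hx : x ∈ D.O₂) (h : D.ρ₂ ⟨x, hx⟩ ≠ 0) : x⁻¹ ∈ D.O₂ :=
  D.swap.inv_mem_O₁ hx h

theorem inv_mem_O (x : D.O) (h : IsUnit (D.ρ x)) : (x : F)⁻¹ ∈ D.O := by
  rw [Prod.isUnit_iff] at h
  exact ⟨D.inv_mem_O₁ _ h.1.ne_zero, D.inv_mem_O₂ _ h.2.ne_zero⟩

/-- The reduction ring. -/
def R : RedRing K F k (F' × F') where
  A := D.G.A
  res := D.G.res
  res_surj := D.G.res_surj
  res_eq_zero_iff := D.G.res_eq_zero_iff
  O := D.O
  ρ := D.ρ
  mem_O_iff := fun a => by rw [mem_O, D.mem_O₁_iff, D.mem_O₂_iff, and_self]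
  ρ_algebraMap := fun a => Prod.ext (D.ρ₁_algebraMap a) (D.ρ₂_algebraMap a)
  inv_mem := D.inv_mem_O

theorem ρ_surj : Function.Surjective D.ρ := by
  rintro ⟨a, b⟩
  obtain ⟨f, h₁, h₂, ha, hb⟩ := D.surj a b
  exact ⟨⟨f, h₁, h₂⟩, Prod.ext ha hb⟩

theorem R_ρ_surj : Function.Surjective D.R.ρ := D.ρ_surj

theorem fst_R_ρ (x : D.R.O) : (D.R.ρ x).1 = D.ρ₁ ⟨x, x.2.1⟩ := rfl

theorem snd_R_ρ (x : D.R.O) : (D.R.ρ x).2 = D.ρ₂ ⟨x, x.2.2⟩ := rfl

theorem fst_aeval (x : F' × F') (p : k[X]) : (aeval x p).1 = aeval x.1 p := by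
  exact (Polynomial.aeval_algHom_apply (AlgHom.fst k F' F') x p).symm

theorem snd_aeval (x : F' × F') (p : k[X]) : (aeval x p).2 = aeval x.2 p := by
  exact (Polynomial.aeval_algHom_apply (AlgHom.snd k F' F') x p).symm

theorem generic_of {x : D.R.O} (h₁ : Transcendental k (D.R.ρ x).1)
    (h₂ : Transcendental k (D.R.ρ x).2) : D.R.Generic x := by
  intro p hp
  rw [Prod.isUnit_iff]
  constructor
  · rw [fst_aeval]
    exact IsUnit.mk0 _ fun h => h₁ ⟨p, hp, h⟩
  · rw [snd_aeval]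
    exact IsUnit.mk0 _ fun h => h₂ ⟨p, hp, h⟩

/-- A `k[x]`-independent family of the right size for `ρ(x) = (y, y^q)`. -/
theorem exists_indep (hq : 0 < q) (x : D.R.O) (y : F') (hy : Transcendental k y)
    (hfin : finrank k⟮y⟯ F' = D.ψ) (hx : D.R.ρ x = (y, y ^ q)) :
    ∃ f : Fin D.ψ ⊕ Fin D.ψ × Fin q → D.R.O, RedRing.Indep x f := by
  classical
  have : FiniteDimensional k⟮y⟯ F' := FiniteDimensional.of_finrank_pos (by rw [hfin]; exact D.ψ_pos)
  let b := finBasisOfFinrankEq k⟮y⟯ F' hfin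
  -- `b` is `k[y]`-independent
  have hb : ∀ p : Fin D.ψ → k[X], ∑ i, aeval y (p i) * b i = 0 → ∀ i, p i = 0 := by
    intro p hp i
    have h1 := Fintype.linearIndependent_iff.mp b.linearIndependent
      (fun i => aeval (⟨y, IntermediateField.mem_adjoin_simple_self k y⟩ : k⟮y⟯) (p i)) (by
        rw [← hp]
        refine Finset.sum_congr rfl fun i _ => ?_
        rw [Algebra.smul_def]
        congr 1
        exact (Polynomial.aeval_algHom_apply (IntermediateField.val k⟮y⟯)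
          (⟨y, IntermediateField.mem_adjoin_simple_self k y⟩ : k⟮y⟯) (p i)).symm) i
    by_contra hne
    apply hy
    refine ⟨p i, hne, ?_⟩
    have h2 := congrArg (IntermediateField.val k⟮y⟯) h1
    rw [← Polynomial.aeval_algHom_apply, map_zero] at h2
    exact h2
  choose g hg using fun i : Fin D.ψ ⊕ Fin D.ψ × Fin q => D.R_ρ_surj
    (Sum.elim (fun i => (b i, 0)) (fun il => (0, b il.1 * y ^ (il.2 : ℕ))) i)
  refine ⟨g, fun p hp => ?_⟩
  change ∑ i, aeval (D.R.ρ x) (p i) * D.R.ρ (g i) = 0 at hp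
  simp only [hg] at hp
  rw [Fintype.sum_sum_type] at hp
  have h1 : ∑ i, aeval y (p (Sum.inl i)) * b i = 0 := by
    have := congrArg Prod.fst hp
    simpa [Prod.fst_sum, Prod.fst_mul, fst_aeval, hx] using this
  have h2 : ∑ i : Fin D.ψ × Fin q, aeval (y ^ q) (p (Sum.inr i)) * (b i.1 * y ^ (i.2 : ℕ)) = 0 := by
    have := congrArg Prod.snd hp
    simpa [Prod.snd_sum, Prod.snd_mul, snd_aeval, hx] using this
  have h3 := hb _ h1
  have h4 : ∀ i, ∑ l : Fin q, expand k q (p (Sum.inr (i, l))) * X ^ (l : ℕ) = 0 := by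
    apply hb
    rw [← h2, Fintype.sum_prod_type]
    refine Finset.sum_congr rfl fun i _ => ?_
    rw [map_sum, Finset.sum_mul]
    refine Finset.sum_congr rfl fun l _ => ?_
    rw [map_mul, map_pow, aeval_X, expand_aeval]
    ring
  rintro (i | ⟨i, l⟩)
  · exact h3 i
  · ext n
    rw [coeff_zero]
    have h5 := congrArg (fun r => r.coeff (q * n + l)) (h4 i)
    simp only [finsetSum_coeff, coeff_zero] at h5
    rw [Finset.sum_eq_single l] at h5
    · rw [coeff_mul_X_pow, mul_comm, coeff_expand_mul hq] at h5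
      exact h5
    · intro l' _ hl'
      rw [coeff_mul_X_pow']
      split_ifs with hle
      · rw [coeff_expand hq, if_neg]
        intro hdvd
        apply hl'
        have h6 : (q * n + l - l') % q = 0 := Nat.mod_eq_zero_of_dvd hdvd
        ext
        have hl1 := l.2
        have hl2 := l'.2
        rcases le_or_gt (l' : ℕ) (l : ℕ) with hc | hc
        · have h7 : q * n + l - l' = q * n + (l - l') := by omega
          rw [h7, Nat.mul_add_mod, Nat.mod_eq_of_lt (by omega)] at h6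
          omega
        · exfalso
          have h7 : 0 < n := by
            rcases Nat.eq_zero_or_pos n with h0 | h0
            · subst h0; omega
            · exact h0
          obtain ⟨n', rfl⟩ : ∃ n', n = n' + 1 := ⟨n - 1, by omega⟩
          have h8 : q * (n' + 1) + l - l' = q * n' + (q + l - l') := by
            rw [Nat.mul_add]; omega
          rw [h8, Nat.mul_add_mod, Nat.mod_eq_of_lt (by omega)] at h6
          omega
      · rfl
    · simp

end Data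

end Fermat.Agent.TwoComp
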