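import Fermat.Agent.TwoComp.Act
import Fermat.Agent.TwoComp.Basic
import Fermat.Agent.QX4.Defs
import Fermat.Agent.HeckeComm.Rows

/-!
# Toric classes: the easy half of the unipotence of inertia
-/

set_option autoImplicit false

open AlgebraicCurve WithZero Module
open scoped IntermediateField
open Fermat.Agent.RR Fermat.Agent.Deuring Fermat.Agent.FF
open Fermat.Agent.QX4 (Split exists_ord_eq_of_nsmul_eq_zero)

namespace Fermat.Agent.TwoComp

namespace Data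

variable {K Fm F k F' : Type*} [Field K] [Field Fm] [Algebra K Fm] [Field F] [Algebra K F]
  [Field k] [Field F'] [Algebra k F'] {q : ℕ} (D : Data K Fm F k F' q)

/-- every function may be scaled to a unit at each of the two components -/
structure Scal : Prop where
  fst : ∀ f : F, f ≠ 0 → ∃ c : K, c ≠ 0 ∧ ∃ h : algebraMap K F c * f ∈ D.O₁, D.ρ₁ ⟨_, h⟩ ≠ 0
  snd : ∀ f : F, f ≠ 0 → ∃ c : K, c ≠ 0 ∧ ∃ h : algebraMap K F c * f ∈ D.O₂, D.ρ₂ ⟨_, h⟩ ≠ 0

/-- The toric classes: split at both components. -/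
def Toric (n : ℕ) (x : Pic0 K F) : Prop := Split D.O₁ D.ρ₁ n x ∧ Split D.O₂ D.ρ₂ n x

theorem ord_smul_eq {g : SemilinearAut K F} {D₀ : Divisor K F} {f : F} {n : ℕ}
    (hf : ∀ v : Place K F, v.ord f = n * D₀ v) (v : Place K F) :
    v.ord (g • f) = n * (g • D₀) v := by
  have h := SemilinearAut.ord_smul g (g⁻¹ • v) f
  rw [smul_inv_smul] at h
  rw [SemilinearAut.divisor_smul_apply, ← hf, h]

/-- `g x - x` is split at a component on which `g` acts trivially -/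
theorem split_of_trivial {O : ValuationSubring F} {ρ : O →+* F'}
    (hρ : ∀ x : O, ρ x = 0 ↔ (x : F) ∈ O.nonunits) {g : SemilinearAut K F}
    (hmem : ∀ f ∈ O, g • f ∈ O) (hg : ∀ (f : F) (hf : f ∈ O), ρ ⟨g • f, hmem f hf⟩ = ρ ⟨f, hf⟩)
    (hs : ∀ f : F, f ≠ 0 → ∃ c : K, c ≠ 0 ∧ ∃ h : algebraMap K F c * f ∈ O, ρ ⟨_, h⟩ ≠ 0)
    {n : ℕ} {x : Pic0 K F} (hx : n • x = 0) : Split O ρ n (g • x - x) := by
  obtain ⟨D₀, rfl⟩ := Pic0.mk_surjective x
  obtain ⟨f, hf0, hf⟩ := exists_ord_eq_of_nsmul_eq_zero hx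
  obtain ⟨c, hc0, hcO, hcρ⟩ := hs f hf0
  set f₁ := algebraMap K F c * f with hf₁
  have hc0' : algebraMap K F c ≠ 0 := (map_ne_zero_iff _ (algebraMap K F).injective).mpr hc0
  have hf₁0 : f₁ ≠ 0 := mul_ne_zero hc0' hf0
  have hord : ∀ v : Place K F, v.ord f₁ = n * (D₀ : Divisor K F) v := by
    intro v
    rw [hf₁, v.ord_mul hc0' hf0, QX4.ord_algebraMap_eq_zero v hc0, zero_add, hf]
  have hinv : f₁⁻¹ ∈ O := by
    rw [ne_eq, hρ, ValuationSubring.mem_nonunits_iff, not_lt] at hcρ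
    rw [← ValuationSubring.valuation_le_one_iff, map_inv₀]
    exact inv_le_one_of_one_le₀ hcρ
  have hgf0 : g • f₁ ≠ 0 := by rwa [Ne, smul_eq_zero_iff_eq]
  have hmul : ρ ⟨f₁⁻¹, hinv⟩ * ρ ⟨f₁, hcO⟩ = 1 := by
    rw [← map_mul, ← map_one ρ]
    congr 1
    exact Subtype.ext (inv_mul_cancel₀ hf₁0)
  refine ⟨SemilinearAut.degZeroSMulHom g D₀ - D₀, g • f₁ * f₁⁻¹,
    mul_mem (hmem f₁ hcO) hinv, 1, rfl, one_ne_zero, fun v => ?_, ?_⟩
  · rw [v.ord_mul hgf0 (inv_ne_zero hf₁0), v.ord_inv, ord_smul_eq hord, hord]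
    rw [AddSubgroup.coe_sub, Finsupp.sub_apply, SemilinearAut.coe_degZeroSMulHom]
    ring
  · have h1 : (⟨g • f₁ * f₁⁻¹, mul_mem (hmem f₁ hcO) hinv⟩ : O) =
      ⟨g • f₁, hmem f₁ hcO⟩ * ⟨f₁⁻¹, hinv⟩ := rfl
    rw [h1, map_mul, hg f₁ hcO, one_pow, mul_comm, hmul]

/-- `g x - x` is toric for `g` in the inertia group. -/
theorem toric_of_actS (hD : D.Scal) {g : SemilinearAut K F}
    (hg : D.ActS g (RingHom.id _) (RingHom.id _)) {n : ℕ} {x : Pic0 K F} (hx : n • x = 0) :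
    D.Toric n (g • x - x) :=
  ⟨split_of_trivial D.ρ₁_eq_zero_iff hg.mem₁ hg.ρ₁ hD.fst hx,
    split_of_trivial D.ρ₂_eq_zero_iff hg.mem₂ hg.ρ₂ hD.snd hx⟩

/-- The hard half of the unipotence: inertia acts trivially on toric classes. -/
def Core (n : ℕ) : Prop :=
  ∀ g : SemilinearAut K F, D.ActS g (RingHom.id _) (RingHom.id _) →
    ∀ x : Pic0 K F, n • x = 0 → D.Toric n x → g • x = x

/-- unipotence of inertia, from the statement on toric classes -/
theorem smul_sub_of_core (hD : D.Scal) {n : ℕ} (hc : D.Core n) {g g' : SemilinearAut K F}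
    (hg : D.ActS g (RingHom.id _) (RingHom.id _)) (hg' : D.ActS g' (RingHom.id _) (RingHom.id _))
    {x : Pic0 K F} (hx : n • x = 0) : g' • (g • x - x) = g • x - x := by
  refine hc g' hg' _ ?_ (D.toric_of_actS hD hg hx)
  have h1 : n • (g • x) = g • (n • x) :=
    (map_nsmul (DistribSMul.toAddMonoidHom (Pic0 K F) g) n x).symm
  have h2 : g • (0 : Pic0 K F) = 0 := map_zero (DistribSMul.toAddMonoidHom (Pic0 K F) g)
  rw [nsmul_sub, h1, hx, h2, sub_zero]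

end Data

end Fermat.Agent.TwoComp
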