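import Fermat.Agent.TwoComp.Torus
import Fermat.Agent.TwoComp.Act
import Fermat.Agent.TwoComp.Toric

/-!
# `ActS` and `Act`; the statements on toric classes
-/

set_option autoImplicit false

open AlgebraicCurve WithZero Module
open scoped IntermediateField
open Fermat.Agent.RR Fermat.Agent.Deuring Fermat.Agent.FF Fermat.Agent.QX4

namespace Fermat.Agent.TwoComp

namespace Data

variable {K Fm F k F' : Type*} [Field K] [Field Fm] [Algebra K Fm] [Field F] [Algebra K F]
  [Field k] [Field F'] [Algebra k F'] {q : ℕ} {D : Data K Fm F k F' q}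

theorem ActS.toAct {g : SemilinearAut K F} {e : F' →+* F'} {s : k →+* k} (h : D.ActS g e s) :
    D.Act g e where
  mem₁ := h.mem₁
  mem₂ := h.mem₂
  ρ₁ := h.ρ₁
  ρ₂ := h.ρ₂
  smul_α := h.αj
  smul_β := h.βj

theorem ActS.toAct_id {g : SemilinearAut K F} {s : k →+* k} (h : D.ActS g (RingHom.id F') s) :
    D.Act g id := h.toAct

theorem ActS.toAct_σ {g : SemilinearAut K F} {s : k →+* k}
    (h : D.ActS g (D.σ : F' →+* F') s) : D.Act g D.σ := h.toAct

variable [IsFF K F] [IsFF k F'] [IsFF K Fm] [IsAlgClosed k] [IsAlgClosed K]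

/-- inertia acts trivially on toric classes -/
theorem core (hq : 2 ≤ q) (arch : D.Arch) {n : ℕ} (hn : (n : k) ≠ 0) : D.Core n :=
  fun _ hg _ _ ht => hg.toAct_id.smul_eq_self hq arch hn ht.1 ht.2

/-- the square of Frobenius on toric classes -/
theorem smul_smul_of_toric (hq : 2 ≤ q) (arch : D.Arch) {n : ℕ} (hn : (n : k) ≠ 0)
    {g : SemilinearAut K F} {s : k →+* k} (hg : D.ActS g (D.σ : F' →+* F') s) {x : Pic0 K F}
    (hx : D.Toric n x) : g • g • x = (q ^ 2) • x :=
  hg.toAct_σ.smul_smul_eq hq arch hn hx.1 hx.2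

end Data

end Fermat.Agent.TwoComp
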