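import Fermat.Agent.Deuring.Data
import Fermat.Agent.FF.AlgClosed

/-!
# Two-component reduction data

The data attached to the bad reduction of `X₀(qm)` at a prime `q ∤ m`: the function field `F` of
level `qm` has two Gauss valuations `O₁, O₂`, both with residue field the function field `F'` of
`X₀(m)` over the residue field `k`.
-/

set_option autoImplicit false

open AlgebraicCurve WithZero Module
open scoped IntermediateField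
open Fermat.Agent.RR Fermat.Agent.Deuring Fermat.Agent.FF

namespace Fermat.Agent.TwoComp

/-- `Fm` = function field of level `m` over `K`, `F` = function field of level `qm` over `K`,
`F'` = function field of level `m` over the residue field `k`. -/
structure Data (K Fm F k F' : Type*) [Field K] [Field Fm] [Algebra K Fm] [Field F]
    [Algebra K F] [Field k] [Field F'] [Algebra k F'] (q : ℕ) where
  /-- good reduction data at level `m` -/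
  G : GaussData K Fm k F'
  O₁ : ValuationSubring F
  O₂ : ValuationSubring F
  ρ₁ : O₁ →+* F'
  ρ₂ : O₂ →+* F'
  ρ₁_eq_zero_iff : ∀ x : O₁, ρ₁ x = 0 ↔ (x : F) ∈ O₁.nonunits
  ρ₂_eq_zero_iff : ∀ x : O₂, ρ₂ x = 0 ↔ (x : F) ∈ O₂.nonunits
  mem_O₁_iff : ∀ a : K, algebraMap K F a ∈ O₁ ↔ a ∈ G.A
  mem_O₂_iff : ∀ a : K, algebraMap K F a ∈ O₂ ↔ a ∈ G.A
  ρ₁_algebraMap : ∀ a : G.A, ρ₁ ⟨algebraMap K F a, (mem_O₁_iff _).mpr a.2⟩ =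
    algebraMap k F' (G.res a)
  ρ₂_algebraMap : ∀ a : G.A, ρ₂ ⟨algebraMap K F a, (mem_O₂_iff _).mpr a.2⟩ =
    algebraMap k F' (G.res a)
  /-- joint surjectivity -/
  surj : ∀ a b : F', ∃ (f : F) (h₁ : f ∈ O₁) (h₂ : f ∈ O₂), ρ₁ ⟨f, h₁⟩ = a ∧ ρ₂ ⟨f, h₂⟩ = b
  /-- `f(q) ↦ f(q^q)` on the residue function field -/
  V : F' →ₐ[k] F'
  /-- the coefficientwise Frobenius of the residue function field -/
  σ : F' ≃+* F'
  σ_algebraMap : ∀ c : k, σ (algebraMap k F' c) = algebraMap k F' (c ^ q)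
  V_σ : ∀ f : F', V (σ f) = f ^ q
  /-- `f(τ) ↦ f(τ)` -/
  α : Fm →ₐ[K] F
  /-- `f(τ) ↦ f(qτ)` -/
  β : Fm →ₐ[K] F
  α_mem₁ : ∀ f ∈ G.O, α f ∈ O₁
  α_mem₂ : ∀ f ∈ G.O, α f ∈ O₂
  β_mem₁ : ∀ f ∈ G.O, β f ∈ O₁
  β_mem₂ : ∀ f ∈ G.O, β f ∈ O₂
  ρ₁_α : ∀ (f : Fm) (hf : f ∈ G.O), ρ₁ ⟨α f, α_mem₁ f hf⟩ = G.ρ ⟨f, hf⟩
  ρ₂_α : ∀ (f : Fm) (hf : f ∈ G.O), ρ₂ ⟨α f, α_mem₂ f hf⟩ = V (G.ρ ⟨f, hf⟩)
  ρ₁_β : ∀ (f : Fm) (hf : f ∈ G.O), ρ₁ ⟨β f, β_mem₁ f hf⟩ = V (G.ρ ⟨f, hf⟩)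
  ρ₂_β : ∀ (f : Fm) (hf : f ∈ G.O), ρ₂ ⟨β f, β_mem₂ f hf⟩ = G.ρ ⟨f, hf⟩
  /-- the `j`-function -/
  j : Fm
  j_mem : j ∈ G.O
  ρ_j_transcendental : Transcendental k (G.ρ ⟨j, j_mem⟩)
  V_j : V (G.ρ ⟨j, j_mem⟩) = G.ρ ⟨j, j_mem⟩ ^ q
  /-- the degree of level `m` over level one -/
  ψ : ℕ
  ψ_pos : 0 < ψ
  finrank_Fm : finrank K⟮j⟯ Fm = ψ
  finrank_F' : finrank k⟮G.ρ ⟨j, j_mem⟩⟯ F' = ψ
  finrank_α : finrank K⟮α j⟯ F = (q + 1) * ψ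
  finrank_β : finrank K⟮β j⟯ F = (q + 1) * ψ
  /-- behaviour at the cusps -/
  cusp_α : ∀ v : Place K F, v.ord (α j) < 0 → v.ord (β j) < 0 ∧ q * v.ord (α j) ≤ v.ord (β j)
  cusp_β : ∀ v : Place K F, v.ord (β j) < 0 → v.ord (α j) < 0 ∧ q * v.ord (β j) ≤ v.ord (α j)
  /-- good reduction at level `m` -/
  c₀ : ℕ
  good : ∀ c : ℕ, c₀ ≤ c →
    ∀ b : F', (∀ v : Place k F', v.adicValuation b ≤
      exp (c * max (-v.ord (G.ρ ⟨j, j_mem⟩)) 0)) →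
    ∃ (f : Fm) (hf : f ∈ G.O), (∀ v : Place K Fm, v.adicValuation f ≤
      exp (c * max (-v.ord j) 0)) ∧ G.ρ ⟨f, hf⟩ = b

end Fermat.Agent.TwoComp
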