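import Fermat.Agent.TwoComp.Full4

/-!
# Every gluing datum comes from a torsion class
-/

set_option autoImplicit false
set_option linter.unusedSectionVars false

open AlgebraicCurve WithZero Module Polynomial
open scoped IntermediateField
open Fermat.Agent.RR Fermat.Agent.Deuring Fermat.Agent.FF Fermat.Agent.QX4

namespace Fermat.Agent.TwoComp

namespace Data

variable {K Fm F k F' : Type*} [Field K] [Field Fm] [Algebra K Fm] [Field F]
    [Algebra K F] [Field k] [Field F'] [Algebra k F'] {q : ℕ} {D : Data K Fm F k F' q}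
    [IsFF K F] [IsFF k F'] [IsFF K Fm] [IsAlgClosed k]

/-- Multiplication by a unit of `O` on the spaces `M`. -/
theorem mul_mem_M_div {E : Divisor K F} {N : ℕ} {h : D.R.O} (h0 : (h : F) ≠ 0) {w : F' × F'}
    (hw : w ∈ D.M E N) : D.R.ρ h * w ∈ D.M (E + RR.div (h : F)) N := by
  obtain ⟨f, hf, rfl⟩ := hw
  refine ⟨h * f, ?_, map_mul _ _ _⟩
  change (h : F) * (f : F) ∈ _
  rcases eq_or_ne (f : F) 0 with hf0 | hf0
  · rw [hf0, mul_zero]; exact Submodule.zero_mem _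
  rw [mem_L_iff hf0] at hf
  rw [mem_L_iff (mul_ne_zero h0 hf0)]
  intro v
  have h1 := hf v
  rw [Finsupp.sub_apply] at h1
  rw [v.ord_mul h0 hf0, Finsupp.sub_apply, Finsupp.add_apply, div_apply]
  linarith

/-- Twisting the gluing data by a constant. -/
theorem NodeSet.IsGlue.twist {T : D.NodeSet} (hq : 2 ≤ q) {n : ℕ} (hn : 0 < n)
    {E : Divisor.degZero (K := K) (F := F)} {φ : D.R.O} (h : D.Tor n (E : Divisor K F) φ)
    {ζ : (D.Rb →ₐ[k] k) → k} (hζ : T.IsGlue (E : Divisor K F) ζ) {c : k} (hc : c ^ n = 1) :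
    ∃ (E' : Divisor.degZero (K := K) (F := F)) (φ' : D.R.O), D.Tor n (E' : Divisor K F) φ' ∧
      Pic0.mk E' = Pic0.mk E ∧ T.IsGlue (E' : Divisor K F) (fun s => c * ζ s) := by
  obtain ⟨h₀, hh⟩ := D.R_ρ_surj (algebraMap k F' c, 1)
  have hc0 : c ≠ 0 := by
    rintro rfl
    rw [zero_pow hn.ne'] at hc
    exact zero_ne_one hc
  have h0 : (h₀ : F) ≠ 0 := by
    intro h0
    have h1 : h₀ = 0 := Subtype.ext h0
    rw [h1, map_zero] at hh
    exact zero_ne_one (congrArg Prod.snd hh)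
  set G : Divisor.degZero (K := K) (F := F) := ⟨_, div_mem_degZero (h₀ : F)⟩ with hG
  have hT : D.Tor n ((E + G : Divisor.degZero (K := K) (F := F)) : Divisor K F)
      (φ * h₀ ^ n) := by
    refine { deg := ?_, ρ_eq := ?_, ord := fun v => ?_ }
    · exact Divisor.mem_degZero.mp (E + G).2
    · rw [map_mul, map_pow, h.ρ_eq, hh, one_mul]
      refine Prod.ext ?_ ?_
      · rw [Prod.pow_fst, ← map_pow, hc, map_one, Prod.fst_one]
      · rw [Prod.pow_snd, one_pow, Prod.snd_one]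
    · change v.ord ((φ : F) * (h₀ : F) ^ n) = _
      rw [v.ord_mul h.ne_zero (pow_ne_zero n h0), ord_pow, h.ord, AddSubgroup.coe_add,
        Finsupp.add_apply]
      change _ = (n : ℤ) * ((E : Divisor K F) v + RR.div (h₀ : F) v)
      rw [div_apply]
      ring
  refine ⟨E + G, _, hT, ?_, ?_⟩
  · have h1 : Pic0.mk G = 0 := by
      rw [mk_eq_zero_iff]
      exact ⟨h₀, h0, fun v => div_apply _ v⟩
    have : Pic0.mk (E + G) = Pic0.mk E + Pic0.mk G := rfl
    rw [this, h1, add_zero]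
  · obtain ⟨ζ', -, hζ'⟩ := hT.exists_glue (T := T) hq hn
    refine hζ'.congr fun s hs => ?_
    obtain ⟨r, N₁, hr, hrN⟩ := hζ.exists_wit
    obtain ⟨N₂, h₂⟩ := hζ'
    have h3 := mul_mem_M_div h0 (hrN (max N₁ N₂) (le_max_left _ _))
    have h4 : (E : Divisor K F) + RR.div (h₀ : F) =
      ((E + G : Divisor.degZero (K := K) (F := F)) : Divisor K F) := rfl
    rw [h4, h₂ _ (le_max_right _ _), hh] at h3
    have h5 : ((algebraMap k F' c, (1 : F')) : F' × F') * ((r : F'), ((1 : D.Rb) : F')) =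
        ((((c • r : D.Rb) : D.Rb) : F'), ((1 : D.Rb) : F')) := by
      refine Prod.ext ?_ ?_
      · change algebraMap k F' c * (r : F') = c • (r : F')
        rw [Algebra.smul_def]
      · change (1 : F') * 1 = 1
        rw [one_mul]
    rw [h5] at h3
    rw [← T.eq_of_mem h3 s hs, map_smul, smul_eq_mul, hr s hs]

/-- Extension of functions on the nodes. -/
noncomputable def ext (T : D.NodeSet) {n : ℕ} (ζ : T.Nd → rootsOfUnity n k)
    (s : D.Rb →ₐ[k] k) : k :=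
  open Classical in if h : s ∈ T.Nd then ((ζ ⟨s, h⟩ : kˣ) : k) else 1

theorem ext_apply (T : D.NodeSet) {n : ℕ} (ζ : T.Nd → rootsOfUnity n k)
    {s : D.Rb →ₐ[k] k} (hs : s ∈ T.Nd) : ext T ζ s = ((ζ ⟨s, hs⟩ : kˣ) : k) := by
  rw [ext, dif_pos hs]

section Main

variable [IsAlgClosed K]

theorem mk_eq_of_glue {T : D.NodeSet} (hq : 2 ≤ q) (arch : D.Arch) {n : ℕ} (hnk : (n : k) ≠ 0)
    {E E' : Divisor.degZero (K := K) (F := F)} {φ φ' : D.R.O} (h : D.Tor n (E : Divisor K F) φ)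
    (h' : D.Tor n (E' : Divisor K F) φ') {ζ ζ' : (D.Rb →ₐ[k] k) → k}
    (hζ : T.IsGlue (E : Divisor K F) ζ) (hζ' : T.IsGlue (E' : Divisor K F) ζ')
    (heq : ∀ s ∈ T.Nd, ζ' s = ζ s) : Pic0.mk E' = Pic0.mk E :=
  mk_eq_mk_of (isPrincipal_sub hq arch hnk h h' hζ hζ' heq)

/-- The parametrisation of the gluing data by torsion classes and constants is bijective. -/
theorem exists_param (hq : 2 ≤ q) (arch : D.Arch) (T : D.NodeSet) {n : ℕ}
    (hnK : (n : K) ≠ 0) (hnk : (n : k) ≠ 0) {s₀ : D.Rb →ₐ[k] k} (hs₀ : s₀ ∈ T.Nd) :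
    ∃ Ψ : D.TT n × rootsOfUnity n k → (T.Nd → rootsOfUnity n k), Function.Bijective Ψ ∧
      ∀ xc, ∃ (E : Divisor.degZero (K := K) (F := F)) (φ : D.R.O), D.Tor n (E : Divisor K F) φ ∧
        Pic0.mk E = xc.1 ∧ T.IsGlue (E : Divisor K F) (ext T (Ψ xc)) := by
  classical
  have hn : 0 < n := Nat.pos_of_ne_zero (by rintro rfl; simp at hnK)
  have : NeZero n := ⟨hn.ne'⟩
  have : NeZero (n : k) := ⟨hnk⟩
  have hfin := finite_tors (K := K) (F := F) n hnK
  have hfinT : Finite (D.TT n) := Set.Finite.subset hfin (TT_subset hn)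
  choose E φ hE hT using fun x : D.TT n => exists_tor (D := D) (by omega) arch hn x.2.1 x.2.2
  choose ζ hζ1 hζ using fun x : D.TT n => (hT x).exists_glue (T := T) hq hn
  let μ := rootsOfUnity n k
  let Ψ : D.TT n × μ → (T.Nd → μ) := fun xc s =>
    xc.2 * rootsOfUnity.mkOfPowEq (ζ xc.1 s) (hζ1 xc.1 s)
  have hΨ : ∀ xc (s : T.Nd), (((Ψ xc s : μ) : kˣ) : k) = ((xc.2 : kˣ) : k) * ζ xc.1 s := by
    intro xc s
    change (((xc.2 * rootsOfUnity.mkOfPowEq (ζ xc.1 s) (hζ1 xc.1 s) : μ) : kˣ) : k) = _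
    rw [Subgroup.coe_mul, Units.val_mul, rootsOfUnity.coe_mkOfPowEq]
  have hΨ2 : ∀ xc, ∃ (E : Divisor.degZero (K := K) (F := F)) (φ : D.R.O),
      D.Tor n (E : Divisor K F) φ ∧ Pic0.mk E = xc.1 ∧
        T.IsGlue (E : Divisor K F) (ext T (Ψ xc)) := by
    intro xc
    have hc : ((xc.2 : kˣ) : k) ^ n = 1 := by
      have := xc.2.2
      rw [mem_rootsOfUnity] at this
      rw [← Units.val_pow_eq_pow_val, this, Units.val_one]
    obtain ⟨E', φ', h1, h2, h3⟩ := NodeSet.IsGlue.twist hq hn (hT xc.1) (hζ xc.1) hc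
    refine ⟨E', φ', h1, h2.trans (hE xc.1).symm, h3.congr fun s hs => ?_⟩
    rw [ext_apply T _ hs, hΨ]
  have hinj : Function.Injective Ψ := by
    intro a b hab
    obtain ⟨Ea, φa, ha1, ha2, ha3⟩ := hΨ2 a
    obtain ⟨Eb, φb, hb1, hb2, hb3⟩ := hΨ2 b
    have h1 := mk_eq_of_glue hq arch hnk hb1 ha1 hb3 ha3 (by rw [hab]; exact fun _ _ => rfl)
    rw [ha2, hb2] at h1
    have h2 : a.1 = b.1 := Subtype.ext h1
    have h3 := congrArg (fun z : T.Nd → μ => (((z ⟨s₀, hs₀⟩ : μ) : kˣ) : k)) hab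
    simp only [hΨ] at h3
    rw [h2] at h3
    have h4 : ζ b.1 s₀ ≠ 0 := by
      intro h0
      have := hζ1 b.1 s₀
      rw [h0, zero_pow hn.ne'] at this
      exact zero_ne_one this
    have h5 := mul_right_cancel₀ h4 h3
    exact Prod.ext h2 (Subtype.ext (Units.ext h5))
  have : Fintype T.Nd := Finset.fintypeCoeSort _
  have hfinN : Finite T.Nd := Finite.of_fintype _
  have hfinμ : Finite μ := inferInstance
  have : Finite (T.Nd → μ) := Pi.finite
  have hcard : Nat.card μ = n := HasEnoughRootsOfUnity.natCard_rootsOfUnity k n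
  have hle : Nat.card (T.Nd → μ) ≤ Nat.card (D.TT n × μ) := by
    rw [Nat.card_prod, hcard, Nat.card_fun, hcard, Nat.card_eq_fintype_card, Fintype.card_coe]
    have h1 := pow_le_card_TT hq arch T hnK hnk hs₀
    have hs : 1 ≤ T.Nd.card := Finset.card_pos.mpr ⟨s₀, hs₀⟩
    calc n ^ T.Nd.card = n ^ (T.Nd.card - 1) * n := by
          rw [← pow_succ]; congr 1; omega
      _ ≤ Nat.card (D.TT n) * n := Nat.mul_le_mul_right _ h1
  exact ⟨Ψ, hinj.bijective_of_nat_card_le hle, hΨ2⟩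

/-- **The torus is full**: every gluing datum comes from a torsion class. -/
theorem exists_tor_of_glue (hq : 2 ≤ q) (arch : D.Arch) (T : D.NodeSet) {n : ℕ}
    (hnK : (n : K) ≠ 0) (hnk : (n : k) ≠ 0) (ζ : (D.Rb →ₐ[k] k) → k)
    (hζ : ∀ s ∈ T.Nd, ζ s ^ n = 1) :
    ∃ (E : Divisor.degZero (K := K) (F := F)) (φ : D.R.O), D.Tor n (E : Divisor K F) φ ∧
      T.IsGlue (E : Divisor K F) ζ := by
  classical
  have hn : 0 < n := Nat.pos_of_ne_zero (by rintro rfl; simp at hnK)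
  have : NeZero n := ⟨hn.ne'⟩
  rcases T.Nd.eq_empty_or_nonempty with h0 | ⟨s₀, hs₀⟩
  · refine ⟨0, 1, Tor.one n, (NodeSet.isGlue_zero (T := T) hq).congr ?_⟩
    intro s hs
    rw [h0] at hs
    exact absurd hs (Finset.notMem_empty s)
  · obtain ⟨Ψ, hΨ, hΨ2⟩ := exists_param hq arch T hnK hnk hs₀
    let z : T.Nd → rootsOfUnity n k := fun s => rootsOfUnity.mkOfPowEq (ζ s) (hζ s s.2)
    obtain ⟨xc, hxc⟩ := hΨ.2 z
    obtain ⟨E, φ, h1, -, h3⟩ := hΨ2 xc
    refine ⟨E, φ, h1, h3.congr fun s hs => ?_⟩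
    rw [hxc, ext_apply T _ hs]
    exact rootsOfUnity.coe_mkOfPowEq _

/-- **The order of the torus.** -/
theorem natCard_TT (hq : 2 ≤ q) (arch : D.Arch) (T : D.NodeSet) {n : ℕ}
    (hnK : (n : K) ≠ 0) (hnk : (n : k) ≠ 0) (hne : T.Nd.Nonempty) :
    Nat.card (D.TT n) = n ^ (T.Nd.card - 1) := by
  classical
  have hn : 0 < n := Nat.pos_of_ne_zero (by rintro rfl; simp at hnK)
  have : NeZero n := ⟨hn.ne'⟩
  have : NeZero (n : k) := ⟨hnk⟩
  obtain ⟨s₀, hs₀⟩ := hne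
  obtain ⟨Ψ, hΨ, -⟩ := exists_param hq arch T hnK hnk hs₀
  have h1 := Nat.card_congr (Equiv.ofBijective Ψ hΨ)
  have : Fintype T.Nd := Finset.fintypeCoeSort _
  have hfinN : Finite T.Nd := Finite.of_fintype _
  have hcard : Nat.card (rootsOfUnity n k) = n := HasEnoughRootsOfUnity.natCard_rootsOfUnity k n
  rw [Nat.card_prod, hcard, Nat.card_fun, hcard, Nat.card_eq_fintype_card (α := T.Nd),
    Fintype.card_coe] at h1
  have hs : 1 ≤ T.Nd.card := Finset.card_pos.mpr ⟨s₀, hs₀⟩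
  have h2 : n ^ T.Nd.card = n ^ (T.Nd.card - 1) * n := by
    rw [← pow_succ]; congr 1; omega
  rw [h2] at h1
  exact Nat.eq_of_mul_eq_mul_right hn h1

end Main

end Data

end Fermat.Agent.TwoComp
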