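import Fermat.Agent.TwoComp.Swap
import Fermat.Agent.TwoGauss.Uncond
import Fermat.Agent.QX4.Commute

/-!
# Frobenius is `-q w_q` on the toric classes of `J₀(m q)`
-/

set_option autoImplicit false
set_option linter.unusedSectionVars false

open ModularCurve HahnSeries Module AlgebraicCurve
open scoped IntermediateField
open Fermat.Agent.GaussVal Fermat.Agent.FF Fermat.Agent.RR Fermat.Agent.QX4
open scoped Fermat.Agent.GaussVal

noncomputable section

namespace Fermat.Agent.TwoGauss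

/-- the algebraic numbers -/
local notation "𝕂" => AlgebraicClosure ℚ

section Swap

variable {A : ValuationSubring (AlgebraicClosure ℚ)} {q m : ℕ} [NeZero m]
  [Fact q.Prime] [CharP (IsLocalRing.ResidueField A) q]
  [IsAlgClosed (IsLocalRing.ResidueField A)] [PerfectRing (IsLocalRing.ResidueField A) q]
  (hq : q.Prime) (hm : ¬ q ∣ m) (hA : A.LiesOverPrime q)
  (H3 : S18aux.DegThm (IsLocalRing.ResidueField A) m)
  (H2 : genusFF (AlgebraicClosure ℚ) (modularFunctionFieldBar m) ≤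
    genusFF (IsLocalRing.ResidueField A) (modularFunctionFieldFullC (IsLocalRing.ResidueField A) m))

theorem swap_mem₁ (f : modularFunctionFieldBar (m * q)) (hf : f ∈ (mkData hq hm hA H3 H2).O₁) :
    SemilinearAut.ofAlgAut (wq hq hm) • f ∈ (mkData hq hm hA H3 H2).O₂ := by
  have h1 : (f : LaurentSeries 𝕂) ∈ gaussSubring A := (mem_mkData_O₁ hq hm hA H3 H2 f).1 hf
  refine (mem_mkData_O₂ hq hm hA H3 H2 _).2 ?_
  rw [SemilinearAut.ofAlgAut_smul, wq_wq]
  exact h1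

theorem swap_mem₂ (f : modularFunctionFieldBar (m * q)) (hf : f ∈ (mkData hq hm hA H3 H2).O₂) :
    SemilinearAut.ofAlgAut (wq hq hm) • f ∈ (mkData hq hm hA H3 H2).O₁ := by
  have h1 := (mem_mkData_O₂ hq hm hA H3 H2 f).1 hf
  refine (mem_mkData_O₁ hq hm hA H3 H2 _).2 ?_
  rw [SemilinearAut.ofAlgAut_smul]
  exact h1

/-- **`w_q` exchanges the two components.** -/
theorem swapAct_wq : (mkData hq hm hA H3 H2).SwapAct (SemilinearAut.ofAlgAut (wq hq hm)) id where
  mem₁ := swap_mem₁ hq hm hA H3 H2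
  mem₂ := swap_mem₂ hq hm hA H3 H2
  ρ₁ f hf := by
    apply Subtype.ext
    refine (coe_mkData_ρ₂ hq hm hA H3 H2 _ (swap_mem₁ hq hm hA H3 H2 f hf)).trans
      (Eq.trans ?_ (coe_mkData_ρ₁ hq hm hA H3 H2 f hf).symm)
    refine congrArg (gaussRed A) (Subtype.ext ?_)
    change ((wq hq hm (wq hq hm f) : modularFunctionFieldBar (m * q)) : LaurentSeries 𝕂) = _
    rw [wq_wq]
  ρ₂ f hf := by
    apply Subtype.ext
    exact (coe_mkData_ρ₁ hq hm hA H3 H2 _ (swap_mem₂ hq hm hA H3 H2 f hf)).trans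
      (coe_mkData_ρ₂ hq hm hA H3 H2 f hf).symm
  smul_α := by
    rw [SemilinearAut.ofAlgAut_smul]
    exact wq_alpha hq hm _
  smul_β := by
    rw [SemilinearAut.ofAlgAut_smul]
    exact wq_beta hq hm _

/-- **(T')**: a Frobenius lift acts as `-q w_q` on the toric classes of `J₀(m q)` -/
theorem smul_wJ_mkData {n : ℕ} (hn : (n : IsLocalRing.ResidueField A) ≠ 0)
    {σ : 𝕂 ≃ₐ[ℚ] 𝕂} (hσ : A.IsFrobeniusAt σ q) {x : JZero (m * q)}
    (hx : (mkData hq hm hA H3 H2).Toric n x) : σ • wJ hq hm x = -(q • x) := by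
  haveI : IsFF 𝕂 (modularFunctionFieldBar m) := isFF_m
  haveI : IsFF (IsLocalRing.ResidueField A)
    (modularFunctionFieldFullC (IsLocalRing.ResidueField A) m) := isFF_m' (m := m) H3
  haveI : IsFF 𝕂 (modularFunctionFieldBar (m * q)) := isFF_m
  have h := (swapAct_wq hq hm hA H3 H2).comp_act (act_mkData_frobenius hq hm hA H3 H2 hσ).toAct_σ
  have h2 := h.smul_eq_neg hq.two_le (arch_mkData hq hm hA H3 H2) hn hx.1 hx.2
  rwa [mul_smul] at h2

/-- (T'), other form. -/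
theorem frob_mkData {n : ℕ} (hn : (n : IsLocalRing.ResidueField A) ≠ 0)
    {σ : 𝕂 ≃ₐ[ℚ] 𝕂} (hσ : A.IsFrobeniusAt σ q) {x : JZero (m * q)}
    (hx : (mkData hq hm hA H3 H2).Toric n x) : σ • x = -(q • wJ hq hm x) := by
  have h := congrArg (wJ hq hm) (smul_wJ_mkData hq hm hA H3 H2 hn hσ hx)
  rw [wJ_galois, wJ_wJ, map_neg, map_nsmul] at h
  exact h

end Swap

section Uncond

variable {q m : ℕ} [NeZero m] (hq : q.Prime) (hm : ¬ q ∣ m)
  {A : ValuationSubring (AlgebraicClosure ℚ)} (hA : A.LiesOverPrime q)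
  [Fact q.Prime] [CharP (IsLocalRing.ResidueField A) q]

/-- **A Frobenius lift acts as `-q w_q` on the toric classes** (`n` prime to `q`) -/
theorem frob_toric {n : ℕ} (hn : ¬ q ∣ n) {σ : 𝕂 ≃ₐ[ℚ] 𝕂} (hσ : A.IsFrobeniusAt σ q)
    {x : JZero (m * q)} (hx₁ : Split (twoComp hq hm hA).O₁ (twoComp hq hm hA).ρ₁ n x)
    (hx₂ : Split (twoComp hq hm hA).O₂ (twoComp hq hm hA).ρ₂ n x) :
    σ • x = -(q • wJ hq hm x) :=
  frob_mkData hq hm hA _ _ (by rwa [Ne, CharP.cast_eq_zero_iff (IsLocalRing.ResidueField A) q])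
    hσ ⟨hx₁, hx₂⟩

end Uncond

end Fermat.Agent.TwoGauss
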