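import Fermat.Agent.TwoComp.Gal
import Fermat.Agent.QX4.Defs

/-!
# Classes split at both components
-/

set_option autoImplicit false
set_option linter.unusedSectionVars false

open AlgebraicCurve WithZero Module Polynomial
open scoped IntermediateField
open Fermat.Agent.RR Fermat.Agent.Deuring Fermat.Agent.FF

namespace Fermat.Agent.TwoComp

namespace Data

variable {K Fm F k F' : Type*} [Field K] [Field Fm] [Algebra K Fm] [Field F]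
    [Algebra K F] [Field k] [Field F'] [Algebra k F'] {q : ℕ} {D : Data K Fm F k F' q}

theorem mem_nonunits₁ {f : F} : f ∈ D.O₁.nonunits ↔ ∃ h : f ∈ D.O₁, D.ρ₁ ⟨f, h⟩ = 0 := by
  constructor
  · intro h
    have hm : f ∈ D.O₁ := by
      rw [ValuationSubring.mem_nonunits_iff] at h
      exact (D.O₁.valuation_le_one_iff f).mp h.le
    exact ⟨hm, (D.ρ₁_eq_zero_iff ⟨f, hm⟩).mpr h⟩
  · rintro ⟨h, h0⟩
    exact (D.ρ₁_eq_zero_iff ⟨f, h⟩).mp h0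

theorem algebraMap_mem_nonunits₁ {c : K} : algebraMap K F c ∈ D.O₁.nonunits ↔ c ∈ D.G.A.nonunits := by
  rw [mem_nonunits₁]
  constructor
  · rintro ⟨h, h0⟩
    have hc : c ∈ D.G.A := (D.mem_O₁_iff c).mp h
    have h1 := D.ρ₁_algebraMap ⟨c, hc⟩
    rw [h0] at h1
    have h2 : D.G.res ⟨c, hc⟩ = 0 := by
      by_contra hne
      have := (map_eq_zero (algebraMap k F')).mp h1.symm
      exact hne this
    exact (D.G.res_eq_zero_iff _).mp h2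
  · intro h
    have hc : c ∈ D.G.A := by
      rw [ValuationSubring.mem_nonunits_iff] at h
      exact (D.G.A.valuation_le_one_iff c).mp h.le
    refine ⟨(D.mem_O₁_iff c).mpr hc, ?_⟩
    have h1 := D.ρ₁_algebraMap ⟨c, hc⟩
    rw [(D.G.res_eq_zero_iff ⟨c, hc⟩).mpr h, map_zero] at h1
    exact h1

/-- Scaling a nonzero function to a unit at the first component. -/
theorem exists_unit₁ (hq : 0 < q) {f : F} (hf : f ≠ 0) :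
    ∃ (c : K) (_ : c ≠ 0) (hc : algebraMap K F c * f ∈ D.O₁), D.ρ₁ ⟨_, hc⟩ ≠ 0 := by
  obtain ⟨c, hc0, hc, hρ⟩ := RedRing.exists_scale (D.ortho hq) hf
  by_cases h1 : (D.R.ρ ⟨c • f, hc⟩).1 = 0
  · have h2 : (D.R.ρ ⟨c • f, hc⟩).2 ≠ 0 := fun h => hρ (Prod.ext h1 h)
    obtain ⟨d, hd0, hd, hρd⟩ := RedRing.exists_scale (D.ortho hq) (inv_ne_zero hf)
    by_cases h3 : (D.R.ρ ⟨d • f⁻¹, hd⟩).1 = 0
    · exfalso
      have h4 : (D.R.ρ ⟨d • f⁻¹, hd⟩).2 ≠ 0 := fun h => hρd (Prod.ext h3 h)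
      have h5 : (c • f) * (d • f⁻¹) = algebraMap K F (c * d) := by
        rw [Algebra.smul_def, Algebra.smul_def, map_mul]
        field_simp
      have hcd : algebraMap K F (c * d) ∈ D.R.O := by
        rw [← h5]; exact D.R.O.mul_mem hc hd
      have h6 : D.R.ρ ⟨c • f, hc⟩ * D.R.ρ ⟨d • f⁻¹, hd⟩ = D.R.ρ ⟨_, hcd⟩ := by
        rw [← map_mul]
        exact congrArg D.R.ρ (Subtype.ext h5)
      have hA : c * d ∈ D.R.A := (D.R.mem_O_iff _).mp hcd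
      rw [D.R.ρ_algebraMap ⟨c * d, hA⟩] at h6
      have h7 := congrArg Prod.fst h6
      have h8 := congrArg Prod.snd h6
      rw [Prod.fst_mul, h1, zero_mul] at h7
      rw [Prod.snd_mul] at h8
      have h9 : algebraMap k (F' × F') (D.R.res ⟨c * d, hA⟩) =
        (algebraMap k F' (D.R.res ⟨c * d, hA⟩), algebraMap k F' (D.R.res ⟨c * d, hA⟩)) := rfl
      rw [h9] at h7 h8
      exact mul_ne_zero h2 h4 (h8.trans h7.symm)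
    · have h4 : (d • f⁻¹)⁻¹ = algebraMap K F d⁻¹ * f := by
        rw [Algebra.smul_def, mul_inv, inv_inv, map_inv₀]
      have h5 := D.inv_mem_O₁ hd.1 h3
      rw [h4] at h5
      refine ⟨d⁻¹, inv_ne_zero hd0, h5, fun h0 => ?_⟩
      have h6 : D.ρ₁ ⟨_, h5⟩ * D.ρ₁ ⟨_, hd.1⟩ = 1 := by
        rw [← map_mul, ← map_one D.ρ₁]
        refine congrArg D.ρ₁ (Subtype.ext ?_)
        change algebraMap K F d⁻¹ * f * (d • f⁻¹) = 1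
        rw [← h4, inv_mul_cancel₀]
        rw [Algebra.smul_def]
        exact mul_ne_zero ((_root_.map_ne_zero _).mpr hd0) (inv_ne_zero hf)
      rw [h0, zero_mul] at h6
      exact zero_ne_one h6
  · refine ⟨c, hc0, (Algebra.smul_def c f) ▸ hc.1, fun h => h1 ?_⟩
    rw [← h]
    change D.ρ₁ _ = _
    congr 1
    exact Subtype.ext (Algebra.smul_def c f)

theorem exists_unit₂ (hq : 0 < q) {f : F} (hf : f ≠ 0) :
    ∃ (c : K) (_ : c ≠ 0) (hc : algebraMap K F c * f ∈ D.O₂), D.ρ₂ ⟨_, hc⟩ ≠ 0 :=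
  exists_unit₁ (D := D.swap) hq hf

/-- Powers of a nonunit become small. -/
theorem arch₁ (hq : 0 < q) (arch : D.Arch) {e : F} (he : e ∈ D.O₁.nonunits) (c : K) :
    ∃ N₀ : ℕ, ∀ N, N₀ ≤ N → algebraMap K F c * e ^ N ∈ D.O₁.nonunits := by
  have hv : D.O₁.valuation e < 1 := D.O₁.mem_nonunits_iff.mp he
  rcases eq_or_ne c 0 with rfl | hc0
  · refine ⟨0, fun N _ => ?_⟩
    rw [map_zero, zero_mul, D.O₁.mem_nonunits_iff, map_zero]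
    exact zero_lt_one
  rcases eq_or_ne e 0 with rfl | he0
  · refine ⟨1, fun N hN => ?_⟩
    rw [zero_pow (by omega), mul_zero, D.O₁.mem_nonunits_iff, map_zero]
    exact zero_lt_one
  obtain ⟨a, ha0, ha, hρ⟩ := exists_unit₁ (D := D) hq he0
  have hva : D.O₁.valuation (algebraMap K F a * e) = 1 := by
    rw [ne_eq, D.ρ₁_eq_zero_iff, D.O₁.mem_nonunits_iff, not_lt] at hρ
    exact le_antisymm ((D.O₁.valuation_le_one_iff _).mpr ha) hρ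
  have hva' : D.O₁.valuation (algebraMap K F a⁻¹) = D.O₁.valuation e := by
    rw [map_inv₀, map_inv₀]
    rw [map_mul] at hva
    exact inv_eq_of_mul_eq_one_right hva
  have hna : a⁻¹ ∈ D.G.A.nonunits := by
    rw [← algebraMap_mem_nonunits₁ (D := D), D.O₁.mem_nonunits_iff, hva']
    exact hv
  obtain ⟨N₀, hN₀⟩ := arch _ hna c⁻¹ (inv_ne_zero hc0)
  refine ⟨N₀ + 1, fun N hN => ?_⟩
  obtain ⟨M, rfl⟩ : ∃ M, N = N₀ + 1 + M := ⟨N - (N₀ + 1), by omega⟩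
  rw [div_inv_eq_mul] at hN₀
  have h1 : D.O₁.valuation (algebraMap K F ((a⁻¹) ^ N₀ * c)) ≤ 1 :=
    (D.O₁.valuation_le_one_iff _).mpr ((D.mem_O₁_iff _).mpr hN₀)
  rw [map_mul, map_pow, map_mul, map_pow, hva'] at h1
  rw [D.O₁.mem_nonunits_iff, map_mul, map_pow, pow_add, pow_add, pow_one]
  have hM : D.O₁.valuation e ^ M ≤ 1 := pow_le_one₀ zero_le hv.le
  calc D.O₁.valuation (algebraMap K F c) * (D.O₁.valuation e ^ N₀ * D.O₁.valuation e *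
        D.O₁.valuation e ^ M)
      = (D.O₁.valuation e ^ N₀ * D.O₁.valuation (algebraMap K F c)) * (D.O₁.valuation e *
        D.O₁.valuation e ^ M) := by ac_rfl
    _ ≤ 1 * (D.O₁.valuation e * 1) := by
        gcongr
    _ < 1 := by rw [one_mul, mul_one]; exact hv

theorem arch₂ (hq : 0 < q) (arch : D.Arch) {e : F} (he : e ∈ D.O₂.nonunits) (c : K) :
    ∃ N₀ : ℕ, ∀ N, N₀ ≤ N → algebraMap K F c * e ^ N ∈ D.O₂.nonunits :=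
  arch₁ (D := D.swap) hq arch he c

/-- Independence of the two components. -/
theorem exists_approx (hq : 0 < q) (arch : D.Arch) {g₁ g₂ : F} (h₁ : g₁ ≠ 0) (h₂ : g₂ ≠ 0) :
    ∃ (g : F) (_ : g ≠ 0) (m₁ : g / g₁ ∈ D.O₁) (m₂ : g / g₂ ∈ D.O₂),
      D.ρ₁ ⟨_, m₁⟩ = 1 ∧ D.ρ₂ ⟨_, m₂⟩ = 1 := by
  obtain ⟨c, hc0, hc, hρc⟩ := exists_unit₂ (D := D) hq (div_ne_zero h₂ h₁)
  set b := D.ρ₂ ⟨_, hc⟩ with hb
  obtain ⟨e₁, he₁, he₁', r₁, r₁'⟩ := D.surj 1 0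
  obtain ⟨e₂, he₂, he₂', r₂, r₂'⟩ := D.surj 0 1
  obtain ⟨v, hv, hv', -, s₂⟩ := D.surj 0 b
  obtain ⟨N₁, hN₁⟩ := arch₁ (D := D) hq arch (mem_nonunits₁.mpr ⟨he₂, r₂⟩) c⁻¹
  obtain ⟨N₂, hN₂⟩ := arch₂ (D := D) hq arch (mem_nonunits₁ (D := D.swap).mpr ⟨he₁', r₁'⟩) c
  set N := max N₁ N₂ with hN
  obtain ⟨t₁, ht₁⟩ := mem_nonunits₁.mp (hN₁ N (le_max_left _ _))
  obtain ⟨t₂, ht₂⟩ := (mem_nonunits₁ (D := D.swap)).mp (hN₂ N (le_max_right _ _))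
  have hcF : algebraMap K F c ≠ 0 := (_root_.map_ne_zero _).mpr hc0
  -- `y = e₁ ^ N + c⁻¹ v e₂ ^ N`
  set y : F := e₁ ^ N + v * (algebraMap K F c⁻¹ * e₂ ^ N) with hy
  have hy₁ : y ∈ D.O₁ := D.O₁.add_mem _ _ (pow_mem he₁ N) (D.O₁.mul_mem _ _ hv t₁)
  have ρy : D.ρ₁ ⟨y, hy₁⟩ = 1 := by
    have e : (⟨y, hy₁⟩ : D.O₁) = ⟨e₁, he₁⟩ ^ N + ⟨v, hv⟩ * ⟨_, t₁⟩ := rfl
    rw [e, map_add, map_pow, map_mul, r₁, ht₁, one_pow, mul_zero, add_zero]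
  have hcy : algebraMap K F c * y = algebraMap K F c * e₁ ^ N + v * e₂ ^ N := by
    rw [hy, map_inv₀]
    field_simp
  have hcy₂ : algebraMap K F c * y ∈ D.O₂ := by
    rw [hcy]
    exact D.O₂.add_mem _ _ t₂ (D.O₂.mul_mem _ _ hv' (pow_mem he₂' N))
  have ρcy : D.ρ₂ ⟨_, hcy₂⟩ = b := by
    have e : (⟨_, hcy₂⟩ : D.O₂) = ⟨_, t₂⟩ + ⟨v, hv'⟩ * ⟨e₂, he₂'⟩ ^ N := Subtype.ext hcy
    change D.ρ₂ ⟨_, t₂⟩ = 0 at ht₂
    rw [e, map_add, map_mul, map_pow, r₂', ht₂, s₂, one_pow, mul_one, zero_add]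
  have hy0 : y ≠ 0 := by
    intro h0
    have : (⟨y, hy₁⟩ : D.O₁) = 0 := Subtype.ext h0
    rw [this, map_zero] at ρy
    exact zero_ne_one ρy
  have hg1 : g₁ * y / g₁ = y := by field_simp
  have hg2 : g₁ * y / g₂ = (algebraMap K F c * (g₂ / g₁))⁻¹ * (algebraMap K F c * y) := by
    field_simp
  have hi := D.inv_mem_O₂ hc hρc
  have hm₂ : g₁ * y / g₂ ∈ D.O₂ := by
    rw [hg2]
    exact D.O₂.mul_mem _ _ hi hcy₂
  refine ⟨g₁ * y, mul_ne_zero h₁ hy0, by rw [hg1]; exact hy₁, hm₂, ?_, ?_⟩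
  · rw [← ρy]
    exact congrArg D.ρ₁ (Subtype.ext hg1)
  · have e : (⟨_, hm₂⟩ : D.O₂) = ⟨_, hi⟩ * ⟨_, hcy₂⟩ := Subtype.ext hg2
    rw [e, map_mul, ρcy, hb, ← map_mul, ← map_one D.ρ₂]
    refine congrArg D.ρ₂ (Subtype.ext ?_)
    exact inv_mul_cancel₀ (mul_ne_zero hcF (div_ne_zero h₂ h₁))

theorem normalise₁ {n : ℕ} {f : F} (hf : f ∈ D.O₁) {u : F'} (hu : u ≠ 0)
    (h : D.ρ₁ ⟨f, hf⟩ = u ^ n) :
    ∃ (v : F) (_ : v ≠ 0) (h : f / v ^ n ∈ D.O₁), D.ρ₁ ⟨_, h⟩ = 1 := by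
  obtain ⟨v, hv, -, s, -⟩ := D.surj u 0
  have hv0 : v ≠ 0 := by
    rintro rfl
    have : (⟨0, hv⟩ : D.O₁) = 0 := rfl
    rw [this, map_zero] at s
    exact hu s.symm
  have j := D.inv_mem_O₁ hv (by rw [s]; exact hu)
  have ρj : D.ρ₁ ⟨_, j⟩ = u⁻¹ := by
    have e : D.ρ₁ ⟨_, j⟩ * D.ρ₁ ⟨_, hv⟩ = 1 := by
      rw [← map_mul, ← map_one D.ρ₁]
      exact congrArg D.ρ₁ (Subtype.ext (inv_mul_cancel₀ hv0))
    rw [s] at e
    exact eq_inv_of_mul_eq_one_left e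
  have e : f / v ^ n = f * (v⁻¹) ^ n := by rw [inv_pow, div_eq_mul_inv]
  have hm : f / v ^ n ∈ D.O₁ := by
    rw [e]
    exact D.O₁.mul_mem _ _ hf (pow_mem j n)
  refine ⟨v, hv0, hm, ?_⟩
  have e' : (⟨_, hm⟩ : D.O₁) = ⟨_, hf⟩ * ⟨_, j⟩ ^ n := Subtype.ext e
  rw [e', map_mul, map_pow, h, ρj, ← mul_pow, mul_inv_cancel₀ hu, one_pow]

theorem normalise₂ {n : ℕ} {f : F} (hf : f ∈ D.O₂) {u : F'} (hu : u ≠ 0)
    (h : D.ρ₂ ⟨f, hf⟩ = u ^ n) :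
    ∃ (v : F) (_ : v ≠ 0) (h : f / v ^ n ∈ D.O₂), D.ρ₂ ⟨_, h⟩ = 1 :=
  normalise₁ (D := D.swap) hf hu h

theorem combine₁ {n : ℕ} {f v g : F} (hv : v ≠ 0) (hg : g ≠ 0) (h : f / v ^ n ∈ D.O₁)
    (hρ : D.ρ₁ ⟨_, h⟩ = 1) (m : g / v ∈ D.O₁) (hm : D.ρ₁ ⟨_, m⟩ = 1) :
    ∃ h : f / g ^ n ∈ D.O₁, D.ρ₁ ⟨_, h⟩ = 1 := by
  have i := D.inv_mem_O₁ m (by rw [hm]; exact one_ne_zero)
  have ρi : D.ρ₁ ⟨_, i⟩ = 1 := by
    have e : D.ρ₁ ⟨_, i⟩ * D.ρ₁ ⟨_, m⟩ = 1 := by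
      rw [← map_mul, ← map_one D.ρ₁]
      exact congrArg D.ρ₁ (Subtype.ext (inv_mul_cancel₀ (div_ne_zero hg hv)))
    rwa [hm, mul_one] at e
  have e : f / g ^ n = f / v ^ n * ((g / v)⁻¹) ^ n := by
    rw [div_mul_eq_mul_div, eq_div_iff (pow_ne_zero n hv), inv_div, div_pow]
    field_simp
  have k : f / g ^ n ∈ D.O₁ := by
    rw [e]
    exact D.O₁.mul_mem _ _ h (pow_mem i n)
  refine ⟨k, ?_⟩
  have e' : (⟨_, k⟩ : D.O₁) = ⟨_, h⟩ * ⟨_, i⟩ ^ n := Subtype.ext e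
  rw [e', map_mul, map_pow, hρ, ρi, one_pow, mul_one]

theorem combine₂ {n : ℕ} {f v g : F} (hv : v ≠ 0) (hg : g ≠ 0) (h : f / v ^ n ∈ D.O₂)
    (hρ : D.ρ₂ ⟨_, h⟩ = 1) (m : g / v ∈ D.O₂) (hm : D.ρ₂ ⟨_, m⟩ = 1) :
    ∃ h : f / g ^ n ∈ D.O₂, D.ρ₂ ⟨_, h⟩ = 1 :=
  combine₁ (D := D.swap) hv hg h hρ m hm

theorem div_mem_degZero [IsFF K F] (g : F) :
    RR.div (K := K) g ∈ Divisor.degZero (K := K) (F := F) := by
  rw [Divisor.mem_degZero]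
  have : Nonempty (Place K F) := exists_place
  have : ∀ v : Place K F, v.FiniteResidue := QX.finiteResidue_place
  exact degree_div g

open Fermat.Agent.QX4 in
theorem exists_common_root [IsFF K F] [IsAlgClosed K] {n : ℕ} (hn : 0 < n)
    {E₁ E₂ : Divisor.degZero (K := K) (F := F)} (hE : Pic0.mk E₁ = Pic0.mk E₂) {f₁ f₂ : F}
    (hf₁0 : f₁ ≠ 0) (hf₂0 : f₂ ≠ 0) (ho₁ : ∀ v : Place K F, v.ord f₁ = n * (E₁ : Divisor K F) v)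
    (ho₂ : ∀ v : Place K F, v.ord f₂ = n * (E₂ : Divisor K F) v) :
    ∃ h : F, h ≠ 0 ∧ f₂ = f₁ * h ^ n := by
  have hpr : Divisor.IsPrincipal ((E₂ - E₁ : Divisor.degZero (K := K) (F := F)) : Divisor K F) := by
    rw [← mk_eq_zero_iff]
    have : Pic0.mk (E₂ - E₁) = Pic0.mk E₂ - Pic0.mk E₁ := rfl
    rw [this, ← hE, sub_self]
  obtain ⟨h, hh0, hh⟩ := hpr
  have hconst : ∀ v : Place K F, v.ord (f₂ / (f₁ * h ^ n)) = 0 := by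
    intro v
    rw [div_eq_mul_inv, v.ord_mul hf₂0 (inv_ne_zero (mul_ne_zero hf₁0 (pow_ne_zero n hh0))),
      v.ord_inv, v.ord_mul hf₁0 (pow_ne_zero n hh0), ord_pow, ho₁, ho₂, ← hh v,
      AddSubgroup.coe_sub, Finsupp.sub_apply]
    ring
  obtain ⟨c, hc⟩ := exists_const_of_ord_eq_zero
    (div_ne_zero hf₂0 (mul_ne_zero hf₁0 (pow_ne_zero n hh0))) hconst
  obtain ⟨d, hd⟩ := IsAlgClosed.exists_pow_nat_eq c hn
  have hf₂' : f₂ = f₁ * (algebraMap K F d * h) ^ n := by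
    rw [mul_pow, ← map_pow, hd, hc]
    field_simp
  refine ⟨algebraMap K F d * h, ?_, hf₂'⟩
  intro h0
  rw [hf₂', h0, zero_pow hn.ne', mul_zero] at hf₂0
  exact hf₂0 rfl

open Fermat.Agent.QX4 in
/-- Classes split at both components are represented by normalised data. -/
theorem exists_tor [IsFF K F] [IsAlgClosed K] (hq : 0 < q) (arch : D.Arch) {n : ℕ} (hn : 0 < n)
    {x : Pic0 K F} (hx₁ : Split D.O₁ D.ρ₁ n x) (hx₂ : Split D.O₂ D.ρ₂ n x) :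
    ∃ (E : Divisor.degZero (K := K) (F := F)) (φ : D.R.O), x = Pic0.mk E ∧
      D.Tor n (E : Divisor K F) φ := by
  obtain ⟨E₁, f₁, hf₁, u₁, rfl, hu₁, ho₁, hr₁⟩ := hx₁
  obtain ⟨E₂, f₂, hf₂, u₂, hE, hu₂, ho₂, hr₂⟩ := hx₂
  obtain ⟨v₁, hv₁0, k₁, l₁⟩ := normalise₁ hf₁ hu₁ hr₁
  obtain ⟨v₂, hv₂0, k₂, l₂⟩ := normalise₂ hf₂ hu₂ hr₂
  have hf₁0 : f₁ ≠ 0 := by
    rintro rfl
    have : (⟨0, hf₁⟩ : D.O₁) = 0 := rfl
    rw [this, map_zero] at hr₁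
    exact pow_ne_zero n hu₁ hr₁.symm
  have hf₂0 : f₂ ≠ 0 := by
    rintro rfl
    have : (⟨0, hf₂⟩ : D.O₂) = 0 := rfl
    rw [this, map_zero] at hr₂
    exact pow_ne_zero n hu₂ hr₂.symm
  obtain ⟨h, hd0, hf₂'⟩ := exists_common_root hn hE hf₁0 hf₂0 ho₁ ho₂
  have e₂ : f₂ / v₂ ^ n = f₁ / (v₂ / h) ^ n := by
    rw [hf₂', div_pow, div_div_eq_mul_div]
  obtain ⟨g, hg0, m₁, m₂, r₁, r₂⟩ := exists_approx (D := D) hq arch hv₁0 (div_ne_zero hv₂0 hd0)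
  have k₂' : f₁ / (v₂ / h) ^ n ∈ D.O₂ := e₂ ▸ k₂
  have l₂' : D.ρ₂ ⟨_, k₂'⟩ = 1 := by
    rw [← l₂]
    exact congrArg D.ρ₂ (Subtype.ext e₂.symm)
  obtain ⟨a₁, b₁⟩ := combine₁ hv₁0 hg0 k₁ l₁ m₁ r₁
  obtain ⟨a₂, b₂⟩ := combine₂ (div_ne_zero hv₂0 hd0) hg0 k₂' l₂' m₂ r₂
  have hTor : D.Tor n ((E₁ : Divisor K F) - RR.div g) ⟨f₁ / g ^ n, a₁, a₂⟩ := by
    refine { deg := ?_, ρ_eq := ?_, ord := fun v => ?_ }
    · rw [map_sub, Divisor.mem_degZero.mp E₁.2, Divisor.mem_degZero.mp (div_mem_degZero g),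
        sub_zero]
    · refine Prod.ext ?_ ?_
      · rw [fst_R_ρ]; exact b₁
      · rw [snd_R_ρ]; exact b₂
    · change v.ord (f₁ / g ^ n) = _
      rw [div_eq_mul_inv, v.ord_mul hf₁0 (inv_ne_zero (pow_ne_zero n hg0)), v.ord_inv, ord_pow,
        ho₁, Finsupp.sub_apply, div_apply]
      ring
  set G : Divisor.degZero (K := K) (F := F) := ⟨_, div_mem_degZero g⟩ with hG
  have h1 : Pic0.mk G = 0 := by
    rw [mk_eq_zero_iff]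
    exact ⟨g, hg0, fun v => div_apply g v⟩
  refine ⟨E₁ - G, ⟨f₁ / g ^ n, a₁, a₂⟩, ?_, ?_⟩
  · have : Pic0.mk (E₁ - G) = Pic0.mk E₁ - Pic0.mk G := rfl
    rw [this, h1, sub_zero]
  · rw [AddSubgroup.coe_sub]
    exact hTor

end Data

end Fermat.Agent.TwoComp
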