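import Fermat.Agent.TwoComp.Split

/-!
# Galois action on the torus and unipotence of inertia
-/

set_option autoImplicit false
set_option linter.unusedSectionVars false

open AlgebraicCurve WithZero Module Polynomial
open scoped IntermediateField
open Fermat.Agent.RR Fermat.Agent.Deuring Fermat.Agent.FF Fermat.Agent.QX4

namespace Fermat.Agent.TwoComp

namespace Data

variable {K Fm F k F' : Type*} [Field K] [Field Fm] [Algebra K Fm] [Field F]
    [Algebra K F] [Field k] [Field F'] [Algebra k F'] {q : ℕ} {D : Data K Fm F k F' q}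
    [IsFF K F]

theorem mk_eq_mk_of {E E' : Divisor.degZero (K := K) (F := F)}
    (h : AlgebraicCurve.Divisor.IsPrincipal ((E' : Divisor K F) - (E : Divisor K F))) :
    Pic0.mk E' = Pic0.mk E := by
  rw [← sub_eq_zero]
  have : Pic0.mk E' - Pic0.mk E = Pic0.mk (E' - E) := rfl
  rw [this, mk_eq_zero_iff, AddSubgroup.coe_sub]
  exact h

section Main

variable [IsFF k F'] [IsFF K Fm] [IsAlgClosed k] [IsAlgClosed K]

/-- **Inertia acts trivially on the torus.** -/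
theorem Act.smul_eq_self {g : SemilinearAut K F} (hg : D.Act g id) (hq : 2 ≤ q)
    (arch : D.Arch) {n : ℕ} (hn : (n : k) ≠ 0) {x : Pic0 K F} (hx₁ : Split D.O₁ D.ρ₁ n x)
    (hx₂ : Split D.O₂ D.ρ₂ n x) : g • x = x := by
  have hn0 : 0 < n := Nat.pos_of_ne_zero (by rintro rfl; simp at hn)
  obtain ⟨E, φ, rfl, h⟩ := exists_tor (by omega) arch hn0 hx₁ hx₂
  rw [SemilinearAut.pic0_smul_mk]
  apply mk_eq_mk_of
  rw [SemilinearAut.coe_degZeroSMulHom]
  exact hg.isPrincipal_smul_sub hq arch hn h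

/-- **The square of Frobenius acts as `q²` on the torus.** -/
theorem Act.smul_smul_eq {g : SemilinearAut K F} (hg : D.Act g D.σ) (hq : 2 ≤ q)
    (arch : D.Arch) {n : ℕ} (hn : (n : k) ≠ 0) {x : Pic0 K F} (hx₁ : Split D.O₁ D.ρ₁ n x)
    (hx₂ : Split D.O₂ D.ρ₂ n x) : g • g • x = (q ^ 2) • x := by
  have hn0 : 0 < n := Nat.pos_of_ne_zero (by rintro rfl; simp at hn)
  obtain ⟨E, φ, rfl, h⟩ := exists_tor (by omega) arch hn0 hx₁ hx₂
  have h2 : (q ^ 2) • Pic0.mk E = Pic0.mk ((q ^ 2) • E) := rfl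
  rw [← mul_smul, SemilinearAut.pic0_smul_mk, h2]
  apply mk_eq_mk_of
  rw [SemilinearAut.coe_degZeroSMulHom, AddSubgroup.coe_nsmul]
  exact (hg.comp hg).isPrincipal_smul_sub_sq hq arch hn h

end Main

theorem split_of_inertia₁ (hq : 0 < q) {g : SemilinearAut K F} (hg : D.Act g id) {n : ℕ}
    {x : Pic0 K F} (hx : n • x = 0) : Split D.O₁ D.ρ₁ n (g • x - x) := by
  obtain ⟨E, rfl⟩ := Pic0.mk_surjective x
  obtain ⟨f, hf0, hf⟩ := exists_ord_eq_of_nsmul_eq_zero hx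
  obtain ⟨c, hc0, hc, hρ⟩ := exists_unit₁ (D := D) hq hf0
  have hcf0 : algebraMap K F c * f ≠ 0 := mul_ne_zero ((_root_.map_ne_zero _).mpr hc0) hf0
  have hi := D.inv_mem_O₁ hc hρ
  have hm := D.O₁.mul_mem _ _ (hg.mem₁ _ hc) hi
  refine ⟨SemilinearAut.degZeroSMulHom g E - E, _, hm, 1, rfl, one_ne_zero, fun v => ?_, ?_⟩
  · have hg0 : g • (algebraMap K F c * f) ≠ 0 := by simpa using ⟨hc0, hf0⟩
    rw [v.ord_mul hg0 (inv_ne_zero hcf0), v.ord_inv]
    have h1 : v.ord (algebraMap K F c * f) = n * (E : Divisor K F) v := by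
      rw [v.ord_mul ((_root_.map_ne_zero _).mpr hc0) hf0, ord_algebraMap_eq_zero v hc0, zero_add,
        hf]
    have h2 : v.ord (g • (algebraMap K F c * f)) = n * (g • (E : Divisor K F)) v := by
      obtain ⟨w, rfl⟩ : ∃ w : Place K F, v = g • w := ⟨g⁻¹ • v, (smul_inv_smul g v).symm⟩
      rw [SemilinearAut.divisor_smul_apply_smul, SemilinearAut.ord_smul,
        w.ord_mul ((_root_.map_ne_zero _).mpr hc0) hf0, ord_algebraMap_eq_zero w hc0, zero_add, hf]
    rw [h1, h2, AddSubgroup.coe_sub, Finsupp.sub_apply, SemilinearAut.coe_degZeroSMulHom]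
    ring
  · have e : (⟨_, hm⟩ : D.O₁) = ⟨_, hg.mem₁ _ hc⟩ * ⟨_, hi⟩ := rfl
    rw [e, map_mul, hg.ρ₁ _ hc, id_eq, ← map_mul, one_pow, ← map_one D.ρ₁]
    exact congrArg D.ρ₁ (Subtype.ext (mul_inv_cancel₀ hcf0))

theorem Act.swap {g : SemilinearAut K F} {θ : F' → F'} (hg : D.Act g θ) : D.swap.Act g θ where
  mem₁ := hg.mem₂
  mem₂ := hg.mem₁
  ρ₁ := hg.ρ₂
  ρ₂ := hg.ρ₁
  smul_α := hg.smul_β
  smul_β := hg.smul_α

theorem split_of_inertia₂ (hq : 0 < q) {g : SemilinearAut K F} (hg : D.Act g id) {n : ℕ}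
    {x : Pic0 K F} (hx : n • x = 0) : Split D.O₂ D.ρ₂ n (g • x - x) :=
  split_of_inertia₁ (D := D.swap) hq hg.swap hx

/-- **Inertia acts unipotently on torsion.** -/
theorem Act.unipotent [IsFF k F'] [IsFF K Fm] [IsAlgClosed k] [IsAlgClosed K]
    {g g' : SemilinearAut K F} (hg : D.Act g id) (hg' : D.Act g' id) (hq : 2 ≤ q) (arch : D.Arch)
    {n : ℕ} (hn : (n : k) ≠ 0) {x : Pic0 K F} (hx : n • x = 0) :
    g' • (g • x - x) = g • x - x :=
  hg'.smul_eq_self hq arch hn (split_of_inertia₁ (by omega) hg hx)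
    (split_of_inertia₂ (by omega) hg hx)

end Data

end Fermat.Agent.TwoComp
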