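import Fermat.Agent.TwoComp.Full3
import Fermat.Agent.TwoComp.Torus
import Fermat.Agent.S27.Export
import Mathlib.RingTheory.RootsOfUnity.AlgebraicallyClosed

/-!
# The torus is full: every gluing datum comes from a torsion class
-/

set_option autoImplicit false
set_option linter.unusedSectionVars false

open AlgebraicCurve WithZero Module Polynomial
open scoped IntermediateField
open Fermat.Agent.RR Fermat.Agent.Deuring Fermat.Agent.FF Fermat.Agent.QX4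

namespace Fermat.Agent.TwoComp

/-- A counting lemma. -/
theorem natCard_le_mul {G β : Type*} [AddGroup G] (A C : Set G) [Finite C] [Finite β]
    (f : A → β) (h : ∀ x y : A, f x = f y → ((x : G) - y) ∈ C) :
    Nat.card A ≤ Nat.card β * Nat.card C := by
  classical
  by_cases hA : Nonempty A
  · obtain ⟨a₀⟩ := hA
    let sec : β → A := fun b => if h : ∃ x, f x = b then h.choose else a₀
    have hsec : ∀ x, f (sec (f x)) = f x := by
      intro x
      have hx : ∃ y, f y = f x := ⟨x, rfl⟩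
      simp only [sec, dif_pos hx]
      exact hx.choose_spec
    let F : A → β × C := fun x => (f x, ⟨(x : G) - sec (f x), h _ _ (hsec x).symm⟩)
    have hF : Function.Injective F := by
      intro x y hxy
      have h1 : f x = f y := congrArg Prod.fst hxy
      have h2 : (x : G) - sec (f x) = (y : G) - sec (f y) :=
        congrArg (fun z => ((z.2 : C) : G)) hxy
      rw [h1] at h2
      exact Subtype.ext (sub_left_injective h2)
    have := Nat.card_le_card_of_injective F hF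
    rwa [Nat.card_prod] at this
  · rw [not_nonempty_iff] at hA
    rw [Nat.card_of_isEmpty]
    exact Nat.zero_le _

namespace Data

variable {K Fm F k F' : Type*} [Field K] [Field Fm] [Algebra K Fm] [Field F]
    [Algebra K F] [Field k] [Field F'] [Algebra k F'] {q : ℕ} {D : Data K Fm F k F' q}
    [IsFF K F]

theorem mul_mem_unit₁ {f g : F} (hf : f ∈ D.O₁) (hf0 : D.ρ₁ ⟨f, hf⟩ ≠ 0) (hg : g ∈ D.O₁)
    (hg0 : D.ρ₁ ⟨g, hg⟩ ≠ 0) : ∃ h : f * g ∈ D.O₁, D.ρ₁ ⟨f * g, h⟩ ≠ 0 := by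
  refine ⟨D.O₁.mul_mem _ _ hf hg, ?_⟩
  have : (⟨f * g, D.O₁.mul_mem _ _ hf hg⟩ : D.O₁) = ⟨f, hf⟩ * ⟨g, hg⟩ := rfl
  rw [this, map_mul]
  exact mul_ne_zero hf0 hg0

/-- Every torsion class has a representative with unit reductions. -/
theorem exists_preTor [IsAlgClosed K] (hq : 0 < q) (arch : D.Arch) {n : ℕ} (hn : 0 < n)
    {x : Pic0 K F} (hx : n • x = 0) :
    ∃ (E : Divisor.degZero (K := K) (F := F)) (φ : D.R.O), x = Pic0.mk E ∧
      D.PreTor n (E : Divisor K F) φ := by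
  obtain ⟨E, rfl⟩ := Pic0.mk_surjective x
  obtain ⟨f, hf0, hf⟩ := exists_ord_eq_of_nsmul_eq_zero hx
  obtain ⟨c₁, hc₁0, hc₁, hρ₁⟩ := exists_unit₁ (D := D) hq hf0
  obtain ⟨c₂, hc₂0, hc₂, hρ₂⟩ := exists_unit₂ (D := D) hq hf0
  obtain ⟨d₁, hd₁⟩ := IsAlgClosed.exists_pow_nat_eq c₁ hn
  obtain ⟨d₂, hd₂⟩ := IsAlgClosed.exists_pow_nat_eq c₂ hn
  have hd₁0 : d₁ ≠ 0 := by
    rintro rfl
    rw [zero_pow hn.ne'] at hd₁
    exact hc₁0 hd₁.symm
  have hd₂0 : d₂ ≠ 0 := by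
    rintro rfl
    rw [zero_pow hn.ne'] at hd₂
    exact hc₂0 hd₂.symm
  have hD₁ : algebraMap K F d₁ ≠ 0 := (_root_.map_ne_zero _).mpr hd₁0
  have hD₂ : algebraMap K F d₂ ≠ 0 := (_root_.map_ne_zero _).mpr hd₂0
  obtain ⟨g, hg0, m₁, m₂, r₁, r₂⟩ := exists_approx (D := D) hq arch hD₁ hD₂
  have e₁ : f * g ^ n = (algebraMap K F c₁ * f) * (g / algebraMap K F d₁) ^ n := by
    rw [← hd₁, map_pow, div_pow]
    field_simp
  have e₂ : f * g ^ n = (algebraMap K F c₂ * f) * (g / algebraMap K F d₂) ^ n := by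
    rw [← hd₂, map_pow, div_pow]
    field_simp
  have key₁ : ∃ h : f * g ^ n ∈ D.O₁, D.ρ₁ ⟨_, h⟩ ≠ 0 := by
    rw [e₁]
    refine mul_mem_unit₁ hc₁ hρ₁ (pow_mem m₁ n) ?_
    have : (⟨_, pow_mem m₁ n⟩ : D.O₁) = ⟨_, m₁⟩ ^ n := rfl
    rw [this, map_pow, r₁, one_pow]
    exact one_ne_zero
  have key₂ : ∃ h : f * g ^ n ∈ D.O₂, D.ρ₂ ⟨_, h⟩ ≠ 0 := by
    rw [e₂]
    refine mul_mem_unit₁ (D := D.swap) hc₂ hρ₂ (pow_mem m₂ n) ?_
    have : (⟨_, pow_mem m₂ n⟩ : D.swap.O₁) = ⟨_, m₂⟩ ^ n := rfl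
    rw [this, map_pow]
    exact pow_ne_zero n (by change D.ρ₂ ⟨_, m₂⟩ ≠ 0; rw [r₂]; exact one_ne_zero)
  obtain ⟨k₁, l₁⟩ := key₁
  obtain ⟨k₂, l₂⟩ := key₂
  set G : Divisor.degZero (K := K) (F := F) := ⟨_, div_mem_degZero g⟩ with hG
  have h1 : Pic0.mk G = 0 := by
    rw [mk_eq_zero_iff]
    exact ⟨g, hg0, fun v => div_apply g v⟩
  refine ⟨E + G, ⟨f * g ^ n, k₁, k₂⟩, ?_, ?_⟩
  · have : Pic0.mk (E + G) = Pic0.mk E + Pic0.mk G := rfl
    rw [this, h1, add_zero]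
  · refine { deg := ?_, fst := l₁, snd := l₂, ord := fun v => ?_ }
    · exact Divisor.mem_degZero.mp (E + G).2
    · change v.ord (f * g ^ n) = _
      rw [v.ord_mul hf0 (pow_ne_zero n hg0), ord_pow, hf, AddSubgroup.coe_add,
        Finsupp.add_apply]
      change _ = (n : ℤ) * ((E : Divisor K F) v + RR.div g v)
      rw [div_apply]
      ring

variable [IsFF k F']

theorem nsmul_cdiv {n : ℕ} (hn : 0 < n) {g : F'} (h : bad (k := k) n g = ∅) :
    n • cdiv (k := k) n g = RR.div g := by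
  ext v
  rw [Finsupp.smul_apply, cdiv_apply, div_apply, nsmul_eq_mul]
  apply cl_of_dvd hn
  by_contra hcon
  have := mem_bad.mpr hcon
  rw [h] at this
  simp at this

theorem degree_cdiv {n : ℕ} (hn : 0 < n) {g : F'} (h : bad (k := k) n g = ∅) :
    Divisor.degree (cdiv (k := k) n g) = 0 := by
  have : Nonempty (Place k F') := exists_place
  have : ∀ v : Place k F', v.FiniteResidue := QX.finiteResidue_place
  have h1 := congrArg Divisor.degree (nsmul_cdiv hn h)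
  rw [map_nsmul, degree_div, smul_eq_zero] at h1
  exact h1.resolve_left hn.ne'

theorem cdiv_mem {n : ℕ} (hn : 0 < n) {g : F'} (h : bad (k := k) n g = ∅) :
    cdiv (k := k) n g ∈ Divisor.degZero (K := k) (F := F') :=
  Divisor.mem_degZero.mpr (degree_cdiv hn h)

/-- `g` is an `n`-th power if `div g = n div u`. -/
theorem exists_pow_eq [IsAlgClosed k] {n : ℕ} (hn : 0 < n) {g u : F'} (hg : g ≠ 0) (hu : u ≠ 0)
    (h : ∀ v : Place k F', v.ord g = n * v.ord u) : ∃ w : F', w ≠ 0 ∧ g = w ^ n := by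
  have h1 : ∀ v : Place k F', v.ord (g / u ^ n) = 0 := by
    intro v
    rw [div_eq_mul_inv, v.ord_mul hg (inv_ne_zero (pow_ne_zero n hu)), v.ord_inv, ord_pow, h v]
    ring
  obtain ⟨c, hc⟩ := exists_const_of_ord_eq_zero (div_ne_zero hg (pow_ne_zero n hu)) h1
  obtain ⟨d, hd⟩ := IsAlgClosed.exists_pow_nat_eq c hn
  have h2 : g = (algebraMap k F' d * u) ^ n := by
    rw [mul_pow, ← map_pow, hd, hc, div_mul_cancel₀ _ (pow_ne_zero n hu)]
  refine ⟨algebraMap k F' d * u, ?_, h2⟩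
  intro h0
  rw [h0, zero_pow hn.ne'] at h2
  exact hg h2

theorem PreTor.split₁ {n : ℕ} {E : Divisor.degZero (K := K) (F := F)} {φ : D.R.O}
    (h : D.PreTor n (E : Divisor K F) φ) {u : F'} (hu : u ≠ 0) (he : (D.R.ρ φ).1 = u ^ n) :
    Split D.O₁ D.ρ₁ n (Pic0.mk E) := ⟨E, φ, φ.2.1, u, rfl, hu, h.ord, he⟩

theorem PreTor.split₂ {n : ℕ} {E : Divisor.degZero (K := K) (F := F)} {φ : D.R.O}
    (h : D.PreTor n (E : Divisor K F) φ) {u : F'} (hu : u ≠ 0) (he : (D.R.ρ φ).2 = u ^ n) :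
    Split D.O₂ D.ρ₂ n (Pic0.mk E) := ⟨E, φ, φ.2.2, u, rfl, hu, h.ord, he⟩

section Count

variable [IsFF K Fm] [IsAlgClosed K] [IsAlgClosed k]

variable (D) in
/-- Torsion classes split at both components. -/
def TT (n : ℕ) : Set (Pic0 K F) := {x | Split D.O₁ D.ρ₁ n x ∧ Split D.O₂ D.ρ₂ n x}

variable (D) in
/-- Torsion classes whose reductions have orders divisible by `n`. -/
def J0 (n : ℕ) : Set (Pic0 K F) := {x | ∃ (E : Divisor.degZero (K := K) (F := F)) (φ : D.R.O),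
  x = Pic0.mk E ∧ D.PreTor n (E : Divisor K F) φ ∧ bad (k := k) n (D.R.ρ φ).1 = ∅ ∧
    bad (k := k) n (D.R.ρ φ).2 = ∅}

/-- The difference of two representatives. -/
theorem PreTor.sub {n : ℕ} {E E' : Divisor.degZero (K := K) (F := F)} {φ φ' : D.R.O}
    (h : D.PreTor n (E : Divisor K F) φ) (h' : D.PreTor n (E' : Divisor K F) φ') :
    ∃ φ'' : D.R.O, D.PreTor n ((E - E' : Divisor.degZero (K := K) (F := F)) : Divisor K F) φ'' ∧
      (D.R.ρ φ'').1 = (D.R.ρ φ).1 * (D.R.ρ φ').1⁻¹ ∧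
      (D.R.ρ φ'').2 = (D.R.ρ φ).2 * (D.R.ρ φ').2⁻¹ := by
  refine ⟨φ * ⟨(φ' : F)⁻¹, h'.inv_mem⟩, ?_, ?_, ?_⟩
  · rw [AddSubgroup.coe_sub, sub_eq_add_neg]
    exact h.mul h'.inv
  · rw [map_mul, h'.ρ_inv]; rfl
  · rw [map_mul, h'.ρ_inv]; rfl

omit [IsFF k F'] [IsFF K Fm] [IsAlgClosed K] [IsAlgClosed k] in
theorem nsmul_eq_zero_of_split {O : ValuationSubring F} {ρ : O →+* F'} {n : ℕ} {x : Pic0 K F}
    (hx : Split O ρ n x) (hn : 0 < n) : n • x = 0 := by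
  obtain ⟨E, f, hf, u, rfl, hu, ho, hr⟩ := hx
  have hf0 : f ≠ 0 := by
    rintro rfl
    have : (⟨0, hf⟩ : O) = 0 := rfl
    rw [this, map_zero] at hr
    exact pow_ne_zero n hu hr.symm
  have : n • Pic0.mk E = Pic0.mk (n • E) := rfl
  rw [this, mk_eq_zero_iff]
  refine ⟨f, hf0, fun v => ?_⟩
  rw [ho v]
  simp

theorem finite_tors (n : ℕ) (hn : (n : K) ≠ 0) : Finite {x : Pic0 K F | n • x = 0} := by
  have h1 := S27.finite_pic0_torsion K F n hn
  have h2 : {x : Pic0 K F | n • x = 0} = (Pic0.torsion K F n : Set (Pic0 K F)) := by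
    ext x
    rw [Set.mem_ofPred_eq, SetLike.mem_coe, Pic0.mem_torsion, natCast_zsmul]
  rw [h2]
  exact h1

theorem natCard_tors (n : ℕ) (hn : (n : K) ≠ 0) :
    Nat.card {x : Pic0 K F | n • x = 0} = n ^ (2 * genusFF K F) := by
  rw [← (S27.pic0_torsion_divisible K F n hn).1, S27.natCard_pic0_torsion]
  rfl

theorem J0_subset (n : ℕ) : D.J0 n ⊆ {x : Pic0 K F | n • x = 0} := by
  rintro x ⟨E, φ, rfl, h, -⟩
  have : n • Pic0.mk E = Pic0.mk (n • E) := rfl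
  rw [Set.mem_ofPred_eq, this, mk_eq_zero_iff]
  refine ⟨φ, h.ne_zero, fun v => ?_⟩
  rw [h.ord]
  simp

theorem TT_subset {n : ℕ} (hn : 0 < n) : D.TT n ⊆ {x : Pic0 K F | n • x = 0} :=
  fun _ hx => nsmul_eq_zero_of_split hx.1 hn

/-- First count. -/
theorem card_le₁ (hq : 2 ≤ q) (arch : D.Arch) (T : D.NodeSet) {n : ℕ} (hnK : (n : K) ≠ 0)
    {s₀ : D.Rb →ₐ[k] k} (hs₀ : s₀ ∈ T.Nd) :
    n ^ (2 * genusFF K F) ≤ n ^ (T.Nd.card - 1) * Nat.card (D.J0 n) := by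
  classical
  have hn : 0 < n := Nat.pos_of_ne_zero (by rintro rfl; simp at hnK)
  have : NeZero n := ⟨hn.ne'⟩
  have hfin := finite_tors (K := K) (F := F) n hnK
  have hfinJ : Finite (D.J0 n) := Set.Finite.subset hfin (J0_subset n)
  rw [← natCard_tors (K := K) (F := F) n hnK]
  choose E φ hE hφ using fun x : {x : Pic0 K F | n • x = 0} =>
    exists_preTor (D := D) (by omega) arch hn x.2
  have : Fintype (T.Nd.erase s₀) := Finset.fintypeCoeSort _
  have hfinE : Finite (T.Nd.erase s₀) := Finite.of_fintype _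
  have : Finite ((T.Nd.erase s₀) → ZMod n) := Pi.finite
  have h1 := natCard_le_mul (β := (T.Nd.erase s₀) → ZMod n) {x : Pic0 K F | n • x = 0} (D.J0 n)
    (fun x s => (((D.pl s).ord (D.R.ρ (φ x)).1 : ℤ) : ZMod n)) ?_
  · have h2 : Nat.card ((T.Nd.erase s₀) → ZMod n) = n ^ (T.Nd.card - 1) := by
      rw [Nat.card_fun, Nat.card_zmod, Nat.card_eq_fintype_card, Fintype.card_coe,
        Finset.card_erase_of_mem hs₀]
    rwa [h2] at h1
  · intro x y hxy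
    obtain ⟨φ'', h3, h4, h5⟩ := (hφ x).sub (hφ y)
    have h6 : ∀ s ∈ T.Nd, s ≠ s₀ → (n : ℤ) ∣ (D.pl s).ord (D.R.ρ φ'').1 := by
      intro s hs hne
      have h7 := congrFun hxy ⟨s, Finset.mem_erase.mpr ⟨hne, hs⟩⟩
      simp only at h7
      rw [h4, (D.pl s).ord_mul (hφ x).fst (inv_ne_zero (hφ y).fst), (D.pl s).ord_inv,
        ← ZMod.intCast_zmod_eq_zero_iff_dvd]
      push_cast
      rw [h7]
      ring
    have h7 := h3.dvd_of_forall_ne T hq hn h6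
    obtain ⟨h8, h9⟩ := h3.bad_eq_empty T hq hn h7
    refine ⟨E x - E y, φ'', ?_, h3, h8, h9⟩
    rw [hE x, hE y]
    rfl

/-- Second count. -/
theorem card_le₂ {n : ℕ} (hnK : (n : K) ≠ 0) (hnk : (n : k) ≠ 0) :
    Nat.card (D.J0 n) ≤ (n ^ (2 * genusFF k F')) ^ 2 * Nat.card (D.TT n) := by
  classical
  have hn : 0 < n := Nat.pos_of_ne_zero (by rintro rfl; simp at hnK)
  have hfin := finite_tors (K := K) (F := F) n hnK
  have hfin' := finite_tors (K := k) (F := F') n hnk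
  have hfinT : Finite (D.TT n) := Set.Finite.subset hfin (TT_subset hn)
  choose E φ hE hφ hb₁ hb₂ using fun x : D.J0 n => x.2
  have htors : ∀ g : F', ∀ hg : g ≠ 0, ∀ hb : bad (k := k) n g = ∅,
      n • Pic0.mk (⟨cdiv n g, cdiv_mem hn hb⟩ : Divisor.degZero (K := k) (F := F')) = 0 := by
    intro g hg hb
    have : n • Pic0.mk (⟨cdiv n g, cdiv_mem hn hb⟩ : Divisor.degZero (K := k) (F := F')) =
      Pic0.mk (n • (⟨cdiv n g, cdiv_mem hn hb⟩ : Divisor.degZero (K := k) (F := F'))) := rfl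
    rw [this, mk_eq_zero_iff, AddSubgroup.coe_nsmul, nsmul_cdiv hn hb]
    exact ⟨g, hg, fun v => div_apply g v⟩
  have h1 := natCard_le_mul (β := {x : Pic0 k F' | n • x = 0} × {x : Pic0 k F' | n • x = 0})
    (D.J0 n) (D.TT n) (fun x => (⟨_, htors _ (hφ x).fst (hb₁ x)⟩, ⟨_, htors _ (hφ x).snd (hb₂ x)⟩)) ?_
  · rw [Nat.card_prod, natCard_tors (K := k) (F := F') n hnk] at h1
    rwa [sq]
  · intro x y hxy
    have hxy₁ : Pic0.mk (⟨cdiv n (D.R.ρ (φ x)).1, cdiv_mem hn (hb₁ x)⟩ :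
        Divisor.degZero (K := k) (F := F')) =
        Pic0.mk (⟨cdiv n (D.R.ρ (φ y)).1, cdiv_mem hn (hb₁ y)⟩ :
        Divisor.degZero (K := k) (F := F')) := congrArg (fun z => (z.1 : Pic0 k F')) hxy
    have hxy₂ : Pic0.mk (⟨cdiv n (D.R.ρ (φ x)).2, cdiv_mem hn (hb₂ x)⟩ :
        Divisor.degZero (K := k) (F := F')) =
        Pic0.mk (⟨cdiv n (D.R.ρ (φ y)).2, cdiv_mem hn (hb₂ y)⟩ :
        Divisor.degZero (K := k) (F := F')) := congrArg (fun z => (z.2 : Pic0 k F')) hxy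
    obtain ⟨φ'', h3, h4, h5⟩ := (hφ x).sub (hφ y)
    have aux : ∀ g g' : F', g ≠ 0 → g' ≠ 0 → ∀ (hb : bad (k := k) n g = ∅)
        (hb' : bad (k := k) n g' = ∅),
        Pic0.mk (⟨cdiv n g, cdiv_mem hn hb⟩ : Divisor.degZero (K := k) (F := F')) =
        Pic0.mk (⟨cdiv n g', cdiv_mem hn hb'⟩ : Divisor.degZero (K := k) (F := F')) →
        ∃ w : F', w ≠ 0 ∧ g * g'⁻¹ = w ^ n := by
      intro g g' hg hg' hb hb' he
      have h6 : Pic0.mk ((⟨cdiv n g, cdiv_mem hn hb⟩ : Divisor.degZero (K := k) (F := F')) -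
          ⟨cdiv n g', cdiv_mem hn hb'⟩) = 0 := by
        have : Pic0.mk ((⟨cdiv n g, cdiv_mem hn hb⟩ : Divisor.degZero (K := k) (F := F')) -
          ⟨cdiv n g', cdiv_mem hn hb'⟩) = Pic0.mk (⟨cdiv n g, cdiv_mem hn hb⟩ :
          Divisor.degZero (K := k) (F := F')) - Pic0.mk (⟨cdiv n g', cdiv_mem hn hb'⟩ :
          Divisor.degZero (K := k) (F := F')) := rfl
        rw [this, he, sub_self]
      rw [mk_eq_zero_iff] at h6
      obtain ⟨u, hu, hu'⟩ := h6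
      refine exists_pow_eq (k := k) hn (mul_ne_zero hg (inv_ne_zero hg')) hu fun v => ?_
      have h7 := congrArg (fun E : Divisor k F' => E v) (nsmul_cdiv hn hb)
      have h8 := congrArg (fun E : Divisor k F' => E v) (nsmul_cdiv hn hb')
      simp only [Finsupp.smul_apply, nsmul_eq_mul, div_apply] at h7 h8
      rw [v.ord_mul hg (inv_ne_zero hg'), v.ord_inv, ← h7, ← h8, ← hu' v, AddSubgroup.coe_sub,
        Finsupp.sub_apply]
      ring
    obtain ⟨w₁, hw₁, he₁⟩ := aux _ _ (hφ x).fst (hφ y).fst (hb₁ x) (hb₁ y) hxy₁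
    obtain ⟨w₂, hw₂, he₂⟩ := aux _ _ (hφ x).snd (hφ y).snd (hb₂ x) (hb₂ y) hxy₂
    have hE' : (x : Pic0 K F) - y = Pic0.mk (E x - E y) := by
      rw [hE x, hE y]
      rfl
    rw [hE']
    exact ⟨h3.split₁ hw₁ (h4.trans he₁), h3.split₂ hw₂ (h5.trans he₂)⟩

/-- **Lower bound for the torus.** -/
theorem pow_le_card_TT (hq : 2 ≤ q) (arch : D.Arch) (T : D.NodeSet) {n : ℕ} (hnK : (n : K) ≠ 0)
    (hnk : (n : k) ≠ 0) {s₀ : D.Rb →ₐ[k] k} (hs₀ : s₀ ∈ T.Nd) :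
    n ^ (T.Nd.card - 1) ≤ Nat.card (D.TT n) := by
  have hn : 0 < n := Nat.pos_of_ne_zero (by rintro rfl; simp at hnK)
  have h1 := card_le₁ hq arch T hnK hs₀
  have h2 := card_le₂ (D := D) hnK hnk
  have h3 := T.genus_eq hq
  have hs : 1 ≤ T.Nd.card := Finset.card_pos.mpr ⟨s₀, hs₀⟩
  have h4 : 2 * genusFF K F = (T.Nd.card - 1) + 2 * genusFF k F' * 2 + (T.Nd.card - 1) := by omega
  have h5 : n ^ (2 * genusFF K F) ≤
      n ^ (T.Nd.card - 1) * (n ^ (2 * genusFF k F' * 2) * Nat.card (D.TT n)) := by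
    refine h1.trans (Nat.mul_le_mul_left _ ?_)
    rwa [pow_mul]
  rw [h4, pow_add, pow_add, ← mul_assoc] at h5
  exact Nat.le_of_mul_le_mul_left h5 (by positivity)

end Count

end Data

end Fermat.Agent.TwoComp
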