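import Fermat.Agent.TwoComp.Full5

/-!
# The torus as a divisible group
-/

set_option autoImplicit false
set_option linter.unusedSectionVars false

open AlgebraicCurve WithZero Module Polynomial
open scoped IntermediateField
open Fermat.Agent.RR Fermat.Agent.Deuring Fermat.Agent.FF Fermat.Agent.QX4

namespace Fermat.Agent.TwoComp

namespace Data

variable {K Fm F k F' : Type*} [Field K] [Field Fm] [Algebra K Fm] [Field F]
    [Algebra K F] [Field k] [Field F'] [Algebra k F'] {q : ℕ} {D : Data K Fm F k F' q}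
    [IsFF K F]

theorem Tor.mul_right {n : ℕ} {E : Divisor K F} {φ : D.R.O} (h : D.Tor n E φ) (m : ℕ) :
    D.Tor (n * m) E (φ ^ m) where
  deg := h.deg
  ρ_eq := by rw [map_pow, h.ρ_eq, one_pow]
  ord v := by
    change v.ord ((φ : F) ^ m) = _
    rw [ord_pow, h.ord]
    push_cast
    ring

theorem Tor.mem_TT {n : ℕ} {E : Divisor.degZero (K := K) (F := F)} {φ : D.R.O}
    (h : D.Tor n (E : Divisor K F) φ) : Pic0.mk E ∈ D.TT n := by
  refine ⟨⟨E, φ, φ.2.1, 1, rfl, one_ne_zero, h.ord, ?_⟩,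
    ⟨E, φ, φ.2.2, 1, rfl, one_ne_zero, h.ord, ?_⟩⟩
  · rw [one_pow]
    exact congrArg Prod.fst h.ρ_eq
  · rw [one_pow]
    exact congrArg Prod.snd h.ρ_eq

theorem mem_TT_iff [IsAlgClosed K] (hq : 0 < q) (arch : D.Arch) {n : ℕ} (hn : 0 < n)
    {x : Pic0 K F} : x ∈ D.TT n ↔ ∃ (E : Divisor.degZero (K := K) (F := F)) (φ : D.R.O),
      x = Pic0.mk E ∧ D.Tor n (E : Divisor K F) φ := by
  constructor
  · rintro ⟨h1, h2⟩
    exact exists_tor hq arch hn h1 h2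
  · rintro ⟨E, φ, rfl, h⟩
    exact h.mem_TT

/-- The torus as a subgroup. -/
def torus [IsAlgClosed K] (D : Data K Fm F k F' q) (hq : 0 < q) (arch : D.Arch) {n : ℕ}
    (hn : 0 < n) : AddSubgroup (Pic0 K F) where
  carrier := D.TT n
  zero_mem' := (Tor.one (D := D) n).mem_TT (E := 0)
  add_mem' := by
    intro x y hx hy
    obtain ⟨E, φ, rfl, h⟩ := (mem_TT_iff hq arch hn).mp hx
    obtain ⟨E', φ', rfl, h'⟩ := (mem_TT_iff hq arch hn).mp hy
    exact (h.mul h').mem_TT (E := E + E')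
  neg_mem' := by
    intro x hx
    obtain ⟨E, φ, rfl, h⟩ := (mem_TT_iff hq arch hn).mp hx
    exact h.inv.mem_TT (E := -E)

theorem mem_torus [IsAlgClosed K] (hq : 0 < q) (arch : D.Arch) {n : ℕ}
    (hn : 0 < n) {x : Pic0 K F} : x ∈ D.torus hq arch hn ↔ x ∈ D.TT n := Iff.rfl

theorem mem_O₁_of_pow {f : F} {n : ℕ} (hn : 0 < n) (h : f ^ n ∈ D.O₁) : f ∈ D.O₁ := by
  rw [← ValuationSubring.valuation_le_one_iff] at h ⊢
  rw [map_pow] at h
  exact (pow_le_one_iff hn.ne').mp h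

theorem mem_O_of_pow {f : F} {n : ℕ} (hn : 0 < n) (h : f ^ n ∈ D.R.O) : f ∈ D.R.O :=
  ⟨mem_O₁_of_pow hn h.1, mem_O₁_of_pow (D := D.swap) hn h.2⟩

variable [IsFF k F'] [IsFF K Fm] [IsAlgClosed k] [IsAlgClosed K]

theorem exists_const {n : ℕ} (hn : 0 < n) {g : F'} (hg : g ^ n = 1) :
    ∃ c : k, algebraMap k F' c = g ∧ c ^ n = 1 := by
  have h1 : IsAlgebraic k g := by
    apply IsIntegral.isAlgebraic
    exact IsIntegral.of_pow hn (by rw [hg]; exact isIntegral_one)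
  obtain ⟨c, hc⟩ := FF.mem_range_of_isAlgebraic h1
  refine ⟨c, hc, ?_⟩
  apply (algebraMap k F').injective
  rw [map_pow, hc, hg, map_one]

/-- The gluing data of a principal divisor is constant. -/
theorem NodeSet.IsGlue.const {T : D.NodeSet} {n : ℕ} (hn : 0 < n) {E : Divisor K F} {φ : D.R.O}
    (h : D.Tor n E φ) {ζ : (D.Rb →ₐ[k] k) → k} (hζ : T.IsGlue E ζ)
    (hE : AlgebraicCurve.Divisor.IsPrincipal E) :
    ∃ c : k, c ^ n = 1 ∧ ∀ s ∈ T.Nd, ζ s = c := by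
  obtain ⟨f, hf0, hf⟩ := hE
  have hc : ∀ v : Place K F, v.ord ((φ : F) / f ^ n) = 0 := by
    intro v
    rw [div_eq_mul_inv, v.ord_mul h.ne_zero (inv_ne_zero (pow_ne_zero n hf0)), v.ord_inv, ord_pow,
      h.ord, hf]
    ring
  obtain ⟨c, hc⟩ := exists_const_of_ord_eq_zero (div_ne_zero h.ne_zero (pow_ne_zero n hf0)) hc
  obtain ⟨d, hd⟩ := IsAlgClosed.exists_pow_nat_eq c hn
  have e : (algebraMap K F d * f) ^ n = φ := by
    rw [mul_pow, ← map_pow, hd, hc, div_mul_cancel₀ _ (pow_ne_zero n hf0)]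
  have hd0 : algebraMap K F d ≠ 0 := by
    intro h0
    rw [h0, zero_mul, zero_pow hn.ne'] at e
    exact h.ne_zero e.symm
  have hm : algebraMap K F d * f ∈ D.R.O := mem_O_of_pow hn (by rw [e]; exact φ.2)
  set g : D.R.O := ⟨_, hm⟩ with hg
  have hgn : g ^ n = φ := Subtype.ext e
  have hρ : D.R.ρ g ^ n = 1 := by rw [← map_pow, hgn, h.ρ_eq]
  obtain ⟨ξ₁, hξ₁, hξ₁'⟩ := exists_const (k := k) hn (g := (D.R.ρ g).1) (congrArg Prod.fst hρ)
  obtain ⟨ξ₂, hξ₂, hξ₂'⟩ := exists_const (k := k) hn (g := (D.R.ρ g).2) (congrArg Prod.snd hρ)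
  obtain ⟨N, hN⟩ := hζ
  have hmem : D.R.ρ g ∈ D.M E N := by
    refine ⟨g, ?_, rfl⟩
    rw [mem_L_iff (mul_ne_zero hd0 hf0)]
    intro v
    rw [v.ord_mul hd0 hf0, ord_algebraMap, zero_add, ← hf v, Finsupp.sub_apply,
      Finsupp.smul_apply, nsmul_eq_mul]
    have := mul_nonneg (Int.natCast_nonneg N) (D.E₀_nonneg v)
    change 0 ≤ (N : ℤ) * D.E₀ v at this
    linarith
  rw [hN N le_rfl] at hmem
  have e2 : D.R.ρ g = (((algebraMap k D.Rb ξ₁ : D.Rb) : F'), ((algebraMap k D.Rb ξ₂ : D.Rb) : F')) :=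
    Prod.ext hξ₁.symm hξ₂.symm
  rw [e2, NodeSet.mem_Uz] at hmem
  have hξ₂0 : ξ₂ ≠ 0 := by
    rintro rfl
    rw [zero_pow hn.ne'] at hξ₂'
    exact zero_ne_one hξ₂'
  refine ⟨ξ₁ * ξ₂⁻¹, ?_, fun s hs => ?_⟩
  · rw [mul_pow, inv_pow, hξ₁', hξ₂', inv_one, mul_one]
  · have h3 := hmem.2 s hs
    rw [AlgHom.commutes, AlgHom.commutes, AlgHom.commutes] at h3
    change ξ₁ = ζ s * ξ₂ at h3
    rw [h3, mul_assoc, mul_inv_cancel₀ hξ₂0, mul_one]

theorem natCast_mul_ne_zero {R : Type*} [Ring R] [NoZeroDivisors R] {n m : ℕ} (hn : (n : R) ≠ 0)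
    (hm : (m : R) ≠ 0) : ((n * m : ℕ) : R) ≠ 0 := by
  rw [Nat.cast_mul]
  exact mul_ne_zero hn hm

/-- **Divisibility of the torus.** -/
theorem exists_nsmul_eq (hq : 2 ≤ q) (arch : D.Arch) {n m : ℕ}
    (hnK : (n : K) ≠ 0) (hnk : (n : k) ≠ 0) (hmK : (m : K) ≠ 0) (hmk : (m : k) ≠ 0)
    {x : Pic0 K F} (hx : x ∈ D.TT n) : ∃ y ∈ D.TT (n * m), m • y = x := by
  obtain ⟨T⟩ := D.nonempty_nodeSet hq
  have hn : 0 < n := Nat.pos_of_ne_zero (by rintro rfl; simp at hnK)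
  have hm : 0 < m := Nat.pos_of_ne_zero (by rintro rfl; simp at hmK)
  obtain ⟨E, φ, rfl, h⟩ := exists_tor (D := D) (by omega) arch hn hx.1 hx.2
  obtain ⟨ζ, hζ1, hζ⟩ := h.exists_glue (T := T) hq hn
  choose η hη using fun s : D.Rb →ₐ[k] k => IsAlgClosed.exists_pow_nat_eq (ζ s) hm
  obtain ⟨E', φ', h', hE'⟩ := exists_tor_of_glue hq arch T (n := n * m)
    (natCast_mul_ne_zero hnK hmK) (natCast_mul_ne_zero hnk hmk) η (fun s _ => by
      rw [mul_comm, pow_mul, hη, hζ1])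
  refine ⟨Pic0.mk E', h'.mem_TT, ?_⟩
  have h2 : m • Pic0.mk E' = Pic0.mk (m • E') := rfl
  rw [h2]
  have h3 := h'.pow m
  have h4 := h'.glue_nsmul hq (by positivity) hE' m
  have h5 : m • (E' : Divisor K F) = ((m • E' : Divisor.degZero (K := K) (F := F)) : Divisor K F) :=
    rfl
  rw [h5] at h3 h4
  exact mk_eq_of_glue hq arch (natCast_mul_ne_zero hnk hmk) (h.mul_right m) h3 hζ h4
    (fun s _ => hη s)

/-- The `n`-torsion of the torus. -/
theorem mem_TT_of_nsmul_eq_zero (hq : 2 ≤ q) (arch : D.Arch) {n m : ℕ}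
    (hnK : (n : K) ≠ 0) (hnk : (n : k) ≠ 0) (hmK : (m : K) ≠ 0) (hmk : (m : k) ≠ 0)
    {x : Pic0 K F} (hx : x ∈ D.TT (n * m)) (hx0 : n • x = 0) : x ∈ D.TT n := by
  obtain ⟨T⟩ := D.nonempty_nodeSet hq
  have hn : 0 < n := Nat.pos_of_ne_zero (by rintro rfl; simp at hnK)
  have hm : 0 < m := Nat.pos_of_ne_zero (by rintro rfl; simp at hmK)
  have hnm : 0 < n * m := by positivity
  obtain ⟨E, φ, rfl, h⟩ := exists_tor (D := D) (by omega) arch hnm hx.1 hx.2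
  obtain ⟨ζ, hζ1, hζ⟩ := h.exists_glue (T := T) hq hnm
  have h3 := h.pow n
  have h4 := h.glue_nsmul hq hnm hζ n
  have h5 : n • (E : Divisor K F) = ((n • E : Divisor.degZero (K := K) (F := F)) : Divisor K F) :=
    rfl
  have h6 : AlgebraicCurve.Divisor.IsPrincipal (n • (E : Divisor K F)) := by
    rw [h5, ← mk_eq_zero_iff]
    exact hx0
  obtain ⟨c, hc, hcs⟩ := h4.const hnm h3 h6
  rcases T.Nd.eq_empty_or_nonempty with h0 | ⟨s₀, hs₀⟩
  · have h7 := mk_eq_of_glue hq arch (natCast_mul_ne_zero hnk hmk)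
      (E := 0) (Tor.one (D := D) (n * m)) h (NodeSet.isGlue_zero (T := T) hq) hζ (by
        intro s hs
        rw [h0] at hs
        exact absurd hs (Finset.notMem_empty s))
    rw [h7]
    exact (Tor.one (D := D) n).mem_TT (E := 0)
  · have hd0 : ζ s₀ ≠ 0 := by
      intro h0
      have := hζ1 s₀
      rw [h0, zero_pow hnm.ne'] at this
      exact zero_ne_one this
    obtain ⟨E', φ', h', hE'⟩ := exists_tor_of_glue hq arch T hnK hnk
      (fun s => (ζ s₀)⁻¹ * ζ s) (fun s hs => by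
        change ((ζ s₀)⁻¹ * ζ s) ^ n = 1
        rw [mul_pow, inv_pow]
        have e1 := hcs s hs
        have e2 := hcs s₀ hs₀
        rw [e1, e2, inv_mul_cancel₀]
        rw [← e2]
        exact pow_ne_zero n hd0)
    obtain ⟨E'', φ'', k1, k2, k3⟩ := NodeSet.IsGlue.twist hq hnm (h'.mul_right m) hE' (hζ1 s₀)
    have h7 := mk_eq_of_glue hq arch (natCast_mul_ne_zero hnk hmk) h k1 hζ k3 (by
      intro s _
      change ζ s₀ * ((ζ s₀)⁻¹ * ζ s) = ζ s
      rw [← mul_assoc, mul_inv_cancel₀ hd0, one_mul])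
    rw [← h7, k2]
    exact h'.mem_TT

/-- The tori of different levels are compatible. -/
theorem TT_subset_mul (hq : 0 < q) (arch : D.Arch) {n m : ℕ} (hn : 0 < n) :
    D.TT n ⊆ D.TT (n * m) := by
  intro x hx
  obtain ⟨E, φ, rfl, h⟩ := exists_tor (D := D) hq arch hn hx.1 hx.2
  exact (h.mul_right m).mem_TT

end Data

end Fermat.Agent.TwoComp
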