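import Fermat.Agent.TwoComp.Inj
import Fermat.Prelude.Def_AlgebraicCurve_BaseChangeGalois

/-!
# Galois action on torsion classes split at both components
-/

set_option autoImplicit false
set_option linter.unusedSectionVars false

open AlgebraicCurve WithZero Module Polynomial
open scoped IntermediateField
open Fermat.Agent.RR Fermat.Agent.Deuring Fermat.Agent.FF

namespace Fermat.Agent.TwoComp

namespace Data

variable {K Fm F k F' : Type*} [Field K] [Field Fm] [Algebra K Fm] [Field F]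
    [Algebra K F] [Field k] [Field F'] [Algebra k F'] {q : ℕ} (D : Data K Fm F k F' q)

/-- The semilinear automorphism `g` acts on both reductions through `θ`. -/
structure Act (g : SemilinearAut K F) (θ : F' → F') : Prop where
  mem₁ : ∀ f ∈ D.O₁, g • f ∈ D.O₁
  mem₂ : ∀ f ∈ D.O₂, g • f ∈ D.O₂
  ρ₁ : ∀ (f : F) (hf : f ∈ D.O₁), D.ρ₁ ⟨g • f, mem₁ f hf⟩ = θ (D.ρ₁ ⟨f, hf⟩)
  ρ₂ : ∀ (f : F) (hf : f ∈ D.O₂), D.ρ₂ ⟨g • f, mem₂ f hf⟩ = θ (D.ρ₂ ⟨f, hf⟩)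
  smul_α : g • D.α D.j = D.α D.j
  smul_β : g • D.β D.j = D.β D.j

variable {D}

namespace Act

variable {g : SemilinearAut K F} {θ : F' → F'}

theorem comp {g' : SemilinearAut K F} {θ' : F' → F'} (h : D.Act g θ) (h' : D.Act g' θ') :
    D.Act (g * g') (θ ∘ θ') where
  mem₁ f hf := by rw [mul_smul]; exact h.mem₁ _ (h'.mem₁ _ hf)
  mem₂ f hf := by rw [mul_smul]; exact h.mem₂ _ (h'.mem₂ _ hf)
  ρ₁ f hf := by
    rw [Function.comp_apply, ← h'.ρ₁ f hf, ← h.ρ₁ _ (h'.mem₁ f hf)]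
    rfl
  ρ₂ f hf := by
    rw [Function.comp_apply, ← h'.ρ₂ f hf, ← h.ρ₂ _ (h'.mem₂ f hf)]
    rfl
  smul_α := by rw [mul_smul, h'.smul_α, h.smul_α]
  smul_β := by rw [mul_smul, h'.smul_β, h.smul_β]

theorem map_one (h : D.Act g θ) : θ 1 = 1 := by
  have h1 := h.ρ₁ 1 D.O₁.one_mem
  have h2 : (⟨g • (1 : F), h.mem₁ 1 D.O₁.one_mem⟩ : D.O₁) = 1 := Subtype.ext (smul_one g)
  have h3 : (⟨(1 : F), D.O₁.one_mem⟩ : D.O₁) = 1 := rfl
  rw [h2, h3, _root_.map_one] at h1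
  exact h1.symm

/-- The action on `O`. -/
def app (h : D.Act g θ) (f : D.R.O) : D.R.O := ⟨g • (f : F), h.mem₁ _ f.2.1, h.mem₂ _ f.2.2⟩

theorem ρ_app (h : D.Act g θ) (f : D.R.O) : D.R.ρ (h.app f) = (θ (D.R.ρ f).1, θ (D.R.ρ f).2) :=
  Prod.ext (h.ρ₁ f f.2.1) (h.ρ₂ f f.2.2)

variable [IsFF K F]

theorem smul_E₀ (h : D.Act g θ) : g • D.E₀ = D.E₀ := by
  ext w
  obtain ⟨v, rfl⟩ : ∃ v : Place K F, w = g • v := ⟨g⁻¹ • w, (smul_inv_smul g w).symm⟩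
  rw [SemilinearAut.divisor_smul_apply_smul, E₀_apply, E₀_apply]
  conv_rhs => rw [← h.smul_α, ← h.smul_β]
  rw [SemilinearAut.ord_smul, SemilinearAut.ord_smul]

end Act

theorem smul_mem_L [IsFF K F] (g : SemilinearAut K F) {E : Divisor K F} {f : F}
    (hf : f ∈ riemannRochSpace E) : g • f ∈ riemannRochSpace (g • E) := by
  rcases eq_or_ne f 0 with rfl | hf0
  · rw [smul_zero]; exact Submodule.zero_mem _
  rw [mem_L_iff hf0] at hf
  rw [mem_L_iff (by simpa using hf0)]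
  intro w
  obtain ⟨v, rfl⟩ : ∃ v : Place K F, w = g • v := ⟨g⁻¹ • w, (smul_inv_smul g w).symm⟩
  rw [SemilinearAut.divisor_smul_apply_smul, SemilinearAut.ord_smul]
  exact hf v

namespace Act

variable {g : SemilinearAut K F} {θ : F' → F'} [IsFF K F]

theorem mem_M (h : D.Act g θ) {E : Divisor K F} {N : ℕ} {w : F' × F'} (hw : w ∈ D.M E N) :
    (θ w.1, θ w.2) ∈ D.M (g • E) N := by
  obtain ⟨f, hf, rfl⟩ := hw
  refine ⟨h.app f, ?_, h.ρ_app f⟩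
  have h1 := smul_mem_L g hf
  rw [smul_sub, smul_comm, h.smul_E₀] at h1
  exact h1

theorem tor (h : D.Act g θ) {n : ℕ} {E : Divisor K F} {φ : D.R.O} (hφ : D.Tor n E φ) :
    D.Tor n (g • E) (h.app φ) where
  deg := by rw [SemilinearAut.degree_smul, hφ.deg]
  ρ_eq := by
    rw [h.ρ_app, hφ.ρ_eq]
    exact Prod.ext h.map_one h.map_one
  ord w := by
    obtain ⟨v, rfl⟩ : ∃ v : Place K F, w = g • v := ⟨g⁻¹ • w, (smul_inv_smul g w).symm⟩
    change (g • v).ord (g • (φ : F)) = _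
    rw [SemilinearAut.divisor_smul_apply_smul, SemilinearAut.ord_smul, hφ.ord]

end Act

variable [IsFF K F] [IsFF k F'] [IsFF K Fm] [IsAlgClosed k]

theorem Tor.exists_glue {T : D.NodeSet} (hq : 2 ≤ q) {n : ℕ} (hn : 0 < n) {E : Divisor K F}
    {φ : D.R.O} (h : D.Tor n E φ) :
    ∃ ζ : (D.Rb →ₐ[k] k) → k, (∀ s, ζ s ^ n = 1) ∧ T.IsGlue E ζ := by
  obtain ⟨N₃, h₃⟩ := T.exists_isGlue hq
  obtain ⟨ζ, hζ, hN⟩ := h₃ n hn E φ h
  exact ⟨ζ, hζ, N₃, hN⟩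

theorem NodeSet.glue_neg {T : D.NodeSet} (hq : 2 ≤ q) {E : Divisor K F}
    {ζ ζ' : (D.Rb →ₐ[k] k) → k} (hζ : T.IsGlue E ζ) (hζ' : T.IsGlue (-E) ζ') :
    ∀ s ∈ T.Nd, ζ s * ζ' s = 1 := by
  intro s hs
  have h1 := hζ.mul hζ' (ζ'' := fun _ => 1) (by rw [add_neg_cancel]; exact NodeSet.isGlue_zero hq)
  exact (h1 s hs).symm

/-- Classes with the same gluing data are equal. -/
theorem isPrincipal_sub {T : D.NodeSet} (hq : 2 ≤ q) (arch : D.Arch) {n : ℕ}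
    (hn : (n : k) ≠ 0) {E E' : Divisor K F} {φ φ' : D.R.O} (h : D.Tor n E φ) (h' : D.Tor n E' φ')
    {ζ ζ' : (D.Rb →ₐ[k] k) → k} (hζ : T.IsGlue E ζ) (hζ' : T.IsGlue E' ζ')
    (heq : ∀ s ∈ T.Nd, ζ' s = ζ s) : AlgebraicCurve.Divisor.IsPrincipal (E' - E) := by
  have hn0 : 0 < n := Nat.pos_of_ne_zero (by rintro rfl; simp at hn)
  obtain ⟨ζm, -, hm⟩ := h.inv.exists_glue (T := T) hq hn0
  obtain ⟨ζd, -, hd⟩ := (h'.mul h.inv).exists_glue (T := T) hq hn0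
  have h1 := NodeSet.glue_neg hq hζ hm
  have h2 := hζ'.mul hm hd
  rw [sub_eq_add_neg]
  refine hd.isPrincipal hq arch hn (h'.mul h.inv) fun s hs => ?_
  rw [h2 s hs, heq s hs, h1 s hs]

theorem Tor.glue_nsmul {T : D.NodeSet} (hq : 2 ≤ q) {n : ℕ} (hn : 0 < n) {E : Divisor K F}
    {φ : D.R.O} (h : D.Tor n E φ) {ζ : (D.Rb →ₐ[k] k) → k} (hζ : T.IsGlue E ζ) (m : ℕ) :
    T.IsGlue (m • E) (fun s => ζ s ^ m) := by
  induction m with
  | zero => simpa using NodeSet.isGlue_zero (T := T) hq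
  | succ m ih =>
    obtain ⟨ζ', -, h'⟩ := (h.pow (m + 1)).exists_glue (T := T) hq hn
    refine h'.congr fun s hs => ?_
    have h2 := ih.mul hζ (ζ'' := ζ') (by rw [← succ_nsmul]; exact h')
    rw [h2 s hs, pow_succ]

/-- **Inertia acts trivially.** -/
theorem Act.isPrincipal_smul_sub {g : SemilinearAut K F} (hg : D.Act g id) (hq : 2 ≤ q)
    (arch : D.Arch) {n : ℕ} (hn : (n : k) ≠ 0) {E : Divisor K F} {φ : D.R.O}
    (h : D.Tor n E φ) : AlgebraicCurve.Divisor.IsPrincipal (g • E - E) := by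
  have hn0 : 0 < n := Nat.pos_of_ne_zero (by rintro rfl; simp at hn)
  obtain ⟨T⟩ := D.nonempty_nodeSet hq
  obtain ⟨ζ, -, hζ⟩ := h.exists_glue (T := T) hq hn0
  obtain ⟨ζ', -, hζ'⟩ := (hg.tor h).exists_glue (T := T) hq hn0
  refine isPrincipal_sub hq arch hn h (hg.tor h) hζ hζ' fun s hs => ?_
  obtain ⟨r, N₁, hr, hrN⟩ := hζ.exists_wit
  obtain ⟨N₂, h₂⟩ := hζ'
  have h1 := hg.mem_M (hrN (max N₁ N₂) (le_max_left _ _))
  rw [h₂ _ (le_max_right _ _)] at h1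
  rw [← hr s hs]
  exact (T.eq_of_mem h1 s hs).symm

theorem V_V_σ_σ (f : F') : D.V (D.V (D.σ (D.σ f))) = f ^ (q ^ 2) := by
  rw [D.V_σ, map_pow, D.V_σ, ← pow_mul, sq]

/-- The square of Frobenius at the nodes. -/
theorem NodeSet.eval_σ_σ (T : D.NodeSet) {r r' : D.Rb} (h : (r' : F') = D.σ (D.σ r))
    {s : D.Rb →ₐ[k] k} (hs : s ∈ T.Nd) : s r' = s r ^ (q ^ 2) := by
  have h1 : s (D.Vb (D.Vb r')) = s r' := DFunLike.congr_fun (T.comp_VV s hs) r'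
  have h2 : D.Vb (D.Vb r') = r ^ (q ^ 2) := by
    apply Subtype.ext
    rw [coe_Vb, coe_Vb, h, V_V_σ_σ]
    rfl
  rw [← h1, h2, map_pow]

/-- **The square of Frobenius acts as multiplication by `q²`.** -/
theorem Act.isPrincipal_smul_sub_sq {g : SemilinearAut K F} (hg : D.Act g (D.σ ∘ D.σ))
    (hq : 2 ≤ q) (arch : D.Arch) {n : ℕ} (hn : (n : k) ≠ 0) {E : Divisor K F} {φ : D.R.O}
    (h : D.Tor n E φ) : AlgebraicCurve.Divisor.IsPrincipal (g • E - (q ^ 2) • E) := by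
  have hn0 : 0 < n := Nat.pos_of_ne_zero (by rintro rfl; simp at hn)
  obtain ⟨T⟩ := D.nonempty_nodeSet hq
  obtain ⟨ζ, -, hζ⟩ := h.exists_glue (T := T) hq hn0
  obtain ⟨ζ', -, hζ'⟩ := (hg.tor h).exists_glue (T := T) hq hn0
  refine isPrincipal_sub hq arch hn (h.pow _) (hg.tor h) (h.glue_nsmul hq hn0 hζ _) hζ'
    fun s hs => ?_
  obtain ⟨r, N₁, hr, hrN⟩ := hζ.exists_wit
  obtain ⟨N₂, h₂⟩ := hζ'
  have h1 := hg.mem_M (hrN (max N₁ N₂) (le_max_left _ _))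
  rw [h₂ _ (le_max_right _ _)] at h1
  obtain ⟨h1U, a, b, hab, h1e⟩ := h1
  have ha : (a : F') = D.σ (D.σ r) := congrArg Prod.fst hab
  have hb : b = 1 := by
    apply Subtype.ext
    have := congrArg Prod.snd hab
    change (b : F') = D.σ (D.σ 1) at this
    rw [_root_.map_one, _root_.map_one] at this
    exact this
  have h2 := h1e s hs
  rw [hb, _root_.map_one, _root_.map_one, mul_one, T.eval_σ_σ ha hs, hr s hs] at h2
  exact h2.symm

end Data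

end Fermat.Agent.TwoComp
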