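import Fermat.Agent.TwoComp.Lp

/-!
# The affine coordinate ring: integral closure of `K[y]`, in any characteristic
-/

set_option autoImplicit false

open AlgebraicCurve WithZero Module Polynomial
open scoped IntermediateField
open Fermat.Agent.FF Fermat.Agent.Deuring

namespace Fermat.Agent.TwoComp

variable {K F : Type*} [Field K] [Field F] [Algebra K F] [IsFF K F] {y : F}

theorem mem_of_mem_Lp {n : ℤ} {f : F} (hf : f ∈ Lp (K := K) y n) :
    f ∈ integralClosure (Algebra.adjoin K {y}) F := by
  change IsIntegral _ f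
  rw [isIntegral_adjoin_iff]
  intro w hw
  rcases eq_or_ne y 0 with rfl | hy0
  · exact ord_nonneg_of_mem_Lp hf w (by simp)
  · exact ord_nonneg_of_mem_Lp hf w ((mem_iff_ord_nonneg w hy0).mp hw)

theorem exists_mem_Lp (hy0 : y ≠ 0) {f : F} (hf : f ∈ integralClosure (Algebra.adjoin K {y}) F) :
    ∃ n : ℕ, f ∈ Lp (K := K) y n := by
  rcases eq_or_ne f 0 with rfl | hf0
  · exact ⟨0, Submodule.zero_mem _⟩
  have hfin := finite_ord_ne_zero (K := K) f
  obtain ⟨n, hn⟩ : ∃ n : ℕ, ∀ v : Place K F, (v.ord f).natAbs ≤ n := by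
    refine ⟨∑ v ∈ hfin.toFinset, (v.ord f).natAbs, fun v => ?_⟩
    by_cases h0 : v.ord f = 0
    · rw [h0]; exact Nat.zero_le _
    · exact Finset.single_le_sum (f := fun v : Place K F => (v.ord f).natAbs)
        (fun _ _ => Nat.zero_le _) (hfin.mem_toFinset.mpr h0)
  refine ⟨n, ?_⟩
  rw [mem_Lp' hf0]
  intro v
  change IsIntegral _ f at hf
  rw [isIntegral_adjoin_iff] at hf
  have hn0 : (0 : ℤ) ≤ n := Int.natCast_nonneg n
  rcases le_or_gt 0 (v.ord y) with hv | hv
  · have h1 := hf v ((mem_iff_ord_nonneg v hy0).mpr hv)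
    rw [mem_iff_ord_nonneg v hf0] at h1
    rw [max_eq_right (by omega)]
    omega
  · rw [max_eq_left (by omega)]
    have h2 : -v.ord f ≤ n := by have := hn v; omega
    have h4 : (n : ℤ) * 1 ≤ n * -v.ord y := mul_le_mul_of_nonneg_left (by omega) hn0
    linarith

/-- Finiteness over `K[y]`. -/
theorem finite_Aff (hy : Transcendental K y) :
    Module.Finite (Algebra.adjoin K {y}) (integralClosure (Algebra.adjoin K {y}) F) := by
  classical
  have hy0 : y ≠ 0 := by rintro rfl; exact hy isAlgebraic_zero
  obtain ⟨c, hc⟩ := exists_leading (K := K) hy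
  let b := Module.finBasis K (Lp (K := K) y c)
  let g : Fin _ → integralClosure (Algebra.adjoin K {y}) F := fun i => ⟨b i, mem_of_mem_Lp (b i).2⟩
  refine ⟨⟨Finset.univ.image g, ?_⟩⟩
  rw [Finset.coe_image, Finset.coe_univ, Set.image_univ, eq_top_iff]
  have hbase : ∀ x : integralClosure (Algebra.adjoin K {y}) F, (x : F) ∈ Lp (K := K) y c →
      x ∈ Submodule.span (Algebra.adjoin K {y}) (Set.range g) := by
    intro x hx
    have h1 : x = ∑ i, algebraMap K (Algebra.adjoin K {y}) (b.repr ⟨x, hx⟩ i) • g i := by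
      apply Subtype.ext
      rw [AddSubmonoidClass.coe_finsetSum]
      have h2 : (x : F) = ((∑ i, b.repr ⟨x, hx⟩ i • b i : Lp (K := K) y c) : F) := by
        rw [b.sum_repr]
      refine h2.trans ?_
      rw [Submodule.coe_sum]
      refine Finset.sum_congr rfl fun i _ => ?_
      change b.repr ⟨x, hx⟩ i • ((b i : Lp (K := K) y c) : F) =
        ((algebraMap K (Algebra.adjoin K {y}) (b.repr ⟨x, hx⟩ i) : Algebra.adjoin K {y}) : F) *
          ((b i : Lp (K := K) y c) : F)
      rw [Algebra.smul_def]
      rfl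
    rw [h1]
    exact Submodule.sum_mem _ fun i _ => Submodule.smul_mem _ _ (Submodule.subset_span ⟨i, rfl⟩)
  have hstep : ∀ m : ℕ, ∀ x : integralClosure (Algebra.adjoin K {y}) F,
      (x : F) ∈ Lp (K := K) y (c + m : ℕ) →
      x ∈ Submodule.span (Algebra.adjoin K {y}) (Set.range g) := by
    intro m
    induction m with
    | zero => intro x hx; exact hbase x (by simpa using hx)
    | succ m ih =>
      intro x hx
      obtain ⟨b', hb', a', ha', he⟩ := hc c (m + 1) le_rfl x hx
      have ha'' : a' ∈ Lp (K := K) y (c + m : ℕ) := by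
        convert ha' using 2
        push_cast; ring
      let y' : Algebra.adjoin K {y} := ⟨y, Algebra.self_mem_adjoin_singleton K y⟩
      have h1 : x = y' ^ (m + 1) • (⟨b', mem_of_mem_Lp hb'⟩ :
          integralClosure (Algebra.adjoin K {y}) F) + ⟨a', mem_of_mem_Lp ha''⟩ := by
        apply Subtype.ext
        rw [he]
        rfl
      rw [h1]
      exact Submodule.add_mem _ (Submodule.smul_mem _ _ (hbase _ hb')) (ih _ ha'')
  intro x _
  obtain ⟨n, hn⟩ := exists_mem_Lp hy0 x.2
  exact hstep n x (Lp_mono (by push_cast; omega) hn)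

open IntermediateField.algebraAdjoinAdjoin in
theorem isDedekindDomain_Aff (hy : Transcendental K y) :
    IsDedekindDomain (integralClosure (Algebra.adjoin K {y}) F) := by
  have hpid : IsPrincipalIdealRing (Algebra.adjoin K {y}) :=
    IsPrincipalIdealRing.of_surjective
      (Polynomial.algEquivOfTranscendental K _ hy : K[X] →+* _)
      (Polynomial.algEquivOfTranscendental K _ hy).surjective
  have hfin := finite_Aff hy
  have hfd := IsFF.finite_adjoin y hy
  have h1 : IsNoetherianRing (integralClosure (Algebra.adjoin K {y}) F) :=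
    IsNoetherianRing.of_finite (Algebra.adjoin K {y}) _
  have h2 : Ring.DimensionLEOne (integralClosure (Algebra.adjoin K {y}) F) := inferInstance
  have h3 : IsIntegrallyClosed (integralClosure (Algebra.adjoin K {y}) F) :=
    integralClosure.isIntegrallyClosedOfFiniteExtension K⟮y⟯
  exact { toIsDomain := inferInstance, toIsDedekindRing := { h1, h2, h3 with } }

theorem finiteType_Aff (hy : Transcendental K y) :
    Algebra.FiniteType K (integralClosure (Algebra.adjoin K {y}) F) := by
  have := finite_Aff hy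
  have h1 : Algebra.FiniteType K (Algebra.adjoin K {y}) :=
    (Subalgebra.fg_iff_finiteType _).mp ⟨{y}, by simp⟩
  exact Algebra.FiniteType.trans h1 inferInstance

end Fermat.Agent.TwoComp
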