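import Mathlib.RingTheory.DedekindDomain.Factorization
import Mathlib.RingTheory.Ideal.Quotient.Operations

/-!
# Structure of the glued ring: nodes for free
-/

set_option autoImplicit false

open IsDedekindDomain

namespace Fermat.Agent.TwoComp

section Nodes

variable {k R : Type*} [Field k] [CommRing R] [Algebra k R]

/-- The point attached to a maximal ideal with residue field `k`. -/
noncomputable def pointOf (hres : ∀ P : Ideal R, P.IsMaximal → Function.Surjective (algebraMap k (R ⧸ P)))
    (P : Ideal R) [hP : P.IsMaximal] : R →ₐ[k] k :=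
  (AlgEquiv.ofBijective (Algebra.ofId k (R ⧸ P))
    ⟨(algebraMap k (R ⧸ P)).injective, hres P hP⟩).symm.toAlgHom.comp (Ideal.Quotient.mkₐ k P)

theorem ker_pointOf (hres : ∀ P : Ideal R, P.IsMaximal → Function.Surjective (algebraMap k (R ⧸ P)))
    (P : Ideal R) [hP : P.IsMaximal] : RingHom.ker (pointOf hres P) = P := by
  ext r
  rw [RingHom.mem_ker, pointOf]
  simp [Ideal.Quotient.eq_zero_iff_mem]

theorem eq_pointOf (hres : ∀ P : Ideal R, P.IsMaximal → Function.Surjective (algebraMap k (R ⧸ P)))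
    (s : R →ₐ[k] k) (P : Ideal R) [hP : P.IsMaximal] (h : RingHom.ker s = P) :
    s = pointOf hres P := by
  ext r
  have h1 : r - algebraMap k R (s r) ∈ RingHom.ker s := by
    rw [RingHom.mem_ker, map_sub, AlgHom.commutes]
    simp
  rw [h, ← ker_pointOf hres P, RingHom.mem_ker, map_sub, AlgHom.commutes, sub_eq_zero] at h1
  exact h1.symm

variable [IsDedekindDomain R]

/-- In a Dedekind domain a nonzero ideal not contained in any square of a maximal ideal is
radical. -/
theorem mem_of_forall_mem {I : Ideal R} (hI : I ≠ ⊥)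
    (hsq : ∀ v : HeightOneSpectrum R, ¬ I ≤ v.asIdeal ^ 2) {r : R}
    (hr : ∀ v : HeightOneSpectrum R, I ≤ v.asIdeal → r ∈ v.asIdeal) : r ∈ I := by
  rw [← Ideal.iInf_maxPowDividing_eq hI, Ideal.mem_iInf]
  intro v
  have hle : I ≤ v.maxPowDividing I := by
    conv_lhs => rw [← Ideal.iInf_maxPowDividing_eq hI]
    exact iInf_le _ v
  unfold HeightOneSpectrum.maxPowDividing at hle ⊢
  set c := (Associates.mk v.asIdeal).count (Associates.mk I).factors
  rcases Nat.lt_or_ge c 2 with hc | hc
  · interval_cases c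
    · rw [pow_zero, Ideal.one_eq_top]; trivial
    · rw [pow_one] at hle ⊢
      exact hr v hle
  · exact absurd (hle.trans (Ideal.pow_le_pow_right hc)) (hsq v)

/-- Nodes for free. -/
theorem exists_nodes
    (hres : ∀ P : Ideal R, P.IsMaximal → Function.Surjective (algebraMap k (R ⧸ P)))
    (V : R →ₐ[k] R) {q : ℕ} (hq : 2 ≤ q) (hV : ∀ r, ∃ g, V r = g ^ q)
    (hV2 : ∃ r, V (V r) ≠ r) (S : Subalgebra k (R × R)) (h1 : ∀ r, (r, V r) ∈ S)
    (h2 : ∀ r, (V r, r) ∈ S) :
    ∃ Nd : Finset (R →ₐ[k] k), (∀ s ∈ Nd, s.comp (V.comp V) = s) ∧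
      (∀ a b : R, (a, b) ∈ S ↔ ∀ s ∈ Nd, s a = s (V b)) ∧
      (∀ c : (R →ₐ[k] k) → k, ∃ r : R, ∀ s ∈ Nd, s r = c s) := by
  classical
  set I : Ideal R := Ideal.span (Set.range fun r => r - V (V r)) with hI
  have hI0 : I ≠ ⊥ := by
    obtain ⟨r, hr⟩ := hV2
    intro h
    have : r - V (V r) ∈ I := Ideal.subset_span ⟨r, rfl⟩
    rw [h, Ideal.mem_bot, sub_eq_zero] at this
    exact hr this.symm
  -- `I × 0 ⊆ S`
  have hIS : ∀ a ∈ I, (a, (0 : R)) ∈ S := by
    intro a ha
    induction ha using Submodule.span_induction with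
    | mem a ha =>
      obtain ⟨r, rfl⟩ := ha
      have := S.sub_mem (h1 r) (h2 (V r))
      simpa using this
    | zero => exact S.zero_mem
    | add a b _ _ ha hb => simpa using S.add_mem ha hb
    | smul c a _ ha => simpa using S.mul_mem (h1 c) ha
  -- `I` is not contained in a square
  have hsq : ∀ v : HeightOneSpectrum R, ¬ I ≤ v.asIdeal ^ 2 := by
    intro v hle
    have hne : v.asIdeal ^ 2 ≠ v.asIdeal := by
      intro h
      have h3 := Ideal.pow_right_strictAnti v.asIdeal v.ne_bot v.isPrime.ne_top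
      have h4 := h3 (show 1 < 2 by norm_num)
      simp only [pow_one] at h4
      exact h4.ne h
    have hlt : ∃ t ∈ v.asIdeal, t ∉ v.asIdeal ^ 2 := by
      by_contra hcon
      push Not at hcon
      exact hne (le_antisymm (Ideal.pow_le_self two_ne_zero) hcon)
    obtain ⟨t, ht, ht2⟩ := hlt
    have h3 : t - V (V t) ∈ v.asIdeal ^ 2 := hle (Ideal.subset_span ⟨t, rfl⟩)
    have h4 : V (V t) ∈ v.asIdeal := by
      have h5 := v.asIdeal.sub_mem ht (Ideal.pow_le_self two_ne_zero h3)
      simpa using h5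
    obtain ⟨g, hg⟩ := hV (V t)
    have h6 : g ∈ v.asIdeal := v.isPrime.mem_of_pow_mem q (hg ▸ h4)
    have h7 : V (V t) ∈ v.asIdeal ^ 2 := by
      rw [hg]
      exact Ideal.pow_le_pow_right hq (Ideal.pow_mem_pow h6 q)
    apply ht2
    have := (v.asIdeal ^ 2).add_mem h3 h7
    simpa using this
  -- the finite set of points in `V(I)`
  have hfin := Ideal.finite_factors hI0
  let T : Finset (HeightOneSpectrum R) := hfin.toFinset
  have hT : ∀ v, v ∈ T ↔ I ≤ v.asIdeal := fun v => by
    simp [T, Ideal.dvd_iff_le]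
  have hmax : ∀ v : HeightOneSpectrum R, v.asIdeal.IsMaximal := fun v => v.isMaximal
  let pt : HeightOneSpectrum R → (R →ₐ[k] k) := fun v =>
    haveI := hmax v
    pointOf hres v.asIdeal
  have hpt : ∀ v, RingHom.ker (pt v) = v.asIdeal := fun v =>
    haveI := hmax v
    ker_pointOf hres v.asIdeal
  have hptV : ∀ v ∈ T, (pt v).comp (V.comp V) = pt v := by
    intro v hv
    ext r
    have h3 : r - V (V r) ∈ RingHom.ker (pt v) := by
      rw [hpt]
      exact (hT v).mp hv (Ideal.subset_span ⟨r, rfl⟩)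
    rw [RingHom.mem_ker, map_sub, sub_eq_zero] at h3
    exact h3.symm
  have hptinj : Function.Injective pt := by
    intro v w h
    ext1
    rw [← hpt v, ← hpt w, h]
  -- Chinese remainder theorem
  have hcrt : ∀ c : HeightOneSpectrum R → k, ∃ r : R, ∀ v ∈ T, pt v r = c v := by
    intro c
    have hcop : Pairwise (Function.onFun IsCoprime fun v : T => (v : HeightOneSpectrum R).asIdeal) := by
      intro v w hvw
      have hne : (v : HeightOneSpectrum R).asIdeal ≠ (w : HeightOneSpectrum R).asIdeal :=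
        fun h => hvw (Subtype.ext (HeightOneSpectrum.ext h))
      exact Ideal.isCoprime_iff_sup_eq.mpr
        (Ideal.IsMaximal.coprime_of_ne (hmax v) (hmax w) hne)
    obtain ⟨r, hr⟩ := Ideal.exists_forall_sub_mem_ideal hcop
      (fun v => algebraMap k R (c v))
    refine ⟨r, fun v hv => ?_⟩
    have h3 := hr ⟨v, hv⟩
    simp only at h3
    rw [← hpt v, RingHom.mem_ker, map_sub, AlgHom.commutes, sub_eq_zero] at h3
    exact h3
  let N : Finset (HeightOneSpectrum R) :=
    T.filter fun v => ∀ a b : R, (a, b) ∈ S → pt v a = pt v (V b)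
  -- idempotents outside `N`
  have hidem : ∀ v ∈ T, v ∉ N → ∃ e : R, (e, (0 : R)) ∈ S ∧ pt v e = 1 ∧
      ∀ w ∈ T, w ≠ v → pt w e = 0 := by
    intro v hv hvN
    have h3 : ∃ a b : R, (a, b) ∈ S ∧ pt v a ≠ pt v (V b) := by
      by_contra hcon
      push Not at hcon
      exact hvN (Finset.mem_filter.mpr ⟨hv, hcon⟩)
    obtain ⟨a, b, hab, hne⟩ := h3
    have h4 : (a - V b, (0 : R)) ∈ S := by
      have := S.sub_mem hab (h2 b)
      simpa using this
    have hne' : pt v (a - V b) ≠ 0 := by
      rw [map_sub]; exact sub_ne_zero.mpr hne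
    obtain ⟨r, hr⟩ := hcrt fun w => if w = v then (pt v (a - V b))⁻¹ else 0
    refine ⟨r * (a - V b), ?_, ?_, ?_⟩
    · simpa using S.mul_mem (h1 r) h4
    · rw [map_mul, hr v hv, if_pos rfl, inv_mul_cancel₀ hne']
    · intro w hw hwv
      rw [map_mul, hr w hw, if_neg hwv, zero_mul]
  refine ⟨N.image pt, ?_, ?_, ?_⟩
  · intro s hs
    obtain ⟨v, hv, rfl⟩ := Finset.mem_image.mp hs
    exact hptV v (Finset.mem_filter.mp hv).1
  · intro a b
    constructor
    · intro hab s hs
      obtain ⟨v, hv, rfl⟩ := Finset.mem_image.mp hs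
      exact (Finset.mem_filter.mp hv).2 a b hab
    · intro h
      have h3 : ∀ v ∈ N, pt v (a - V b) = 0 := by
        intro v hv
        rw [map_sub, sub_eq_zero]
        exact h _ (Finset.mem_image_of_mem _ hv)
      choose! e heS he1 he0 using hidem
      have h4 : a - V b - ∑ v ∈ T \ N, algebraMap k R (pt v (a - V b)) * e v ∈ I := by
        apply mem_of_forall_mem hI0 hsq
        intro w hw
        have hwT : w ∈ T := (hT w).mpr hw
        rw [← hpt w, RingHom.mem_ker, map_sub (pt w), map_sum]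
        simp only [map_mul, AlgHom.commutes]
        by_cases hwN : w ∈ N
        · rw [h3 w hwN, Finset.sum_eq_zero, sub_zero]
          intro v hv
          rw [Finset.mem_sdiff] at hv
          have hne : w ≠ v := by rintro rfl; exact hv.2 hwN
          rw [he0 v hv.1 hv.2 w hwT hne, mul_zero]
        · rw [Finset.sum_eq_single w, he1 w hwT hwN, mul_one]
          · simp
          · intro v hv hvw
            rw [Finset.mem_sdiff] at hv
            rw [he0 v hv.1 hv.2 w hwT hvw.symm, mul_zero]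
          · intro hcon
            exact absurd (Finset.mem_sdiff.mpr ⟨hwT, hwN⟩) hcon
      have h5 : (∑ v ∈ T \ N, algebraMap k R (pt v (a - V b)) * e v, (0 : R)) ∈ S := by
        have h6 : (∑ v ∈ T \ N, algebraMap k R (pt v (a - V b)) * e v, (0 : R)) =
            ∑ v ∈ T \ N, (pt v (a - V b)) • (e v, (0 : R)) := by
          refine Prod.ext ?_ ?_
          · simp [Prod.fst_sum, Algebra.smul_def]
          · simp [Prod.snd_sum]
        rw [h6]
        refine S.sum_mem fun v hv => ?_
        rw [Finset.mem_sdiff] at hv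
        exact S.smul_mem (heS v hv.1 hv.2) _
      have h7 := S.add_mem (S.add_mem (hIS _ h4) h5) (h2 b)
      simpa using h7
  · intro c
    obtain ⟨r, hr⟩ := hcrt fun v => c (pt v)
    refine ⟨r, fun s hs => ?_⟩
    obtain ⟨v, hv, rfl⟩ := Finset.mem_image.mp hs
    exact hr v (Finset.mem_filter.mp hv).1

end Nodes

end Fermat.Agent.TwoComp
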