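import Fermat.Agent.TwoComp.Count2
import Fermat.Agent.TwoComp.Nodes
import Fermat.Agent.TwoComp.Affine

/-!
# The nodes of the special fibre
-/

set_option autoImplicit false

open AlgebraicCurve WithZero Module Polynomial
open scoped IntermediateField
open Fermat.Agent.RR Fermat.Agent.Deuring Fermat.Agent.FF

namespace Fermat.Agent.TwoComp

namespace Data

variable {K Fm F k F' : Type*} [Field K] [Field Fm] [Algebra K Fm] [Field F]
    [Algebra K F] [Field k] [Field F'] [Algebra k F'] {q : ℕ} (D : Data K Fm F k F' q)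

/-- The affine coordinate ring of the residue curve. -/
abbrev Rb : Type _ := integralClosure (Algebra.adjoin k {D.jb}) F'

theorem V_mem_Rb {r : F'} (hr : r ∈ integralClosure (Algebra.adjoin k {D.jb}) F') :
    D.V r ∈ integralClosure (Algebra.adjoin k {D.jb}) F' := by
  have h1 := isIntegral_map D.V (x := D.jb) (g := r) hr
  rw [V_jb] at h1
  have hle : Algebra.adjoin k {D.jb ^ q} ≤ Algebra.adjoin k {D.jb} :=
    Algebra.adjoin_le (Set.singleton_subset_iff.mpr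
      (Subalgebra.pow_mem _ (Algebra.self_mem_adjoin_singleton k D.jb) q))
  exact IsIntegral.map_of_comp_eq (Subalgebra.inclusion hle).toRingHom (RingHom.id F') rfl h1

/-- `V` on the affine coordinate ring. -/
noncomputable def Vb : D.Rb →ₐ[k] D.Rb where
  toFun r := ⟨D.V r, D.V_mem_Rb r.2⟩
  map_one' := Subtype.ext (map_one D.V)
  map_mul' _ _ := Subtype.ext (map_mul D.V _ _)
  map_zero' := Subtype.ext (map_zero D.V)
  map_add' _ _ := Subtype.ext (map_add D.V _ _)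
  commutes' c := Subtype.ext (D.V.commutes c)

theorem coe_Vb (r : D.Rb) : ((D.Vb r : D.Rb) : F') = D.V r := rfl

theorem Vb_eq_pow (hq : 0 < q) (r : D.Rb) : ∃ g : D.Rb, D.Vb r = g ^ q := by
  have h1 : D.V r = (D.σ.symm r) ^ q := by
    rw [← D.V_σ, RingEquiv.apply_symm_apply]
  have h2 : D.σ.symm (r : F') ∈ integralClosure (Algebra.adjoin k {D.jb}) F' := by
    change IsIntegral _ _
    apply IsIntegral.of_pow hq
    rw [← h1]
    exact D.V_mem_Rb r.2
  exact ⟨⟨_, h2⟩, Subtype.ext h1⟩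

/-- `j` in the affine coordinate ring. -/
noncomputable def jR : D.Rb :=
  ⟨D.jb, isIntegral_algebraMap (x := (⟨D.jb, Algebra.self_mem_adjoin_singleton k D.jb⟩ :
    Algebra.adjoin k {D.jb}))⟩

theorem Vb_Vb_jR (hq : 2 ≤ q) : D.Vb (D.Vb D.jR) ≠ D.jR := by
  intro h
  have h1 : D.V (D.V D.jb) = D.jb := congrArg Subtype.val h
  rw [V_jb, map_pow, V_jb, ← pow_mul] at h1
  apply D.jb_transcendental
  refine ⟨X ^ (q * q) - X, ?_, ?_⟩
  · intro h2
    have h3 := congrArg (fun p => p.coeff 1) h2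
    simp only [coeff_sub, coeff_X_pow, coeff_X_one, coeff_zero] at h3
    rw [if_neg (by nlinarith)] at h3
    simp at h3
  · rw [map_sub, map_pow, aeval_X, h1, sub_self]

variable [IsFF K F]

/-- The glued ring. -/
def S : Subalgebra k (D.Rb × D.Rb) where
  carrier := {w | ∃ N : ℕ, ((w.1 : F'), (w.2 : F')) ∈ D.Λ N}
  mul_mem' := by
    rintro a b ⟨N, hN⟩ ⟨M, hM⟩
    refine ⟨N + M, RedRing.mul_mem_red ?_ hN hM⟩
    intro v hv w hw
    rw [add_smul]
    exact mem_L_mul hv hw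
  add_mem' := by
    rintro a b ⟨N, hN⟩ ⟨M, hM⟩
    exact ⟨max N M, Submodule.add_mem _ (D.Λ_mono (le_max_left _ _) hN)
      (D.Λ_mono (le_max_right _ _) hM)⟩
  algebraMap_mem' := by
    intro c
    obtain ⟨a, rfl⟩ := D.R.res_surj c
    refine ⟨0, D.R.algA a, ?_, D.R.ρ_algA a⟩
    rw [zero_smul]
    exact fun v => v.adicValuation_algebraMap_le_one _

theorem mem_S {w : D.Rb × D.Rb} : w ∈ D.S ↔ ∃ N : ℕ, ((w.1 : F'), (w.2 : F')) ∈ D.Λ N := Iff.rfl

variable [IsFF k F'] [IsFF K Fm]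

omit [IsFF k F'] [IsFF K Fm] in
theorem Lp_le_L (n : ℕ) : Lp (K := K) (D.α D.j) n ≤ riemannRochSpace (n • D.E₀) := by
  apply L_mono
  intro v
  rw [Finsupp.smul_apply, Finsupp.smul_apply, zsmul_eq_mul, nsmul_eq_mul, E₀, Finsupp.add_apply]
  have := poleD_nonneg (K := K) (D.β D.j) v
  have h0 : (0 : ℤ) ≤ n := Int.natCast_nonneg n
  simp only [Int.cast_natCast]
  change (n : ℤ) * _ ≤ n * _
  apply mul_le_mul_of_nonneg_left _ h0
  change 0 ≤ poleD (K := K) (D.β D.j) v at this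
  omega

theorem graph_mem_S (r : D.Rb) : (r, D.Vb r) ∈ D.S := by
  obtain ⟨n, hn⟩ := exists_mem_Lp D.jb_ne_zero r.2
  have hn' : (r : F') ∈ Lp (K := k) D.jb (max D.c₀ n : ℕ) := Lp_mono (by push_cast; omega) hn
  obtain ⟨f, hf, hfL⟩ := D.exists_lift D.j_ne_zero (le_max_left _ _) hn'
  exact ⟨max D.c₀ n, f, D.Lp_le_L _ hfL, hf⟩

theorem graph_mem_S' (r : D.Rb) : (D.Vb r, r) ∈ D.S := by
  obtain ⟨N, hN⟩ := D.swap.graph_mem_S r
  exact ⟨N, D.Λ_swap hN⟩

variable [IsAlgClosed k]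

/-- The nodes of the special fibre. -/
theorem exists_nodes (hq : 2 ≤ q) : ∃ Nd : Finset (D.Rb →ₐ[k] k),
    (∀ s ∈ Nd, s.comp (D.Vb.comp D.Vb) = s) ∧
    (∀ a b : D.Rb, (a, b) ∈ D.S ↔ ∀ s ∈ Nd, s a = s (D.Vb b)) ∧
    (∀ c : (D.Rb →ₐ[k] k) → k, ∃ r : D.Rb, ∀ s ∈ Nd, s r = c s) := by
  have := isDedekindDomain_Aff D.jb_transcendental
  have := finiteType_Aff D.jb_transcendental
  exact TwoComp.exists_nodes (fun P hP => FFFund.surjective_quotient P) D.Vb hq
    (D.Vb_eq_pow (by omega)) ⟨D.jR, D.Vb_Vb_jR hq⟩ D.S D.graph_mem_S D.graph_mem_S'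

end Data

end Fermat.Agent.TwoComp
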