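import Fermat.Agent.TwoComp.Ortho

/-!
# Reduction of subspaces
-/

set_option autoImplicit false

open Module Polynomial
open scoped IntermediateField

namespace Fermat.Agent.TwoComp

namespace RedRing

variable {K F k E : Type*} [Field K] [Field F] [Algebra K F] [Field k] [CommRing E]
  [Algebra k E] (R : RedRing K F k E)

/-- The reduction of a subspace. -/
def red (V : Submodule K F) : Submodule k E where
  carrier := {w | ∃ f : R.O, (f : F) ∈ V ∧ R.ρ f = w}
  zero_mem' := ⟨0, V.zero_mem, map_zero R.ρ⟩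
  add_mem' := by
    rintro _ _ ⟨f, hf, rfl⟩ ⟨g, hg, rfl⟩
    exact ⟨f + g, V.add_mem hf hg, map_add _ _ _⟩
  smul_mem' := by
    rintro c _ ⟨f, hf, rfl⟩
    obtain ⟨a, rfl⟩ := R.res_surj c
    refine ⟨R.algA a * f, ?_, ?_⟩
    · have : ((R.algA a * f : R.O) : F) = (a : K) • (f : F) := (Algebra.smul_def _ _).symm
      rw [this]
      exact V.smul_mem _ hf
    · rw [map_mul, ρ_algA, Algebra.smul_def]

variable {R}

theorem mem_red {V : Submodule K F} {w : E} :
    w ∈ R.red V ↔ ∃ f : R.O, (f : F) ∈ V ∧ R.ρ f = w := Iff.rfl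

theorem ρ_mem_red {V : Submodule K F} {f : R.O} (hf : (f : F) ∈ V) : R.ρ f ∈ R.red V :=
  ⟨f, hf, rfl⟩

theorem red_mono {V W : Submodule K F} (h : V ≤ W) : R.red V ≤ R.red W := by
  rintro _ ⟨f, hf, rfl⟩
  exact ⟨f, h hf, rfl⟩

theorem mul_mem_red {V W U : Submodule K F} (hmul : ∀ v ∈ V, ∀ w ∈ W, v * w ∈ U)
    {x y : E} (hx : x ∈ R.red V) (hy : y ∈ R.red W) : x * y ∈ R.red U := by
  obtain ⟨f, hf, rfl⟩ := hx
  obtain ⟨g, hg, rfl⟩ := hy
  exact ⟨f * g, hmul f hf g hg, map_mul _ _ _⟩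

theorem red_eq_span {V : Submodule K F} {ι : Type*} [Fintype ι] (b : Basis ι K V)
    (hb : ∀ i, ((b i : V) : F) ∈ R.O)
    (hli : LinearIndependent k (fun i => R.ρ ⟨((b i : V) : F), hb i⟩)) :
    R.red V = Submodule.span k (Set.range fun i => R.ρ ⟨((b i : V) : F), hb i⟩) := by
  apply le_antisymm
  · rintro _ ⟨f, hf, rfl⟩
    have h1 : (f : F) = ∑ i, b.repr ⟨f, hf⟩ i • ((b i : V) : F) := by
      conv_lhs => rw [show (f : F) = ((⟨f, hf⟩ : V) : F) from rfl, ← b.sum_repr ⟨f, hf⟩]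
      rw [Submodule.coe_sum]
      rfl
    have hc : ∀ i, b.repr ⟨f, hf⟩ i ∈ R.A := fun i =>
      coord_mem (b := fun i => (⟨((b i : V) : F), hb i⟩ : R.O)) hli (by
        rw [← h1]; exact f.2) i
    have h2 : f = ∑ i, R.algA ⟨_, hc i⟩ * (⟨((b i : V) : F), hb i⟩ : R.O) := by
      apply Subtype.ext
      refine h1.trans ?_
      rw [AddSubmonoidClass.coe_finsetSum]
      exact Finset.sum_congr rfl fun i _ => Algebra.smul_def _ _
    rw [h2, ρ_sum_smul]
    exact Submodule.sum_mem _ fun i _ => Submodule.smul_mem _ _ (Submodule.subset_span ⟨i, rfl⟩)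
  · rw [Submodule.span_le]
    rintro _ ⟨i, rfl⟩
    exact ⟨_, (b i).2, rfl⟩

theorem finrank_red (h : R.Ortho) (V : Submodule K F) [FiniteDimensional K V] :
    finrank k (R.red V) = finrank K V := by
  obtain ⟨b, hb, hli⟩ := h V
  rw [red_eq_span b hb hli, finrank_span_eq_card hli, Fintype.card_fin]

theorem finiteDimensional_red (h : R.Ortho) (V : Submodule K F) [FiniteDimensional K V] :
    FiniteDimensional k (R.red V) := by
  obtain ⟨b, hb, hli⟩ := h V
  rw [red_eq_span b hb hli]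
  exact FiniteDimensional.span_of_finite k (Set.finite_range _)

/-- Scaling a nonzero element into the unit sphere. -/
theorem exists_scale (h : R.Ortho) {f : F} (hf : f ≠ 0) :
    ∃ (c : K) (_ : c ≠ 0) (hc : c • f ∈ R.O), R.ρ ⟨c • f, hc⟩ ≠ 0 := by
  obtain ⟨b, hb, hli⟩ := h (K ∙ f)
  have h1 : finrank K (K ∙ f) = 1 := finrank_span_singleton hf
  let i : Fin (finrank K (K ∙ f)) := ⟨0, by omega⟩
  obtain ⟨c, hc⟩ := Submodule.mem_span_singleton.mp (b i).2
  have hne := hli.ne_zero i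
  refine ⟨c, ?_, hc ▸ hb i, ?_⟩
  · rintro rfl
    rw [zero_smul] at hc
    apply hne
    have h2 : (⟨((b i : (K ∙ f : Submodule K F)) : F), hb i⟩ : R.O) = 0 := Subtype.ext hc.symm
    change R.ρ ⟨((b i : (K ∙ f : Submodule K F)) : F), hb i⟩ = 0
    rw [h2, map_zero]
  · intro h0
    apply hne
    change R.ρ ⟨((b i : (K ∙ f : Submodule K F)) : F), hb i⟩ = 0
    rw [← h0]
    congr 1
    exact Subtype.ext hc.symm

end RedRing

end Fermat.Agent.TwoComp
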