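import Fermat.Agent.TwoComp.Basic
import Fermat.Agent.TwoComp.Red

/-!
# Integrality of reductions, the spaces `L(N E₀)`
-/

set_option autoImplicit false

open AlgebraicCurve WithZero Module Polynomial
open scoped IntermediateField
open Fermat.Agent.RR Fermat.Agent.Deuring Fermat.Agent.FF

namespace Fermat.Agent.TwoComp

namespace Data

variable {K Fm F k F' : Type*} [Field K] [Field Fm] [Algebra K Fm] [Field F]
    [Algebra K F] [Field k] [Field F'] [Algebra k F'] {q : ℕ} (D : Data K Fm F k F' q)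

/-- A pair (`x`, `y`): a function `x ∈ O` with `ρ x = (y, y ^ q)` and the right degrees. -/
structure Good (x : D.R.O) (y : F') : Prop where
  tr : Transcendental k y
  fin : finrank k⟮y⟯ F' = D.ψ
  fin' : finrank K⟮(x : F)⟯ F = (q + 1) * D.ψ
  eq : D.R.ρ x = (y, y ^ q)

variable {D}

theorem Good.generic (hq : 0 < q) {x : D.R.O} {y : F'} (h : D.Good x y) : D.R.Generic x := by
  apply D.generic_of
  · rw [h.eq]; exact h.tr
  · rw [h.eq]; exact h.tr.pow hq

theorem Good.exists_indep (hq : 0 < q) {x : D.R.O} {y : F'} (h : D.Good x y) :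
    ∃ f : Fin D.ψ ⊕ Fin D.ψ × Fin q → D.R.O, RedRing.Indep x f :=
  D.exists_indep hq x y h.tr h.fin h.eq

theorem Good.ortho (hq : 0 < q) {x : D.R.O} {y : F'} (h : D.Good x y) : D.R.Ortho := by
  obtain ⟨f, hf⟩ := h.exists_indep hq
  have : Nonempty (Fin D.ψ ⊕ Fin D.ψ × Fin q) := ⟨Sum.inl ⟨0, D.ψ_pos⟩⟩
  refine hf.ortho (h.generic hq) ?_
  rw [h.fin']
  simp only [Fintype.card_sum, Fintype.card_fin, Fintype.card_prod]
  ring

theorem Good.isIntegral (hq : 0 < q) {x : D.R.O} {y : F'} (h : D.Good x y) (g : D.R.O)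
    (hg : IsIntegral (Algebra.adjoin K {(x : F)}) (g : F)) :
    IsIntegral (Algebra.adjoin k {D.R.ρ x}) (D.R.ρ g) := by
  obtain ⟨f, hf⟩ := h.exists_indep hq
  have : Nonempty (Fin D.ψ ⊕ Fin D.ψ × Fin q) := ⟨Sum.inl ⟨0, D.ψ_pos⟩⟩
  refine hf.isIntegral_ρ (h.generic hq) ?_ g hg
  rw [h.fin']
  simp only [Fintype.card_sum, Fintype.card_fin, Fintype.card_prod]
  ring

/-- Integrality over `k[x]` passes to images. -/
theorem isIntegral_map {k E E' : Type*} [CommRing k] [CommRing E] [Algebra k E] [CommRing E']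
    [Algebra k E'] (φ : E →ₐ[k] E') {x g : E} (h : IsIntegral (Algebra.adjoin k {x}) g) :
    IsIntegral (Algebra.adjoin k {φ x}) (φ g) := by
  have hm : ∀ a : Algebra.adjoin k {x}, φ a ∈ Algebra.adjoin k {φ x} := by
    intro a
    obtain ⟨p, hp⟩ : (a : E) ∈ (aeval x : k[X] →ₐ[k] E).range := by
      rw [← Algebra.adjoin_singleton_eq_range_aeval]
      exact a.2
    have h2 : φ a = aeval (φ x) p := by
      rw [Polynomial.aeval_algHom_apply]
      exact congrArg φ hp.symm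
    rw [h2]
    exact aeval_mem_adjoin_singleton k (φ x)
  exact IsIntegral.map_of_comp_eq
    (((φ : E →+* E').comp (Algebra.adjoin k {x}).subtype).codRestrict
      (Algebra.adjoin k {φ x}) hm) (φ : E →+* E') rfl h

variable [IsFF K F] [IsFF k F']

theorem Good.places (hq : 0 < q) {x : D.R.O} {y : F'} (h : D.Good x y) (g : D.R.O)
    (hg : ∀ v : Place K F, (x : F) ∈ v.toValuationSubring → (g : F) ∈ v.toValuationSubring)
    (w : Place k F') (hw : y ∈ w.toValuationSubring) :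
    (D.R.ρ g).1 ∈ w.toValuationSubring ∧ (D.R.ρ g).2 ∈ w.toValuationSubring := by
  have h1 := h.isIntegral hq g (isIntegral_adjoin_iff.mpr hg)
  constructor
  · have h2 := isIntegral_map (AlgHom.fst k F' F') h1
    refine isIntegral_adjoin_iff.mp h2 w ?_
    change (D.R.ρ x).1 ∈ _
    rw [h.eq]
    exact hw
  · have h2 := isIntegral_map (AlgHom.snd k F' F') h1
    refine isIntegral_adjoin_iff.mp h2 w ?_
    change (D.R.ρ x).2 ∈ _
    rw [h.eq]
    exact pow_mem hw q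

variable (D)

/-- `j` on the first chart. -/
def xα : D.R.O := ⟨D.α D.j, D.α_mem₁ _ D.j_mem, D.α_mem₂ _ D.j_mem⟩

/-- `j_q`. -/
def xβ : D.R.O := ⟨D.β D.j, D.β_mem₁ _ D.j_mem, D.β_mem₂ _ D.j_mem⟩

omit [IsFF K F] [IsFF k F'] in
theorem coe_xα : ((D.xα : D.R.O) : F) = D.α D.j := rfl

omit [IsFF K F] [IsFF k F'] in
theorem coe_xβ : ((D.xβ : D.R.O) : F) = D.β D.j := rfl

omit [IsFF K F] [IsFF k F'] in
theorem ρ_xα : D.R.ρ D.xα = (D.jb, D.jb ^ q) :=
  Prod.ext (D.ρ₁_α _ D.j_mem) ((D.ρ₂_α _ D.j_mem).trans D.V_jb)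

omit [IsFF K F] [IsFF k F'] in
theorem ρ_xβ : D.R.ρ D.xβ = (D.jb ^ q, D.jb) :=
  Prod.ext ((D.ρ₁_β _ D.j_mem).trans D.V_jb) (D.ρ₂_β _ D.j_mem)

omit [IsFF K F] [IsFF k F'] in
theorem good_xα : D.Good D.xα D.jb where
  tr := D.jb_transcendental
  fin := D.finrank_F'
  fin' := D.finrank_α
  eq := D.ρ_xα

omit [IsFF K F] [IsFF k F'] in
theorem isUnit_ρ_xα : IsUnit (D.R.ρ D.xα) := by
  rw [ρ_xα, Prod.isUnit_iff]
  exact ⟨IsUnit.mk0 _ D.jb_ne_zero, IsUnit.mk0 _ (pow_ne_zero _ D.jb_ne_zero)⟩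

/-- `1/j`. -/
noncomputable def xα' : D.R.O := ⟨(D.α D.j)⁻¹, D.inv_mem_O D.xα D.isUnit_ρ_xα⟩

omit [IsFF K F] [IsFF k F'] in
theorem αj_ne_zero : D.α D.j ≠ 0 := by
  rw [ne_eq, map_eq_zero]
  intro h
  have h1 : (⟨D.j, D.j_mem⟩ : D.G.O) = 0 := Subtype.ext h
  have h2 := D.jb_ne_zero
  rw [jb, h1, map_zero] at h2
  exact h2 rfl

omit [IsFF K F] [IsFF k F'] in
theorem βj_ne_zero : D.β D.j ≠ 0 := D.swap.αj_ne_zero

omit [IsFF K F] [IsFF k F'] in
theorem ρ_xα' : D.R.ρ D.xα' = (D.jb⁻¹, D.jb⁻¹ ^ q) := by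
  have h1 : D.R.ρ D.xα * D.R.ρ D.xα' = 1 := by
    rw [← map_mul, ← map_one D.R.ρ]
    exact congrArg D.R.ρ (Subtype.ext (mul_inv_cancel₀ D.αj_ne_zero))
  have h2 := congrArg Prod.fst h1
  have h3 := congrArg Prod.snd h1
  rw [ρ_xα] at h2 h3
  refine Prod.ext ?_ ?_
  · exact (eq_inv_of_mul_eq_one_right h2)
  · have h4 : D.jb ^ q * (D.R.ρ D.xα').2 = 1 := h3
    rw [eq_inv_of_mul_eq_one_right h4, inv_pow]

omit [IsFF K F] [IsFF k F'] in
theorem good_xα' : D.Good D.xα' D.jb⁻¹ where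
  tr := FF.transcendental_inv D.jb_transcendental
  fin := by rw [finrank_adjoin_inv]; exact D.finrank_F'
  fin' := by
    change finrank K⟮(D.α D.j)⁻¹⟯ F = _
    rw [finrank_adjoin_inv]; exact D.finrank_α
  eq := D.ρ_xα'

/-- The divisor `E₀ = (j)_∞ + (j_q)_∞`. -/
noncomputable def E₀ : Divisor K F := poleD (D.α D.j) + poleD (D.β D.j)

omit [IsFF k F'] in
theorem E₀_swap : D.swap.E₀ = D.E₀ := add_comm _ _

omit [IsFF k F'] in
theorem E₀_apply (v : Place K F) :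
    D.E₀ v = max (-v.ord (D.α D.j)) 0 + max (-v.ord (D.β D.j)) 0 := by
  rw [E₀, Finsupp.add_apply, poleD_apply, poleD_apply]

omit [IsFF k F'] in
theorem E₀_nonneg : 0 ≤ D.E₀ := add_nonneg (poleD_nonneg _) (poleD_nonneg _)

omit [IsFF k F'] in
theorem E₀_eq_zero {v : Place K F} (hv : 0 ≤ v.ord (D.α D.j)) : D.E₀ v = 0 := by
  rw [E₀_apply]
  have h : 0 ≤ v.ord (D.β D.j) := by
    by_contra h
    push Not at h
    have := (D.cusp_β v h).1
    omega
  rw [max_eq_right (by omega), max_eq_right (by omega), add_zero]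

omit [IsFF k F'] in
theorem E₀_le {v : Place K F} (hv : v.ord (D.α D.j) < 0) :
    D.E₀ v ≤ (q + 1) * (-v.ord (D.α D.j)) := by
  rw [E₀_apply]
  have h := D.cusp_α v hv
  rw [max_eq_left (by omega), max_eq_left (by omega)]
  linarith [h.2]

/-- `L(N E₀)` reduces into `L(N(q+1)(j)_∞)` on the first component. -/
theorem fst_mem_Lp (hq : 0 < q) (N : ℕ) (f : D.R.O)
    (hf : (f : F) ∈ riemannRochSpace (N • D.E₀)) :
    (D.R.ρ f).1 ∈ Lp (K := k) D.jb (N * (q + 1) : ℕ) := by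
  rw [mem_Lp_iff_places D.jb_ne_zero]
  constructor
  · intro w hw
    refine (D.good_xα.places hq f ?_ w hw).1
    intro v hv
    rw [coe_xα, mem_iff_ord_nonneg v D.αj_ne_zero] at hv
    rw [mem_iff_val_le_one]
    have h1 := hf v
    rwa [Finsupp.smul_apply, D.E₀_eq_zero hv, smul_zero, exp_zero] at h1
  · intro w hw
    have h1 := (D.good_xα'.places hq (f * D.xα' ^ (N * (q + 1))) ?_ w hw).1
    · rw [map_mul, map_pow, ρ_xα', Prod.fst_mul, Prod.pow_fst] at h1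
      exact h1
    · intro v hv
      change (D.α D.j)⁻¹ ∈ _ at hv
      change (f : F) * ((D.α D.j)⁻¹) ^ (N * (q + 1)) ∈ _
      rcases eq_or_ne (f : F) 0 with hf0 | hf0
      · rw [hf0, zero_mul]; exact v.toValuationSubring.zero_mem
      have ha := D.αj_ne_zero
      rw [mem_iff_ord_nonneg v (inv_ne_zero ha), v.ord_inv] at hv
      rw [mem_iff_ord_nonneg v (mul_ne_zero hf0 (pow_ne_zero _ (inv_ne_zero ha))),
        v.ord_mul hf0 (pow_ne_zero _ (inv_ne_zero ha)), ord_pow, v.ord_inv]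
      have h2 := (mem_L_iff hf0).mp hf v
      rw [Finsupp.smul_apply, nsmul_eq_mul] at h2
      rcases eq_or_lt_of_le hv with h0 | h0
      · rw [D.E₀_eq_zero (by omega)] at h2
        rw [← h0]
        simpa using h2
      · have h3 := D.E₀_le (v := v) (by omega)
        have h4 : (N : ℤ) * D.E₀ v ≤ N * ((q + 1) * (-v.ord (D.α D.j))) :=
          mul_le_mul_of_nonneg_left h3 (by positivity)
        push_cast
        nlinarith

theorem snd_mem_Lp (hq : 0 < q) (N : ℕ) (f : D.R.O)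
    (hf : (f : F) ∈ riemannRochSpace (N • D.E₀)) :
    (D.R.ρ f).2 ∈ Lp (K := k) D.jb (N * (q + 1) : ℕ) := by
  have h1 := D.swap.fst_mem_Lp hq N (⟨f, f.2.2, f.2.1⟩ : D.swap.R.O) (by rw [E₀_swap]; exact hf)
  exact h1

end Data

end Fermat.Agent.TwoComp
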