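import Fermat.Agent.TwoComp.Full2

/-!
# Torsion functions have orders divisible by `n` off the nodes; genus formula; representatives
-/

set_option autoImplicit false
set_option linter.unusedSectionVars false

open AlgebraicCurve WithZero Module Polynomial
open scoped IntermediateField
open Fermat.Agent.RR Fermat.Agent.Deuring Fermat.Agent.FF Fermat.Agent.QX4

namespace Fermat.Agent.TwoComp

namespace Data

variable {K Fm F k F' : Type*} [Field K] [Field Fm] [Algebra K Fm] [Field F]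
    [Algebra K F] [Field k] [Field F'] [Algebra k F'] {q : ℕ} {D : Data K Fm F k F' q}

namespace PreTor

variable {n : ℕ} {E E' : Divisor K F} {φ φ' : D.R.O}

theorem mul (h : D.PreTor n E φ) (h' : D.PreTor n E' φ') : D.PreTor n (E + E') (φ * φ') where
  deg := by rw [map_add, h.deg, h'.deg, add_zero]
  fst := by rw [map_mul]; exact mul_ne_zero h.fst h'.fst
  snd := by rw [map_mul]; exact mul_ne_zero h.snd h'.snd
  ord v := by
    change v.ord ((φ : F) * (φ' : F)) = _
    rw [v.ord_mul h.ne_zero h'.ne_zero, h.ord, h'.ord, Finsupp.add_apply]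
    ring

end PreTor

variable [IsFF K F] [IsFF k F'] [IsFF K Fm] [IsAlgClosed k]

section Bad

variable {n : ℕ} {E : Divisor K F} {φ : D.R.O}

theorem NodeSet.badNd_inv (T : D.NodeSet) (g₁ g₂ : F') :
    T.badNd n g₁⁻¹ g₂⁻¹ = T.badNd n g₁ g₂ := by
  classical
  unfold NodeSet.badNd
  apply Finset.filter_congr
  intro s _
  rw [Place.ord_inv, Place.ord_inv, dvd_neg, dvd_neg]

theorem PreTor.card_bad (h : D.PreTor n E φ) (T : D.NodeSet) (hq : 2 ≤ q) (hn : 0 < n) :
    (bad (k := k) n (D.R.ρ φ).1).card + (bad (k := k) n (D.R.ρ φ).2).card ≤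
      2 * (T.badNd n (D.R.ρ φ).1 (D.R.ρ φ).2).card := by
  have h1 := T.count hq hn h
  have h2 := T.count hq hn h.inv
  rw [h.ρ_inv, NodeSet.badNd_inv] at h2
  have h3 := degree_cdiv_add (k := k) hn (D.R.ρ φ).1
  have h4 := degree_cdiv_add (k := k) hn (D.R.ρ φ).2
  have h5 : ((bad (k := k) n (D.R.ρ φ).1).card : ℤ) + (bad (k := k) n (D.R.ρ φ).2).card ≤
      2 * (T.badNd n (D.R.ρ φ).1 (D.R.ρ φ).2).card := by
    rw [← h3, ← h4]
    linarith
  exact_mod_cast h5

open Classical in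
theorem PreTor.image_subset₁ (T : D.NodeSet) (g₁ g₂ : F') :
    (T.badNd n g₁ g₂).image D.pl ⊆ bad (k := k) n g₁ := by
  intro v hv
  obtain ⟨s, hs, rfl⟩ := Finset.mem_image.mp hv
  rw [mem_bad]
  exact (Finset.mem_filter.mp hs).2.1

open Classical in
theorem PreTor.image_subset₂ (T : D.NodeSet) (g₁ g₂ : F') :
    (T.badNd n g₁ g₂).image (fun s => D.pl (s.comp D.Vb)) ⊆ bad (k := k) n g₂ := by
  intro v hv
  obtain ⟨s, hs, rfl⟩ := Finset.mem_image.mp hv
  rw [mem_bad]
  exact (Finset.mem_filter.mp hs).2.2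

open Classical in
theorem NodeSet.card_image₁ (T : D.NodeSet) (g₁ g₂ : F') :
    ((T.badNd n g₁ g₂).image D.pl).card = (T.badNd n g₁ g₂).card :=
  Finset.card_image_of_injective _ pl_injective

open Classical in
theorem NodeSet.card_image₂ (T : D.NodeSet) (g₁ g₂ : F') :
    ((T.badNd n g₁ g₂).image (fun s => D.pl (s.comp D.Vb))).card = (T.badNd n g₁ g₂).card := by
  apply Finset.card_image_of_injOn
  intro s hs t ht hst
  exact T.comp_Vb_injOn (Finset.mem_filter.mp hs).1 (Finset.mem_filter.mp ht).1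
    (pl_injective hst)

open Classical in
/-- **The orders of `ρ₁ φ` are divisible by `n` off the nodes.** -/
theorem PreTor.bad_eq₁ (h : D.PreTor n E φ) (T : D.NodeSet) (hq : 2 ≤ q) (hn : 0 < n) :
    (T.badNd n (D.R.ρ φ).1 (D.R.ρ φ).2).image D.pl = bad (k := k) n (D.R.ρ φ).1 := by
  apply Finset.eq_of_subset_of_card_le (image_subset₁ T _ _)
  have h1 := h.card_bad T hq hn
  have h2 := Finset.card_le_card (image_subset₂ (n := n) T (D.R.ρ φ).1 (D.R.ρ φ).2)
  rw [NodeSet.card_image₂] at h2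
  rw [NodeSet.card_image₁]
  omega

open Classical in
theorem PreTor.bad_eq₂ (h : D.PreTor n E φ) (T : D.NodeSet) (hq : 2 ≤ q) (hn : 0 < n) :
    (T.badNd n (D.R.ρ φ).1 (D.R.ρ φ).2).image (fun s => D.pl (s.comp D.Vb)) =
      bad (k := k) n (D.R.ρ φ).2 := by
  apply Finset.eq_of_subset_of_card_le (image_subset₂ T _ _)
  have h1 := h.card_bad T hq hn
  have h2 := Finset.card_le_card (image_subset₁ (n := n) T (D.R.ρ φ).1 (D.R.ρ φ).2)
  rw [NodeSet.card_image₁] at h2
  rw [NodeSet.card_image₂]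
  omega

/-- If the orders of the first reduction at all nodes are divisible by `n`, then so are all
orders of both reductions. -/
theorem PreTor.bad_eq_empty (h : D.PreTor n E φ) (T : D.NodeSet) (hq : 2 ≤ q) (hn : 0 < n)
    (hs : ∀ s ∈ T.Nd, (n : ℤ) ∣ (D.pl s).ord (D.R.ρ φ).1) :
    bad (k := k) n (D.R.ρ φ).1 = ∅ ∧ bad (k := k) n (D.R.ρ φ).2 = ∅ := by
  classical
  have h0 : T.badNd n (D.R.ρ φ).1 (D.R.ρ φ).2 = ∅ := by
    rw [Finset.eq_empty_iff_forall_notMem]
    intro s hs'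
    obtain ⟨h1, h2, _⟩ := Finset.mem_filter.mp hs'
    exact h2 (hs s h1)
  rw [← h.bad_eq₁ T hq hn, ← h.bad_eq₂ T hq hn, h0]
  exact ⟨rfl, rfl⟩

/-- One node may be omitted. -/
theorem PreTor.dvd_of_forall_ne (h : D.PreTor n E φ) (T : D.NodeSet) (hq : 2 ≤ q) (hn : 0 < n)
    {s₀ : D.Rb →ₐ[k] k} (hs : ∀ s ∈ T.Nd, s ≠ s₀ → (n : ℤ) ∣ (D.pl s).ord (D.R.ρ φ).1) :
    ∀ s ∈ T.Nd, (n : ℤ) ∣ (D.pl s).ord (D.R.ρ φ).1 := by
  classical
  intro s hsT
  by_cases hss : s = s₀
  · subst hss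
    have h1 : ∀ v : Place k F', v ≠ D.pl s → (n : ℤ) ∣ v.ord (D.R.ρ φ).1 := by
      intro v hv
      by_contra hcon
      have h2 : v ∈ bad (k := k) n (D.R.ρ φ).1 := mem_bad.mpr hcon
      rw [← h.bad_eq₁ T hq hn] at h2
      obtain ⟨t, ht, rfl⟩ := Finset.mem_image.mp h2
      obtain ⟨h3, h4, _⟩ := Finset.mem_filter.mp ht
      exact h4 (hs t h3 fun h => hv (by rw [h]))
    have : Nonempty (Place k F') := exists_place
    have : ∀ v : Place k F', v.FiniteResidue := QX.finiteResidue_place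
    have h2 : Divisor.degree (RR.div (K := k) (D.R.ρ φ).1) = 0 := degree_div _
    rw [degree_eq_sum _ (insert (D.pl s) (RR.div (K := k) (D.R.ρ φ).1).support)
      (Finset.subset_insert _ _), ← Finset.add_sum_erase _ _ (Finset.mem_insert_self _ _)] at h2
    have h3 : (n : ℤ) ∣ ∑ v ∈ (insert (D.pl s) (RR.div (K := k) (D.R.ρ φ).1).support).erase
        (D.pl s), (RR.div (K := k) (D.R.ρ φ).1) v * v.deg := by
      apply Finset.dvd_sum
      intro v hv
      rw [div_apply]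
      exact Dvd.dvd.mul_right (h1 v (Finset.ne_of_mem_erase hv)) _
    rw [deg_eq_one, Nat.cast_one, mul_one, div_apply] at h2
    have h4 : (D.pl s).ord (D.R.ρ φ).1 = -∑ v ∈ (insert (D.pl s)
        (RR.div (K := k) (D.R.ρ φ).1).support).erase (D.pl s),
        (RR.div (K := k) (D.R.ρ φ).1) v * v.deg := by linarith
    rw [h4, dvd_neg]
    exact h3
  · exact hs s hsT hss

end Bad

/-- **The genus formula**: `g = 2 g' + #nodes - 1`. -/
theorem NodeSet.genus_eq [IsAlgClosed K] (T : D.NodeSet) (hq : 2 ≤ q) :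
    genusFF K F + 1 = 2 * genusFF k F' + T.Nd.card := by
  have hq0 : 0 < q := by omega
  obtain ⟨N₀, h₀⟩ := T.exists_codim_card hq
  have : Nonempty (Place K F) := exists_place
  have : ∀ v : Place K F, v.FiniteResidue := QX.finiteResidue_place
  have : Nonempty (Place k F') := exists_place
  have : ∀ v : Place k F', v.FiniteResidue := QX.finiteResidue_place
  have hfin : FiniteDimensional K⟮D.α D.j⟯ F := IsFF.finite_adjoin _ (D.αj_transcendental hq0)
  have hfin' : FiniteDimensional k⟮D.jb⟯ F' := IsFF.finite_adjoin _ D.jb_transcendental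
  set N := max N₀ (max (2 * genusFF K F + 1) (2 * genusFF k F' + 1)) with hN
  have hψ := D.ψ_pos
  have hN1 : (N : ℤ) ≤ ((N * (q + 1) : ℕ) : ℤ) * D.ψ := by
    have h1 : 1 ≤ (q + 1) * D.ψ := by
      have : 0 < (q + 1) * D.ψ := by positivity
      omega
    have h2 : N * 1 ≤ N * ((q + 1) * D.ψ) := Nat.mul_le_mul_left _ h1
    have h3 : N ≤ N * (q + 1) * D.ψ := by rw [mul_assoc]; simpa using h2
    exact_mod_cast h3
  have hNg : (2 * (genusFF K F : ℤ) + 1) ≤ N := by
    have : 2 * genusFF K F + 1 ≤ N := (le_max_left _ _).trans (le_max_right _ _)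
    exact_mod_cast this
  have hNg' : (2 * (genusFF k F' : ℤ) + 1) ≤ N := by
    have : 2 * genusFF k F' + 1 ≤ N := (le_max_right _ _).trans (le_max_right _ _)
    exact_mod_cast this
  have e := h₀ 0 (map_zero _) N (le_max_left _ _)
  rw [D.finrank_U, M_zero, Λ, RedRing.finrank_red (D.ortho hq0)] at e
  have hdA : Divisor.degree (((N * (q + 1) : ℕ) : ℤ) • poleD (K := k) D.jb) =
      ((N * (q + 1) : ℕ) : ℤ) * D.ψ := by
    rw [map_zsmul, degree_poleD D.jb_transcendental, smul_eq_mul]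
    congr 1
    exact_mod_cast D.finrank_F'
  have hdE : Divisor.degree (N • D.E₀) = 2 * (((N * (q + 1) : ℕ) : ℤ) * D.ψ) := by
    rw [map_nsmul, D.degree_E₀ (D.αj_transcendental hq0) (D.βj_transcendental hq0), nsmul_eq_mul]
    push_cast
    ring
  have e₁ := RR.ell_eq (K := k) D.jb D.jb_transcendental
    (D := ((N * (q + 1) : ℕ) : ℤ) • poleD (K := k) D.jb)
    (by rw [RR.ell_zero, hdA]; push_cast at hN1 ⊢; linarith)
  have e₂ := RR.ell_eq (K := K) (D.α D.j) (D.αj_transcendental hq0) (D := N • D.E₀)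
    (by rw [RR.ell_zero, hdE]; push_cast at hN1 ⊢; linarith)
  rw [RR.ell_zero, hdA] at e₁
  rw [RR.ell_zero, hdE] at e₂
  have e₁' : (finrank k (Lp (K := k) D.jb ((N * (q + 1) : ℕ) : ℤ)) : ℤ) =
    ((N * (q + 1) : ℕ) : ℤ) * D.ψ + (1 : ℕ) - genusFF k F' := e₁
  have e₂' : (finrank K (riemannRochSpace (N • D.E₀)) : ℤ) =
    2 * (((N * (q + 1) : ℕ) : ℤ) * D.ψ) + (1 : ℕ) - genusFF K F := e₂
  have e' : 2 * (finrank k (Lp (K := k) D.jb ((N * (q + 1) : ℕ) : ℤ)) : ℤ) =
    (finrank K (riemannRochSpace (N • D.E₀)) : ℤ) + T.Nd.card := by exact_mod_cast e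
  rw [e₁', e₂'] at e'
  have : (genusFF K F : ℤ) + 1 = 2 * genusFF k F' + T.Nd.card := by
    push_cast at e' ⊢
    linarith
  exact_mod_cast this

end Data

end Fermat.Agent.TwoComp
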