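import Fermat.Agent.TwoComp.Places

/-!
# Counting: the reduction of `L(N E₀)` inside `L(n (j)_∞)²`
-/

set_option autoImplicit false

open AlgebraicCurve WithZero Module Polynomial
open scoped IntermediateField
open Fermat.Agent.RR Fermat.Agent.Deuring Fermat.Agent.FF

namespace Fermat.Agent.TwoComp

section

variable {K F : Type*} [Field K] [Field F] [Algebra K F] [IsFF K F]

theorem Lp_pow (y : F) (q : ℕ) (c : ℤ) : Lp (K := K) (y ^ q) c = Lp y (q * c) := by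
  ext f
  rw [mem_Lp, mem_Lp]
  refine forall_congr' fun v => ?_
  rw [ord_pow]
  have h : c * max (-(q * v.ord y)) 0 = q * c * max (-v.ord y) 0 := by
    rcases le_total (v.ord y) 0 with hv | hv
    · rw [max_eq_left (by nlinarith), max_eq_left (by omega)]
      ring
    · rw [max_eq_right (by nlinarith), max_eq_right (by omega)]
      ring
  rw [h]

variable {F₁ : Type*} [Field F₁] [Algebra K F₁] [IsFF K F₁]

/-- `L(c(y)_∞)` is compatible with embeddings of function fields. -/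
theorem map_mem_Lp (φ : F₁ →ₐ[K] F) {y f : F₁} (hy0 : y ≠ 0) {c : ℕ}
    (hf : f ∈ Lp (K := K) y c) : φ f ∈ Lp (K := K) (φ y) c := by
  rw [mem_Lp_iff_isIntegral hy0] at hf
  rw [mem_Lp_iff_isIntegral ((map_ne_zero φ).mpr hy0)]
  have h1 := Data.isIntegral_map φ hf.1
  have h2 := Data.isIntegral_map φ hf.2
  rw [map_mul, map_pow, map_inv₀] at h2
  exact ⟨h1, h2⟩

end

namespace Data

variable {K Fm F k F' : Type*} [Field K] [Field Fm] [Algebra K Fm] [Field F]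
    [Algebra K F] [Field k] [Field F'] [Algebra k F'] {q : ℕ} (D : Data K Fm F k F' q)
    [IsFF K F] [IsFF k F']

/-- `L(n(j)_∞)²` -/
noncomputable def U (n : ℤ) : Submodule k (F' × F') := (Lp D.jb n).prod (Lp D.jb n)

/-- The reduction of `L(N E₀)`. -/
noncomputable def Λ (N : ℕ) : Submodule k (F' × F') := D.R.red (riemannRochSpace (N • D.E₀))

omit [IsFF K F] in
theorem mem_U {n : ℤ} {w : F' × F'} :
    w ∈ D.U n ↔ w.1 ∈ Lp (K := k) D.jb n ∧ w.2 ∈ Lp (K := k) D.jb n := Iff.rfl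

omit [IsFF K F] in
theorem U_mono {m n : ℤ} (h : m ≤ n) : D.U m ≤ D.U n := fun _ hw =>
  ⟨Lp_mono h hw.1, Lp_mono h hw.2⟩

/-- `U n` as a product. -/
noncomputable def UEquiv (n : ℤ) : D.U n ≃ₗ[k] (Lp (K := k) D.jb n) × (Lp (K := k) D.jb n) where
  toFun w := (⟨w.1.1, w.2.1⟩, ⟨w.1.2, w.2.2⟩)
  invFun w := ⟨(w.1, w.2), w.1.2, w.2.2⟩
  map_add' _ _ := rfl
  map_smul' _ _ := rfl
  left_inv _ := rfl
  right_inv _ := rfl

instance (n : ℤ) : FiniteDimensional k (D.U n) :=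
  Module.Finite.equiv (D.UEquiv n).symm

omit [IsFF K F] in
theorem finrank_U (n : ℤ) : finrank k (D.U n) = 2 * finrank k (Lp (K := k) D.jb n) := by
  rw [(D.UEquiv n).finrank_eq, finrank_prod]
  ring

theorem Λ_le (hq : 0 < q) (N : ℕ) : D.Λ N ≤ D.U (N * (q + 1) : ℕ) := by
  rintro _ ⟨f, hf, rfl⟩
  exact ⟨D.fst_mem_Lp hq N f hf, D.snd_mem_Lp hq N f hf⟩

omit [IsFF k F'] in
theorem L_mono' {M N : ℕ} (h : M ≤ N) :
    riemannRochSpace (M • D.E₀) ≤ riemannRochSpace (N • D.E₀) := by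
  apply L_mono
  intro v
  simp only [Finsupp.smul_apply, nsmul_eq_mul]
  exact mul_le_mul_of_nonneg_right (by exact_mod_cast h) (D.E₀_nonneg v)

omit [IsFF k F'] in
theorem Λ_mono {M N : ℕ} (h : M ≤ N) : D.Λ M ≤ D.Λ N := RedRing.red_mono (D.L_mono' h)

variable [IsFF K Fm]

/-- Lifting through good reduction at level `m`. -/
theorem exists_lift (hj0 : D.j ≠ 0) {c : ℕ} (hc : D.c₀ ≤ c) {b : F'}
    (hb : b ∈ Lp (K := k) D.jb c) :
    ∃ f : D.R.O, D.R.ρ f = (b, D.V b) ∧ (f : F) ∈ Lp (K := K) (D.α D.j) c := by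
  obtain ⟨f, hf, hfj, hfb⟩ := D.good c hc b (fun v => mem_Lp.mp hb v)
  refine ⟨⟨D.α f, D.α_mem₁ f hf, D.α_mem₂ f hf⟩, ?_, ?_⟩
  · refine Prod.ext ?_ ?_
    · exact (D.ρ₁_α f hf).trans hfb
    · exact (D.ρ₂_α f hf).trans (congrArg D.V hfb)
  · exact map_mem_Lp D.α hj0 (mem_Lp.mpr hfj)

omit [IsFF K F] [IsFF k F'] [IsFF K Fm] in
theorem j_ne_zero : D.j ≠ 0 := by
  intro h
  have := D.αj_ne_zero
  rw [h, map_zero] at this
  exact this rfl

omit [IsFF K F] [IsFF K Fm] in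
theorem V_mem_Lp {c : ℕ} {b : F'} (hb : b ∈ Lp (K := k) D.jb c) :
    D.V b ∈ Lp (K := k) D.jb (q * c) := by
  have := map_mem_Lp D.V D.jb_ne_zero hb
  rwa [D.V_jb, Lp_pow] at this

/-- One leading term at the first component. -/
theorem step₁ (hq : 2 ≤ q) {c : ℕ} (hc₀ : D.c₀ ≤ c) {N m : ℕ} (hm : q * (N + 1) ≤ m)
    (hn : c + m ≤ N * (q + 1)) {b : F'} (hb : b ∈ Lp (K := k) D.jb c) :
    ∃ b' ∈ Lp (K := k) D.jb ((N - 1 : ℤ) * (q + 1)), (D.jb ^ m * b, b') ∈ D.Λ N := by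
  obtain ⟨a', rfl⟩ : ∃ a', m = q * (N + 1) + a' := ⟨m - q * (N + 1), by omega⟩
  obtain ⟨f, hfρ, hf⟩ := D.exists_lift D.j_ne_zero hc₀ hb
  refine ⟨(D.jb ^ q) ^ a' * D.jb ^ (N + 1) * D.V b, ?_, ?_⟩
  · have h1 := mul_mem_Lp (mul_mem_Lp (self_pow_mem_Lp (K := k) (y := D.jb) (q * a'))
      (self_pow_mem_Lp (K := k) (y := D.jb) (N + 1))) (D.V_mem_Lp hb)
    rw [pow_mul] at h1
    refine Lp_mono ?_ h1
    push_cast
    have h2 : ((c : ℤ) + (q * (N + 1) + a')) ≤ N * (q + 1) := by exact_mod_cast hn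
    have h3 : (2 : ℤ) ≤ q := by exact_mod_cast hq
    have h4 : (q : ℤ) * (c + (q * (N + 1) + a')) ≤ q * (N * (q + 1)) :=
      mul_le_mul_of_nonneg_left h2 (by omega)
    nlinarith
  · refine ⟨D.xα ^ a' * D.xβ ^ (N + 1) * f, ?_, ?_⟩
    · change (D.α D.j) ^ a' * (D.β D.j) ^ (N + 1) * (f : F) ∈ _
      rcases eq_or_ne (f : F) 0 with hf0 | hf0
      · rw [hf0, mul_zero]; exact Submodule.zero_mem _
      have ha := D.αj_ne_zero
      have hβ := D.βj_ne_zero
      rw [mem_L_iff (mul_ne_zero (mul_ne_zero (pow_ne_zero _ ha) (pow_ne_zero _ hβ)) hf0)]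
      intro v
      rw [v.ord_mul (mul_ne_zero (pow_ne_zero _ ha) (pow_ne_zero _ hβ)) hf0,
        v.ord_mul (pow_ne_zero _ ha) (pow_ne_zero _ hβ), ord_pow, ord_pow, Finsupp.smul_apply,
        nsmul_eq_mul, E₀_apply]
      have h1 := (mem_Lp' hf0).mp hf v
      rcases le_or_gt 0 (v.ord (D.α D.j)) with hv | hv
      · have hv' : 0 ≤ v.ord (D.β D.j) := by
          by_contra h
          push Not at h
          have := (D.cusp_β v h).1
          omega
        rw [max_eq_right (by omega)] at h1 ⊢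
        rw [max_eq_right (by omega)]
        have h5 : 0 ≤ (a' : ℤ) * v.ord (D.α D.j) := by positivity
        have h6 : 0 ≤ ((N + 1 : ℕ) : ℤ) * v.ord (D.β D.j) := by positivity
        simp only [add_zero, mul_zero, neg_zero]
        omega
      · obtain ⟨hv', hv''⟩ := D.cusp_α v hv
        rw [max_eq_left (by omega)] at h1 ⊢
        rw [max_eq_left (by omega)]
        have h2 : ((c : ℤ) + (q * (N + 1) + a')) ≤ N * (q + 1) := by exact_mod_cast hn
        have h3 : (0 : ℤ) < -v.ord (D.α D.j) := by omega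
        have h4 : ((c : ℤ) + (q * (N + 1) + a')) * (-v.ord (D.α D.j)) ≤
            N * (q + 1) * (-v.ord (D.α D.j)) := mul_le_mul_of_nonneg_right h2 h3.le
        push_cast
        nlinarith
    · have h1 : D.R.ρ (D.xα ^ a' * D.xβ ^ (N + 1) * f) =
          D.R.ρ D.xα ^ a' * D.R.ρ D.xβ ^ (N + 1) * D.R.ρ f := by
        rw [map_mul, map_mul, map_pow, map_pow]
      rw [h1, ρ_xα, ρ_xβ, hfρ]
      refine Prod.ext ?_ ?_
      · simp only [Prod.fst_mul, Prod.pow_fst]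
        ring
      · simp only [Prod.snd_mul, Prod.pow_snd]

end Data

end Fermat.Agent.TwoComp
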