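import Fermat.Agent.TwoComp.Count

/-!
# Counting, continued: `(⋃ Λ_M) ∩ U_N = Λ_N`
-/

set_option autoImplicit false

open AlgebraicCurve WithZero Module Polynomial
open scoped IntermediateField
open Fermat.Agent.RR Fermat.Agent.Deuring Fermat.Agent.FF

namespace Fermat.Agent.TwoComp

namespace Data

variable {K Fm F k F' : Type*} [Field K] [Field Fm] [Algebra K Fm] [Field F]
    [Algebra K F] [Field k] [Field F'] [Algebra k F'] {q : ℕ} (D : Data K Fm F k F' q)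
    [IsFF K F] [IsFF k F'] [IsFF K Fm]

theorem step₂ (hq : 2 ≤ q) {c : ℕ} (hc₀ : D.c₀ ≤ c)
    (hc : ∀ m : ℕ, ∀ a ∈ Lp (K := k) D.jb (c + m : ℕ),
      ∃ b ∈ Lp (K := k) D.jb c, ∃ a' ∈ Lp (K := k) D.jb ((c + m : ℕ) - 1), a = D.jb ^ m * b + a')
    {N n : ℕ} (hn₁ : c + q * (N + 1) ≤ n) (hn₂ : n ≤ N * (q + 1)) {a : F'}
    (ha : a ∈ Lp (K := k) D.jb n) :
    ∃ w ∈ D.Λ N, ∃ a' ∈ Lp (K := k) D.jb (n - 1 : ℤ),
      ∃ b' ∈ Lp (K := k) D.jb ((N - 1 : ℤ) * (q + 1)), (a, (0 : F')) = w + (a', b') := by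
  obtain ⟨m, rfl⟩ : ∃ m, n = c + m := ⟨n - c, by omega⟩
  obtain ⟨b, hb, a', ha', rfl⟩ := hc m a ha
  obtain ⟨b', hb', hΛ⟩ := D.step₁ hq hc₀ (N := N) (m := m) (by omega) hn₂ hb
  exact ⟨_, hΛ, a', ha', -b', Submodule.neg_mem _ hb', by simp⟩

omit [IsFF k F'] [IsFF K Fm] in
theorem Λ_swap {N : ℕ} {w : F' × F'} (hw : w ∈ D.swap.Λ N) : w.swap ∈ D.Λ N := by
  obtain ⟨f, hf, rfl⟩ := hw
  exact ⟨⟨f, f.2.2, f.2.1⟩, by rw [← E₀_swap]; exact hf, rfl⟩

theorem step₃ (hq : 2 ≤ q) {c : ℕ} (hc₀ : D.c₀ ≤ c)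
    (hc : ∀ m : ℕ, ∀ a ∈ Lp (K := k) D.jb (c + m : ℕ),
      ∃ b ∈ Lp (K := k) D.jb c, ∃ a' ∈ Lp (K := k) D.jb ((c + m : ℕ) - 1), a = D.jb ^ m * b + a')
    {N : ℕ} (hN : c + 2 * q ≤ N) (i : ℕ) (hi : i ≤ q + 1) :
    D.U ((N - 1 : ℤ) * (q + 1) + i) ≤ D.Λ N ⊔ D.U ((N - 1 : ℤ) * (q + 1)) := by
  induction i with
  | zero => simp
  | succ i ih =>
    have ih' := ih (by omega)
    rintro ⟨a, b⟩ ⟨ha, hb⟩
    change a ∈ _ at ha
    change b ∈ _ at hb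
    have hN1 : 1 ≤ N := by omega
    obtain ⟨N', rfl⟩ : ∃ N', N = N' + 1 := ⟨N - 1, by omega⟩
    have hcast : ((N' + 1 : ℕ) - 1 : ℤ) * (q + 1) + (i + 1 : ℕ) = (N' * (q + 1) + (i + 1) : ℕ) := by
      push_cast; ring
    rw [hcast] at ha hb
    have h1 : c + q * (N' + 1 + 1) ≤ N' * (q + 1) + (i + 1) := by nlinarith
    have h2 : N' * (q + 1) + (i + 1) ≤ (N' + 1) * (q + 1) := by nlinarith
    obtain ⟨w₁, hw₁, a₁, ha₁, b₁, hb₁, e₁⟩ := D.step₂ hq hc₀ hc h1 h2 ha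
    obtain ⟨w₂, hw₂, a₂, ha₂, b₂, hb₂, e₂⟩ := D.swap.step₂ hq hc₀ hc h1 h2 hb
    have e : (a, b) = (w₁ + w₂.swap) + (a₁ + b₂, b₁ + a₂) := by
      have e₁' := congrArg Prod.fst e₁
      have e₁'' := congrArg Prod.snd e₁
      have e₂' := congrArg Prod.fst e₂
      have e₂'' := congrArg Prod.snd e₂
      simp only [Prod.fst_add, Prod.snd_add] at e₁' e₁'' e₂' e₂''
      refine Prod.ext ?_ ?_
      · simp only [Prod.fst_add, Prod.fst_swap]
        linear_combination e₁' + e₂''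
      · simp only [Prod.snd_add, Prod.snd_swap]
        linear_combination e₁'' + e₂'
    rw [e]
    refine Submodule.add_mem _ (Submodule.mem_sup_left
      (Submodule.add_mem _ hw₁ (D.Λ_swap hw₂))) (ih' ?_)
    have hle1 : ((N' * (q + 1) + (i + 1) : ℕ) : ℤ) - 1 ≤ ((N' + 1 : ℕ) - 1 : ℤ) * (q + 1) + i := by
      push_cast; linarith
    have hle2 : (((N' + 1 : ℕ) : ℤ) - 1) * (q + 1) ≤ ((N' + 1 : ℕ) - 1 : ℤ) * (q + 1) + i := by
      linarith
    exact ⟨Submodule.add_mem _ (Lp_mono hle1 ha₁) (Lp_mono hle2 hb₂),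
      Submodule.add_mem _ (Lp_mono hle2 hb₁) (Lp_mono hle1 ha₂)⟩

/-- Surjectivity onto leading parts at infinity. -/
theorem exists_U_le (hq : 2 ≤ q) : ∃ N₁ : ℕ, ∀ N : ℕ, N₁ ≤ N → ∀ M : ℕ, N ≤ M →
    D.U (M * (q + 1) : ℕ) = D.Λ M ⊔ D.U (N * (q + 1) : ℕ) := by
  obtain ⟨c₁, hc₁⟩ := exists_leading (K := k) D.jb_transcendental
  set c := max D.c₀ c₁
  refine ⟨c + 2 * q, fun N hN M hM => ?_⟩
  induction M, hM using Nat.le_induction with
  | base => exact (sup_eq_right.mpr (D.Λ_le (by omega) N)).symm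
  | succ M hM ih =>
    apply le_antisymm
    · have h1 := D.step₃ hq (le_max_left _ _) (fun m => hc₁ c m (le_max_right _ _)) (N := M + 1)
        (by omega) (q + 1) le_rfl
      have h2 : (((M + 1 : ℕ) : ℤ) - 1) * (q + 1) + (q + 1 : ℕ) = ((M + 1) * (q + 1) : ℕ) := by
        push_cast; ring
      have h3 : (((M + 1 : ℕ) : ℤ) - 1) * (q + 1) = (M * (q + 1) : ℕ) := by push_cast; ring
      rw [h2, h3, ih] at h1
      refine h1.trans (sup_le le_sup_left (sup_le ?_ le_sup_right))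
      exact (D.Λ_mono (Nat.le_succ M)).trans le_sup_left
    · refine sup_le (D.Λ_le (by omega) _) (D.U_mono ?_)
      have : N * (q + 1) ≤ (M + 1) * (q + 1) := Nat.mul_le_mul_right _ (by omega)
      exact_mod_cast this

omit [IsFF k F'] [IsFF K Fm] in
theorem degree_E₀ (hα : Transcendental K (D.α D.j)) (hβ : Transcendental K (D.β D.j)) :
    Divisor.degree D.E₀ = 2 * ((q + 1) * D.ψ : ℕ) := by
  rw [E₀, map_add, degree_poleD hα, degree_poleD hβ, D.finrank_α, D.finrank_β]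
  ring

omit [IsFF K F] [IsFF k F'] [IsFF K Fm] in
theorem αj_transcendental (hq : 0 < q) : Transcendental K (D.α D.j) :=
  (D.good_xα.generic hq).transcendental

omit [IsFF K F] [IsFF k F'] [IsFF K Fm] in
theorem βj_transcendental (hq : 0 < q) : Transcendental K (D.β D.j) :=
  D.swap.αj_transcendental hq

omit [IsFF K F] [IsFF k F'] [IsFF K Fm] in
theorem ortho (hq : 0 < q) : D.R.Ortho := D.good_xα.ortho hq

instance (E : Divisor K F) : FiniteDimensional K (riemannRochSpace E) :=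
  finite_riemannRochSpace E

omit [IsFF K Fm] in
/-- The codimension of the reduction of `L(N E₀ + E)` (`deg E = 0`) is eventually constant. -/
theorem exists_codim (hq : 0 < q) : ∃ (t : ℤ) (N₀ : ℕ), ∀ (E : Divisor K F),
    Divisor.degree E = 0 → ∀ N : ℕ, N₀ ≤ N →
    (finrank k (D.U (N * (q + 1) : ℕ)) : ℤ) =
      finrank k (D.R.red (riemannRochSpace (N • D.E₀ + E))) + t := by
  obtain ⟨c, d₀, hRR⟩ := exists_RR K F
  obtain ⟨c', n₀, hU⟩ := exists_finrank_Lp (K := k) D.jb_transcendental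
  refine ⟨2 * c' - c, max d₀.toNat n₀, fun E hE N hN => ?_⟩
  rw [RedRing.finrank_red (D.ortho hq), D.finrank_U]
  have hψ := D.ψ_pos
  have hdeg : Divisor.degree (N • D.E₀ + E) = N * (2 * ((q + 1) * D.ψ : ℕ)) := by
    rw [map_add, hE, add_zero, map_nsmul, D.degree_E₀ (D.αj_transcendental hq)
      (D.βj_transcendental hq), nsmul_eq_mul]
  have h1 : (1 : ℤ) ≤ ((q + 1) * D.ψ : ℕ) := by
    have : 0 < (q + 1) * D.ψ := by positivity
    exact_mod_cast this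
  have hNd : d₀ ≤ N := (Int.self_le_toNat d₀).trans
    (by exact_mod_cast (le_max_left _ _).trans hN)
  have hN0 : (0 : ℤ) ≤ N := by positivity
  have h2 := hRR (N • D.E₀ + E) (by rw [hdeg]; nlinarith)
  rw [hdeg] at h2
  have h3 := hU (N * (q + 1) : ℕ) (by
    have : n₀ ≤ N := (le_max_right _ _).trans hN
    have h4 : N ≤ N * (q + 1) := Nat.le_mul_of_pos_right _ (by omega)
    exact_mod_cast this.trans h4)
  have h4 : finrank k⟮D.jb⟯ F' = D.ψ := D.finrank_F'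
  rw [h4] at h3
  rw [h2]
  push_cast at h3 ⊢
  rw [h3]
  ring

/-- `(⋃ Λ_M) ∩ U_N = Λ_N` for `N` large. -/
theorem exists_saturated (hq : 2 ≤ q) : ∃ N₂ : ℕ, ∀ N : ℕ, N₂ ≤ N → ∀ M : ℕ, N ≤ M →
    D.Λ M ⊓ D.U (N * (q + 1) : ℕ) = D.Λ N := by
  obtain ⟨N₁, h₁⟩ := D.exists_U_le hq
  obtain ⟨t, N₀, ht⟩ := D.exists_codim (by omega)
  refine ⟨max N₀ N₁, fun N hN M hM => ?_⟩
  have hN₀ : N₀ ≤ N := (le_max_left _ _).trans hN
  have hN₁ : N₁ ≤ N := (le_max_right _ _).trans hN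
  have h1 := h₁ N hN₁ M hM
  have e1 := ht 0 (map_zero _) N hN₀
  have e2 := ht 0 (map_zero _) M (hN₀.trans hM)
  rw [add_zero] at e1 e2
  have hfM : FiniteDimensional k (D.Λ M) := RedRing.finiteDimensional_red (D.ortho (by omega)) _
  have e3 := Submodule.finrank_sup_add_finrank_inf_eq (D.Λ M) (D.U (N * (q + 1) : ℕ))
  rw [← h1] at e3
  symm
  have hle : D.Λ N ≤ D.Λ M ⊓ D.U (N * (q + 1) : ℕ) :=
    le_inf (D.Λ_mono hM) (D.Λ_le (by omega) N)
  have : FiniteDimensional k (D.Λ M ⊓ D.U (N * (q + 1) : ℕ) : Submodule k (F' × F')) :=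
    Submodule.finiteDimensional_inf_right _ _
  apply Submodule.eq_of_le_of_finrank_eq hle
  change (_ : ℤ) = finrank k (D.Λ N) + t at e1
  change (_ : ℤ) = finrank k (D.Λ M) + t at e2
  have e4 : ((finrank k (D.U (M * (q + 1) : ℕ)) : ℕ) : ℤ) +
      (finrank k (D.Λ M ⊓ D.U (N * (q + 1) : ℕ) : Submodule k (F' × F')) : ℕ) =
      (finrank k (D.Λ M) : ℕ) + (finrank k (D.U (N * (q + 1) : ℕ)) : ℕ) := by
    rw [← Nat.cast_add, e3, Nat.cast_add]
  have : (finrank k (D.Λ N) : ℤ) =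
      finrank k (D.Λ M ⊓ D.U (N * (q + 1) : ℕ) : Submodule k (F' × F')) := by
    rw [e1, e2] at e4
    omega
  exact_mod_cast this

end Data

end Fermat.Agent.TwoComp
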