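import Fermat.Agent.TwoComp.Red
import Mathlib.LinearAlgebra.Determinant

/-!
# Lifting reductions to rational functions

`F₀ ⊆ F` is a subfield (the functions fixed by inertia) on which the reduction ring is discrete
with uniformizer `ϖ`. A finite dimensional space `V` with a basis of elements of `F₀` has an
orthonormal basis of elements of `F₀`; every reduction of an element of `V` is the reduction of an
element of `V ∩ F₀`.
-/

set_option autoImplicit false

open Module Polynomial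
open scoped IntermediateField

namespace Fermat.Agent.TwoComp

namespace RedRing

variable {K F k E : Type*} [Field K] [Field F] [Algebra K F] [Field k] [CommRing E]
  [Algebra k E]

/-- A subfield on which the reduction ring is discrete. -/
structure RatData (R : RedRing K F k E) where
  F₀ : Subfield F
  ϖ : K
  ϖ_ne_zero : ϖ ≠ 0
  ϖ_mem : algebraMap K F ϖ ∈ F₀
  ϖ_nonunit : ϖ ∈ R.A.nonunits
  arch : ∀ d : K, d ≠ 0 → ∃ n : ℕ, ϖ ^ n / d ∈ R.A
  res : ∀ c : k, ∃ a : R.A, algebraMap K F a ∈ F₀ ∧ R.res a = c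
  disc : ∀ f : R.O, (f : F) ∈ F₀ → R.ρ f = 0 → algebraMap K F ϖ⁻¹ * (f : F) ∈ R.O

namespace RatData

variable {R : RedRing K F k E} (X : R.RatData)

include X

theorem ϖ_memA : X.ϖ ∈ R.A := (R.A.nonunits_subset) X.ϖ_nonunit

theorem ϖ_inv_notMem : X.ϖ⁻¹ ∉ R.A := by
  intro h
  have h1 := X.ϖ_nonunit
  rw [ValuationSubring.mem_nonunits_iff] at h1
  rw [← ValuationSubring.valuation_le_one_iff, map_inv₀] at h
  have h0 : R.A.valuation X.ϖ ≠ 0 := (Valuation.ne_zero_iff _).mpr X.ϖ_ne_zero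
  have h2 := (inv_le_one₀ (zero_lt_iff.mpr h0)).mp h
  exact absurd h1 (not_lt.mpr h2)

theorem exists_pow_mul_mem (c : K) : ∃ N : ℕ, ∀ M, N ≤ M → X.ϖ ^ M * c ∈ R.A := by
  rcases eq_or_ne c 0 with rfl | hc
  · exact ⟨0, fun M _ => by rw [mul_zero]; exact R.A.zero_mem⟩
  obtain ⟨n, hn⟩ := X.arch c⁻¹ (inv_ne_zero hc)
  refine ⟨n, fun M hM => ?_⟩
  obtain ⟨d, rfl⟩ := Nat.exists_eq_add_of_le hM
  rw [div_inv_eq_mul] at hn
  have h1 : X.ϖ ^ (n + d) * c = X.ϖ ^ d * (X.ϖ ^ n * c) := by ring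
  rw [h1]
  exact R.A.mul_mem _ _ (pow_mem X.ϖ_memA d) hn

theorem exists_fixed_ortho (ho : R.Ortho) (V : Submodule K F) [FiniteDimensional K V]
    (g₀ : Basis (Fin (finrank K V)) K V) (hg₀ : ∀ i, ((g₀ i : V) : F) ∈ X.F₀) :
    ∃ (g : Fin (finrank K V) → V) (hg : ∀ i, ((g i : V) : F) ∈ R.O),
      (∀ i, ((g i : V) : F) ∈ X.F₀) ∧
      LinearIndependent k (fun i => R.ρ ⟨((g i : V) : F), hg i⟩) := by
  classical
  obtain ⟨e, he, hli⟩ := ho V
  -- coordinates
  have hcoord : ∀ v : V, (v : F) ∈ R.O → ∀ i, e.repr v i ∈ R.A := by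
    intro v hv i
    refine coord_mem (b := fun i => (⟨((e i : V) : F), he i⟩ : R.O)) hli (c := fun i => e.repr v i) ?_ i
    have h1 : ∑ i, e.repr v i • ((e i : V) : F) = (v : F) := by
      conv_rhs => rw [← e.sum_repr v]
      rw [Submodule.coe_sum]
      rfl
    rw [h1]
    exact hv
  have hcoord' : ∀ v : V, (∀ i, e.repr v i ∈ R.A) → (v : F) ∈ R.O := by
    intro v hv
    have h1 : (v : F) = ∑ i, algebraMap K F (e.repr v i) * ((e i : V) : F) := by
      conv_lhs => rw [← e.sum_repr v]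
      rw [Submodule.coe_sum]
      exact Finset.sum_congr rfl fun i _ => Algebra.smul_def _ _
    rw [h1]
    exact R.O.sum_mem fun i _ => R.O.mul_mem ((R.mem_O_iff _).mpr (hv i)) (he i)
  -- the property
  let P : ℕ → Prop := fun n => ∃ g : Fin (finrank K V) → V,
    (∀ i, ((g i : V) : F) ∈ X.F₀) ∧ (∀ i, ((g i : V) : F) ∈ R.O) ∧ e.det g ≠ 0 ∧
      X.ϖ ^ n / e.det g ∈ R.A
  have hP : ∃ n, P n := by
    choose N hN using fun p : Fin (finrank K V) × Fin (finrank K V) =>
      X.exists_pow_mul_mem (e.repr (g₀ p.1) p.2)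
    set M := Finset.univ.sup N with hM
    have hdet0 : e.det g₀ ≠ 0 := (e.isUnit_det g₀).ne_zero
    let g : Fin (finrank K V) → V := fun i => X.ϖ ^ M • g₀ i
    have hg1 : ∀ i, ((g i : V) : F) = algebraMap K F (X.ϖ ^ M) * ((g₀ i : V) : F) := fun i =>
      Algebra.smul_def _ _
    have hg2 : e.det g = (X.ϖ ^ M) ^ (finrank K V) * e.det g₀ := by
      have h1 := e.det.map_smul_univ (fun _ => X.ϖ ^ M) g₀
      rw [Finset.prod_const, Finset.card_univ, Fintype.card_fin, smul_eq_mul] at h1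
      exact h1
    have hg3 : e.det g ≠ 0 := by
      rw [hg2]
      exact mul_ne_zero (pow_ne_zero _ (pow_ne_zero _ X.ϖ_ne_zero)) hdet0
    obtain ⟨n, hn⟩ := X.arch _ hg3
    refine ⟨n, g, fun i => ?_, fun i => hcoord' _ fun l => ?_, hg3, hn⟩
    · rw [hg1, map_pow]
      exact mul_mem (pow_mem X.ϖ_mem M) (hg₀ i)
    · change e.repr (X.ϖ ^ M • g₀ i) l ∈ R.A
      rw [map_smul, Finsupp.smul_apply, smul_eq_mul]
      exact hN (i, l) M (Finset.le_sup (Finset.mem_univ (i, l)))
  obtain ⟨g, hgF, hgO, hdet, hn⟩ := Nat.find_spec hP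
  refine ⟨g, hgO, hgF, ?_⟩
  by_contra hdep
  rw [Fintype.not_linearIndependent_iff] at hdep
  obtain ⟨c, hc, i₀, hi₀⟩ := hdep
  choose a haF ha using X.res
  set h : R.O := ∑ i, R.algA (a (c i)) * ⟨((g i : V) : F), hgO i⟩ with hh
  have hρ : R.ρ h = 0 := by
    rw [hh, ρ_sum_smul]
    simp only [ha]
    exact hc
  have hhF : (h : F) ∈ X.F₀ := by
    rw [hh, AddSubmonoidClass.coe_finsetSum]
    exact sum_mem fun i _ => mul_mem (haF _) (hgF i)
  have hdisc := X.disc h hhF hρ
  -- the new vector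
  let x : V := ∑ i, (X.ϖ⁻¹ * (a (c i) : K)) • g i
  have hx : (x : F) = algebraMap K F X.ϖ⁻¹ * (h : F) := by
    change ((∑ i, (X.ϖ⁻¹ * (a (c i) : K)) • g i : V) : F) = _
    rw [Submodule.coe_sum, hh, AddSubmonoidClass.coe_finsetSum, Finset.mul_sum]
    refine Finset.sum_congr rfl fun i _ => ?_
    rw [Submodule.coe_smul, Algebra.smul_def, map_mul, mul_assoc]
    rfl
  have hxO : (x : F) ∈ R.O := by rw [hx]; exact hdisc
  have hxF : (x : F) ∈ X.F₀ := by
    rw [hx, map_inv₀]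
    exact mul_mem (X.F₀.inv_mem X.ϖ_mem) hhF
  have hdet' : e.det (Function.update g i₀ x) = X.ϖ⁻¹ * (a (c i₀) : K) * e.det g := by
    rw [Basis.det_apply, Basis.det_apply, Basis.toMatrix_update]
    have h1 : ⇑(e.repr x) =
        fun l => ∑ i, (X.ϖ⁻¹ * (a (c i) : K)) • e.toMatrix g l i := by
      funext l
      change e.repr (∑ i, (X.ϖ⁻¹ * (a (c i) : K)) • g i) l = _
      rw [map_sum, Finsupp.finsetSum_apply]
      refine Finset.sum_congr rfl fun i _ => ?_
      rw [map_smul, Finsupp.smul_apply]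
      rfl
    have h2 := Matrix.det_updateCol_sum (e.toMatrix g) i₀ (fun i => X.ϖ⁻¹ * (a (c i) : K))
    rw [smul_eq_mul] at h2
    rw [← h2]
    exact congrArg (fun y => ((e.toMatrix g).updateCol i₀ y).det) h1
  have haunit : (a (c i₀) : K)⁻¹ ∈ R.A := by
    have h1 : R.res (a (c i₀)) ≠ 0 := by rw [ha]; exact hi₀
    rw [ne_eq, R.res_eq_zero_iff, ValuationSubring.mem_nonunits_iff, not_lt] at h1
    rw [← ValuationSubring.valuation_le_one_iff, map_inv₀]
    exact inv_le_one_of_one_le₀ h1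
  have ha0 : (a (c i₀) : K) ≠ 0 := by
    intro h0
    have h1 : a (c i₀) = 0 := Subtype.ext h0
    apply hi₀
    rw [← ha (c i₀), h1, map_zero]
  have hO' : ∀ i, ((Function.update g i₀ x i : V) : F) ∈ R.O := by
    intro i
    rcases eq_or_ne i i₀ with rfl | hi
    · rw [Function.update_self]; exact hxO
    · rw [Function.update_of_ne hi]; exact hgO i
  have hF' : ∀ i, ((Function.update g i₀ x i : V) : F) ∈ X.F₀ := by
    intro i
    rcases eq_or_ne i i₀ with rfl | hi
    · rw [Function.update_self]; exact hxF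
    · rw [Function.update_of_ne hi]; exact hgF i
  have hd0 : e.det (Function.update g i₀ x) ≠ 0 := by
    rw [hdet']
    exact mul_ne_zero (mul_ne_zero (inv_ne_zero X.ϖ_ne_zero) ha0) hdet
  rcases Nat.eq_zero_or_pos (Nat.find hP) with h0 | hpos
  · -- the determinant is a unit
    rw [h0, pow_zero] at hn
    have h1 : e.det (Function.update g i₀ x) ∈ R.A := by
      rw [Basis.det_apply, Matrix.det_apply]
      refine sum_mem fun σ _ => ?_
      rw [Units.smul_def]
      exact zsmul_mem (prod_mem fun i _ => hcoord _ (hO' i) _) _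
    apply X.ϖ_inv_notMem
    have h2 : X.ϖ⁻¹ = e.det (Function.update g i₀ x) * (a (c i₀) : K)⁻¹ * (1 / e.det g) := by
      rw [hdet']
      field_simp
    rw [h2]
    exact R.A.mul_mem _ _ (R.A.mul_mem _ _ h1 haunit) hn
  · obtain ⟨m, hm⟩ := Nat.exists_eq_succ_of_ne_zero hpos.ne'
    refine Nat.find_min hP (m := m) (by omega) ⟨_, hF', hO', hd0, ?_⟩
    rw [hm] at hn
    have h2 : X.ϖ ^ m / e.det (Function.update g i₀ x) =
        X.ϖ ^ (m + 1) / e.det g * (a (c i₀) : K)⁻¹ := by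
      rw [hdet']
      have := X.ϖ_ne_zero
      field_simp
      rw [pow_succ]
    rw [h2]
    exact R.A.mul_mem _ _ hn haunit

/-- **Lifting of reductions to rational functions.** -/
theorem exists_fixed_lift (ho : R.Ortho) (V : Submodule K F) [FiniteDimensional K V]
    (g₀ : Basis (Fin (finrank K V)) K V) (hg₀ : ∀ i, ((g₀ i : V) : F) ∈ X.F₀) {w : E}
    (hw : w ∈ R.red V) :
    ∃ f : R.O, (f : F) ∈ V ∧ (f : F) ∈ X.F₀ ∧ R.ρ f = w := by
  classical
  obtain ⟨g, hgO, hgF, hli⟩ := X.exists_fixed_ortho ho V g₀ hg₀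
  have hle : Submodule.span k (Set.range fun i => R.ρ ⟨((g i : V) : F), hgO i⟩) ≤ R.red V := by
    rw [Submodule.span_le]
    rintro _ ⟨i, rfl⟩
    exact ⟨_, (g i).2, rfl⟩
  have hfd := finiteDimensional_red ho V
  have heq : Submodule.span k (Set.range fun i => R.ρ ⟨((g i : V) : F), hgO i⟩) = R.red V := by
    apply Submodule.eq_of_le_of_finrank_eq hle
    rw [finrank_span_eq_card hli, Fintype.card_fin, finrank_red ho]
  rw [← heq, Submodule.mem_span_range_iff_exists_fun] at hw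
  obtain ⟨c, hc⟩ := hw
  choose a haF ha using X.res
  refine ⟨∑ i, R.algA (a (c i)) * ⟨((g i : V) : F), hgO i⟩, ?_, ?_, ?_⟩
  · rw [AddSubmonoidClass.coe_finsetSum]
    refine Submodule.sum_mem _ fun i _ => ?_
    have h1 : ((R.algA (a (c i)) * ⟨((g i : V) : F), hgO i⟩ : R.O) : F) =
        (a (c i) : K) • ((g i : V) : F) := (Algebra.smul_def _ _).symm
    rw [h1]
    exact V.smul_mem _ (g i).2
  · rw [AddSubmonoidClass.coe_finsetSum]
    exact sum_mem fun i _ => mul_mem (haF _) (hgF i)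
  · rw [ρ_sum_smul]
    simp only [ha]
    exact hc

end RatData

end RedRing

end Fermat.Agent.TwoComp
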