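import Fermat.Agent.TwoComp.Affine

/-!
# Places attached to points of the affine curve
-/

set_option autoImplicit false
set_option linter.unusedSectionVars false

open AlgebraicCurve WithZero Module Polynomial IsDedekindDomain
open scoped IntermediateField
open Fermat.Agent.FF Fermat.Agent.Deuring Fermat.Agent.FFFund Fermat.Agent.FFOrb

namespace Fermat.Agent.TwoComp

variable {K F : Type*} [Field K] [Field F] [Algebra K F] [IsFF K F] {y : F}

section

variable (hy : Transcendental K y)
  (s : integralClosure (Algebra.adjoin K {y}) F →ₐ[K] K)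

/-- `y` in its affine ring. -/
noncomputable def yAff (y : F) : integralClosure (Algebra.adjoin K {y}) F :=
  ⟨y, isIntegral_algebraMap (x := (⟨y, Algebra.self_mem_adjoin_singleton K y⟩ :
    Algebra.adjoin K {y}))⟩

theorem isFractionRing_Aff (hy : Transcendental K y) :
    IsFractionRing (integralClosure (Algebra.adjoin K {y}) F) F := by
  have := IsFF.finite_adjoin y hy
  exact isFractionRing_BRing y

include hy in
theorem ker_ne_bot : RingHom.ker s ≠ ⊥ := by
  intro h
  have h1 : yAff y - algebraMap K _ (s (yAff y)) ∈ RingHom.ker s := by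
    rw [RingHom.mem_ker, map_sub, AlgHom.commutes]
    exact sub_self _
  rw [h, Ideal.mem_bot, sub_eq_zero] at h1
  have h2 : y = algebraMap K F (s (yAff y)) := congrArg Subtype.val h1
  apply hy
  rw [h2]
  exact isAlgebraic_algebraMap _

/-- The height one prime of a point. -/
noncomputable def hosOf : HeightOneSpectrum (integralClosure (Algebra.adjoin K {y}) F) where
  asIdeal := RingHom.ker s
  isPrime := RingHom.ker_isPrime s
  ne_bot := ker_ne_bot hy s

/-- The place of a point. -/
noncomputable def placeAt : Place K F :=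
  haveI := isDedekindDomain_Aff hy
  haveI := isFractionRing_Aff hy
  Place.ofHeightOneSpectrum (K := K) (F := F) (hosOf hy s)

theorem mem_placeAt (r : integralClosure (Algebra.adjoin K {y}) F) :
    (r : F) ∈ (placeAt hy s).toValuationSubring := by
  have := isDedekindDomain_Aff hy
  have := isFractionRing_Aff hy
  exact algebraMap_mem_ofHeightOneSpectrum (K := K) (F := F) (hosOf hy s) r

theorem val_placeAt_lt (r : integralClosure (Algebra.adjoin K {y}) F) :
    (placeAt hy s).adicValuation (r : F) < 1 ↔ s r = 0 := by
  have := isDedekindDomain_Aff hy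
  have := isFractionRing_Aff hy
  have h1 := centerHOS_ofHeightOneSpectrum (K := K) (F := F) (hosOf hy s)
  have h2 : r ∈ (hosOf hy s).asIdeal ↔ s r = 0 := RingHom.mem_ker
  rw [← h2]
  conv_rhs => rw [← h1]
  exact (mem_center_iff _ _ _ r).symm

theorem ord_placeAt_pos {r : integralClosure (Algebra.adjoin K {y}) F} (hr : (r : F) ≠ 0) :
    0 < (placeAt hy s).ord (r : F) ↔ s r = 0 := by
  rw [← val_placeAt_lt hy s r, Place.adicValuation_eq_exp_neg_ord _ hr, ← exp_zero, exp_lt_exp]
  omega

theorem ord_placeAt_nonneg (r : integralClosure (Algebra.adjoin K {y}) F) :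
    0 ≤ (placeAt hy s).ord (r : F) := by
  rcases eq_or_ne (r : F) 0 with h | h
  · rw [h]; simp
  · exact (mem_iff_ord_nonneg _ h).mp (mem_placeAt hy s r)

theorem ord_placeAt_y : 0 ≤ (placeAt hy s).ord y := ord_placeAt_nonneg hy s (yAff y)

theorem placeAt_injective : Function.Injective (placeAt (F := F) hy) := by
  intro s t h
  ext r
  have h1 : s (r - algebraMap K _ (s r)) = 0 := by
    rw [map_sub, AlgHom.commutes]; exact sub_self _
  rw [← val_placeAt_lt hy s, h, val_placeAt_lt hy t, map_sub, AlgHom.commutes, sub_eq_zero] at h1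
  exact h1.symm

/-- Every place where `y` is regular comes from a point. -/
theorem exists_placeAt [IsAlgClosed K] (v : Place K F) (hv : 0 ≤ v.ord y) :
    ∃ s, placeAt hy s = v := by
  have := isDedekindDomain_Aff hy
  have := isFractionRing_Aff hy
  have := finiteType_Aff hy
  have hy0 : y ≠ 0 := by rintro rfl; exact hy isAlgebraic_zero
  have hmem : ∀ b : integralClosure (Algebra.adjoin K {y}) F,
      algebraMap _ F b ∈ v.toValuationSubring :=
    fun b => mem_of_BRing y v ((mem_iff_ord_nonneg v hy0).mpr hv) b
  have hmax : (center _ v hmem).IsMaximal :=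
    (center_isPrime _ v hmem).isMaximal (center_ne_bot _ v hmem)
  have hres := FFFund.surjective_quotient (K := K) (center _ v hmem)
  let s : integralClosure (Algebra.adjoin K {y}) F →ₐ[K] K :=
    (AlgEquiv.ofBijective (Algebra.ofId K _)
      ⟨(algebraMap K (_ ⧸ center _ v hmem)).injective, hres⟩).symm.toAlgHom.comp
        (Ideal.Quotient.mkₐ K (center _ v hmem))
  have hker : RingHom.ker s = center _ v hmem := by
    ext r
    rw [RingHom.mem_ker]
    simp [s, Ideal.Quotient.eq_zero_iff_mem]
  refine ⟨s, ?_⟩
  apply place_eq_of_center_le (integralClosure (Algebra.adjoin K {y}) F) _ _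
    (fun b => mem_placeAt hy s b) hmem
  intro r hr
  have h1 := (val_placeAt_lt hy s r).mp ((mem_center_iff _ _ _ r).mp hr)
  rw [← hker, RingHom.mem_ker]
  exact h1

end

end Fermat.Agent.TwoComp
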