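import Fermat.Agent.TwoComp.Split
import Fermat.Agent.TwoComp.NodePlace

/-!
# Orders of the reductions of torsion functions: they are divisible by `n` off the nodes
-/

set_option autoImplicit false
set_option linter.unusedSectionVars false

open AlgebraicCurve WithZero Module Polynomial
open scoped IntermediateField
open Fermat.Agent.RR Fermat.Agent.Deuring Fermat.Agent.FF

namespace Fermat.Agent.TwoComp

section Ceil

/-- The ceiling of `a / n`. -/
def cl (n : ℕ) (a : ℤ) : ℤ := -((-a) / n)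

theorem cl_zero (n : ℕ) : cl n 0 = 0 := by simp [cl]

theorem cl_le_iff {n : ℕ} (hn : 0 < n) {a m : ℤ} : cl n a ≤ m ↔ a ≤ n * m := by
  have hn' : (0 : ℤ) < n := by exact_mod_cast hn
  rw [cl, neg_le, Int.le_ediv_iff_mul_le hn']
  constructor <;> intro h <;> linarith

theorem cl_of_dvd {n : ℕ} (hn : 0 < n) {a : ℤ} (h : (n : ℤ) ∣ a) : (n : ℤ) * cl n a = a := by
  obtain ⟨e, rfl⟩ := h
  have hn' : (n : ℤ) ≠ 0 := by exact_mod_cast hn.ne'
  rw [cl, ← mul_neg, Int.mul_ediv_cancel_left _ hn', neg_neg]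

theorem cl_lt_iff {n : ℕ} (hn : 0 < n) {a m : ℤ} (h : (n : ℤ) ∣ a) : cl n a < m ↔ a < n * m := by
  have hn' : (0 : ℤ) < n := by exact_mod_cast hn
  have h1 := cl_of_dvd hn h
  rw [← mul_lt_mul_iff_of_pos_left hn' (b := cl n a), h1]

theorem cl_add_cl_neg {n : ℕ} (hn : 0 < n) (a : ℤ) :
    cl n a + cl n (-a) = if (n : ℤ) ∣ a then 0 else 1 := by
  have hn' : (0 : ℤ) < n := by exact_mod_cast hn
  split_ifs with h
  · have h1 := cl_of_dvd hn h
    have h2 := cl_of_dvd hn ((dvd_neg).mpr h)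
    have h3 : (n : ℤ) * (cl n a + cl n (-a)) = 0 := by rw [mul_add, h1, h2]; ring
    exact (mul_eq_zero.mp h3).resolve_left hn'.ne'
  · have h1 : a ≤ n * cl n a := (cl_le_iff hn).mp le_rfl
    have h2 : -a ≤ n * cl n (-a) := (cl_le_iff hn).mp le_rfl
    have h3 : ¬ a ≤ n * (cl n a - 1) := fun h => by
      have := (cl_le_iff hn).mpr h; omega
    have h4 : ¬ -a ≤ n * (cl n (-a) - 1) := fun h => by
      have := (cl_le_iff hn).mpr h; omega
    have h5 : (n : ℤ) * cl n a ≠ a := fun h' => h ⟨_, h'.symm⟩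
    have h6 : (n : ℤ) * cl n (-a) ≠ -a := fun h' => h ((dvd_neg).mp ⟨_, h'.symm⟩)
    push Not at h3 h4
    have e1 : (n : ℤ) * (cl n a - 1) = n * cl n a - n := by ring
    have e2 : (n : ℤ) * (cl n (-a) - 1) = n * cl n (-a) - n := by ring
    rw [e1] at h3
    rw [e2] at h4
    have h7 : (0 : ℤ) < n * (cl n a + cl n (-a)) := by
      rw [mul_add]
      omega
    have h8 : (n : ℤ) * (cl n a + cl n (-a)) < n * 2 := by
      rw [mul_add]
      omega
    have h9 : 0 < cl n a + cl n (-a) := pos_of_mul_pos_right h7 hn'.le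
    have h10 : cl n a + cl n (-a) < 2 := lt_of_mul_lt_mul_left h8 hn'.le
    omega

end Ceil

section Div

variable {k F' : Type*} [Field k] [Field F'] [Algebra k F'] [IsFF k F']

/-- The divisor `⌈div g / n⌉`. -/
noncomputable def cdiv (n : ℕ) (g : F') : Divisor k F' :=
  (RR.div (K := k) g).mapRange (cl n) (cl_zero n)

theorem cdiv_apply (n : ℕ) (g : F') (v : Place k F') : cdiv n g v = cl n (v.ord g) := by
  rw [cdiv, Finsupp.mapRange_apply, div_apply]

/-- The reduced divisor of a finite set of places. -/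
noncomputable def indDiv (S : Finset (Place k F')) : Divisor k F' :=
  ∑ P ∈ S, Finsupp.single P 1

open Classical in
theorem indDiv_apply (S : Finset (Place k F')) (v : Place k F') :
    indDiv S v = if v ∈ S then 1 else 0 := by
  rw [indDiv, Finsupp.finsetSum_apply]
  simp only [Finsupp.single_apply]
  rw [Finset.sum_ite_eq' S v]

theorem degree_indDiv [IsAlgClosed k] (S : Finset (Place k F')) :
    Divisor.degree (indDiv S) = S.card := by
  rw [indDiv, map_sum]
  simp only [Divisor.degree_single, deg_eq_one]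
  simp

open Classical in
/-- The places where the order is not divisible by `n`. -/
noncomputable def bad (n : ℕ) (g : F') : Finset (Place k F') :=
  (RR.div (K := k) g).support.filter fun v => ¬ (n : ℤ) ∣ v.ord g

theorem mem_bad {n : ℕ} {g : F'} {v : Place k F'} : v ∈ bad n g ↔ ¬ (n : ℤ) ∣ v.ord g := by
  classical
  rw [bad, Finset.mem_filter, and_iff_right_iff_imp]
  intro h
  rw [Finsupp.mem_support_iff, div_apply]
  intro h0
  rw [h0] at h
  exact h (dvd_zero _)

theorem degree_cdiv_add [IsAlgClosed k] {n : ℕ} (hn : 0 < n) (g : F') :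
    Divisor.degree (cdiv (k := k) n g) + Divisor.degree (cdiv (k := k) n g⁻¹) =
      (bad (k := k) n g).card := by
  classical
  rw [← map_add, ← degree_indDiv]
  congr 1
  ext v
  rw [Finsupp.add_apply, cdiv_apply, cdiv_apply, v.ord_inv, cl_add_cl_neg hn, indDiv_apply]
  by_cases h : (n : ℤ) ∣ v.ord g
  · rw [if_pos h, if_neg (fun h' => mem_bad.mp h' h)]
  · rw [if_neg h, if_pos (mem_bad.mpr h)]

end Div

section LinAlg

/-- Codimension estimate. -/
theorem finrank_le_add {k V W : Type*} [Field k] [AddCommGroup V] [Module k V] [AddCommGroup W]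
    [Module k W] (f : V →ₗ[k] W) (M : Submodule k V) [FiniteDimensional k M] (L L' : Submodule k W)
    [FiniteDimensional k L] (hML : M.map f ≤ L) (hL : L' ≤ L) :
    finrank k M + finrank k L' ≤ finrank k (M ⊓ L'.comap f : Submodule k V) + finrank k L := by
  have : FiniteDimensional k L' := Submodule.finiteDimensional_of_le hL
  -- the map `M → L / L'`
  let g : M →ₗ[k] L := (f.comp M.subtype).codRestrict L fun x => hML ⟨x, x.2, rfl⟩
  let L'' : Submodule k L := L'.comap L.subtype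
  let h : M →ₗ[k] L ⧸ L'' := L''.mkQ.comp g
  have h1 := LinearMap.finrank_range_add_finrank_ker h
  have h2 : finrank k (LinearMap.range h) ≤ finrank k (L ⧸ L'') := Submodule.finrank_le _
  have h3 := Submodule.finrank_quotient_add_finrank L''
  have h4 : finrank k L'' = finrank k L' := (Submodule.comapSubtypeEquivOfLe hL).finrank_eq
  have h5 : LinearMap.ker h = (M ⊓ L'.comap f : Submodule k V).comap M.subtype := by
    ext x
    rw [LinearMap.mem_ker, Submodule.mem_comap, Submodule.mem_inf]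
    change L''.mkQ (g x) = 0 ↔ _
    rw [Submodule.mkQ_apply, Submodule.Quotient.mk_eq_zero]
    exact ⟨fun h => ⟨x.2, h⟩, fun h => h.2⟩
  have h6 : finrank k (LinearMap.ker h) = finrank k (M ⊓ L'.comap f : Submodule k V) := by
    rw [h5]
    exact (Submodule.comapSubtypeEquivOfLe inf_le_left).finrank_eq
  omega

/-- Products of subspaces. -/
def prodEquiv {k V W : Type*} [Field k] [AddCommGroup V] [Module k V] [AddCommGroup W]
    [Module k W] (L : Submodule k V) (L' : Submodule k W) : L.prod L' ≃ₗ[k] L × L' where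
  toFun w := (⟨w.1.1, w.2.1⟩, ⟨w.1.2, w.2.2⟩)
  invFun w := ⟨(w.1, w.2), w.1.2, w.2.2⟩
  map_add' _ _ := rfl
  map_smul' _ _ := rfl
  left_inv _ := rfl
  right_inv _ := rfl

end LinAlg

namespace Data

variable {K Fm F k F' : Type*} [Field K] [Field Fm] [Algebra K Fm] [Field F]
    [Algebra K F] [Field k] [Field F'] [Algebra k F'] {q : ℕ} (D : Data K Fm F k F' q)

/-- `n E = div φ` with both reductions of `φ` nonzero. -/
structure PreTor (n : ℕ) (E : Divisor K F) (φ : D.R.O) : Prop where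
  deg : Divisor.degree E = 0
  fst : (D.R.ρ φ).1 ≠ 0
  snd : (D.R.ρ φ).2 ≠ 0
  ord : ∀ v : Place K F, v.ord (φ : F) = n * E v

variable {D}

namespace PreTor

variable {n : ℕ} {E : Divisor K F} {φ : D.R.O}

theorem ne_zero (h : D.PreTor n E φ) : (φ : F) ≠ 0 := by
  intro h0
  have h1 : φ = 0 := Subtype.ext h0
  have h2 := h.fst
  rw [h1, map_zero] at h2
  exact h2 rfl

theorem inv_mem (h : D.PreTor n E φ) : (φ : F)⁻¹ ∈ D.R.O :=
  D.R.inv_mem φ (Prod.isUnit_iff.mpr ⟨IsUnit.mk0 _ h.fst, IsUnit.mk0 _ h.snd⟩)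

theorem ρ_inv (h : D.PreTor n E φ) :
    D.R.ρ ⟨(φ : F)⁻¹, h.inv_mem⟩ = ((D.R.ρ φ).1⁻¹, (D.R.ρ φ).2⁻¹) := by
  have h1 : D.R.ρ φ * D.R.ρ ⟨(φ : F)⁻¹, h.inv_mem⟩ = 1 := by
    rw [← map_mul, ← map_one D.R.ρ]
    exact congrArg D.R.ρ (Subtype.ext (mul_inv_cancel₀ h.ne_zero))
  exact Prod.ext (eq_inv_of_mul_eq_one_right (congrArg Prod.fst h1))
    (eq_inv_of_mul_eq_one_right (congrArg Prod.snd h1))

theorem inv (h : D.PreTor n E φ) : D.PreTor n (-E) ⟨(φ : F)⁻¹, h.inv_mem⟩ where
  deg := by rw [map_neg, h.deg, neg_zero]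
  fst := by rw [h.ρ_inv]; exact inv_ne_zero h.fst
  snd := by rw [h.ρ_inv]; exact inv_ne_zero h.snd
  ord v := by
    change v.ord ((φ : F)⁻¹) = _
    rw [v.ord_inv, h.ord, Finsupp.neg_apply]
    ring

theorem swap (h : D.PreTor n E φ) :
    D.swap.PreTor n E ⟨φ, φ.2.2, φ.2.1⟩ where
  deg := h.deg
  fst := h.snd
  snd := h.fst
  ord := h.ord

variable [IsFF K F]

theorem pow_mem (h : D.PreTor n E φ) {N : ℕ} {w : F' × F'} (hw : w ∈ D.M E N) :
    (w.1 ^ n * (D.R.ρ φ).1⁻¹, w.2 ^ n * (D.R.ρ φ).2⁻¹) ∈ D.Λ (n * N) := by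
  obtain ⟨f, hf, rfl⟩ := hw
  refine ⟨f ^ n * ⟨(φ : F)⁻¹, h.inv_mem⟩, ?_, by rw [map_mul, map_pow, h.ρ_inv]; rfl⟩
  change (f : F) ^ n * (φ : F)⁻¹ ∈ _
  rcases eq_or_ne (f : F) 0 with hf0 | hf0
  · rcases Nat.eq_zero_or_pos n with rfl | hn
    · rw [pow_zero, one_mul, mem_L_iff (inv_ne_zero h.ne_zero)]
      intro v
      rw [v.ord_inv, h.ord]
      simp
    · rw [hf0, zero_pow hn.ne', zero_mul]
      exact Submodule.zero_mem _
  · rw [mem_L_iff hf0] at hf
    rw [mem_L_iff (mul_ne_zero (pow_ne_zero n hf0) (inv_ne_zero h.ne_zero))]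
    intro v
    have h1 := hf v
    rw [Finsupp.sub_apply, Finsupp.smul_apply, nsmul_eq_mul] at h1
    rw [v.ord_mul (pow_ne_zero n hf0) (inv_ne_zero h.ne_zero), ord_pow, v.ord_inv, h.ord,
      Finsupp.smul_apply, nsmul_eq_mul]
    have h2 : (0 : ℤ) ≤ n := Int.natCast_nonneg n
    push_cast
    nlinarith

end PreTor

/-- Codimension of the reductions is the number of nodes. -/
theorem NodeSet.exists_codim_card [IsFF K F] [IsFF k F'] [IsFF K Fm] (T : D.NodeSet)
    (hq : 2 ≤ q) : ∃ N₀ : ℕ, ∀ (E : Divisor K F), Divisor.degree E = 0 → ∀ N : ℕ, N₀ ≤ N →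
      finrank k (D.U (N * (q + 1) : ℕ)) = finrank k (D.M E N) + T.Nd.card := by
  obtain ⟨n₁, h₁⟩ := T.finrank_Uz
  obtain ⟨N₂, h₂⟩ := T.exists_Λ_eq hq
  obtain ⟨t, N₀, ht⟩ := D.exists_codim (by omega)
  have htc : t = T.Nd.card := by
    set N := max (max n₁ N₂) N₀
    have e1 := h₁ (fun _ => 1) N (by omega)
    have e2 := ht 0 (map_zero _) N (by omega)
    rw [add_zero] at e2
    change (_ : ℤ) = finrank k (D.Λ N) + t at e2
    rw [h₂ N (by omega), e1] at e2
    push_cast at e2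
    linarith
  refine ⟨N₀, fun E hE N hN => ?_⟩
  have e2 := ht (-E) (by rw [map_neg, hE, neg_zero]) N hN
  rw [← sub_eq_add_neg] at e2
  change (_ : ℤ) = finrank k (D.M E N) + t at e2
  rw [htc] at e2
  exact_mod_cast e2

end Data

end Fermat.Agent.TwoComp
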