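import Fermat.Agent.TwoComp.Full1

/-!
# Orders of the reductions of torsion functions, continued: the dimension count
-/

set_option autoImplicit false
set_option linter.unusedSectionVars false

open AlgebraicCurve WithZero Module Polynomial
open scoped IntermediateField
open Fermat.Agent.RR Fermat.Agent.Deuring Fermat.Agent.FF

namespace Fermat.Agent.TwoComp

namespace Data

variable {K Fm F k F' : Type*} [Field K] [Field Fm] [Algebra K Fm] [Field F]
    [Algebra K F] [Field k] [Field F'] [Algebra k F'] {q : ℕ} {D : Data K Fm F k F' q}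
    [IsFF K F] [IsFF k F']

variable (D) in
/-- The place attached to a point of the affine curve. -/
noncomputable def pl (s : D.Rb →ₐ[k] k) : Place k F' := placeAt D.jb_transcendental s

theorem pl_injective : Function.Injective D.pl := placeAt_injective D.jb_transcendental

theorem ord_pl_jb (s : D.Rb →ₐ[k] k) : 0 ≤ (D.pl s).ord D.jb :=
  ord_placeAt_y D.jb_transcendental s

theorem ord_pl_pos (s : D.Rb →ₐ[k] k) {r : D.Rb} (hr : (r : F') ≠ 0) :
    0 < (D.pl s).ord (r : F') ↔ s r = 0 := ord_placeAt_pos D.jb_transcendental s hr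

namespace PreTor

variable {n : ℕ} {E : Divisor K F} {φ : D.R.O}

theorem le_ord₁ (h : D.PreTor n E φ) (hq : 0 < q) (hn : 0 < n) {N : ℕ} {w : F' × F'}
    (hw : w ∈ D.M E N) (h0 : w.1 ≠ 0) (v : Place k F') :
    cl n (v.ord (D.R.ρ φ).1) ≤ v.ord w.1 + (N * (q + 1) : ℕ) * max (-v.ord D.jb) 0 := by
  rw [cl_le_iff hn]
  have h1 := (D.Λ_le hq _ (h.pow_mem hw)).1
  have hne : w.1 ^ n * (D.R.ρ φ).1⁻¹ ≠ 0 := mul_ne_zero (pow_ne_zero n h0) (inv_ne_zero h.fst)
  have h2 := (mem_Lp' hne).mp h1 v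
  rw [v.ord_mul (pow_ne_zero n h0) (inv_ne_zero h.fst), ord_pow, v.ord_inv] at h2
  push_cast at h2 ⊢
  nlinarith

theorem le_ord₂ (h : D.PreTor n E φ) (hq : 0 < q) (hn : 0 < n) {N : ℕ} {w : F' × F'}
    (hw : w ∈ D.M E N) (h0 : w.2 ≠ 0) (v : Place k F') :
    cl n (v.ord (D.R.ρ φ).2) ≤ v.ord w.2 + (N * (q + 1) : ℕ) * max (-v.ord D.jb) 0 := by
  rw [cl_le_iff hn]
  have h1 := (D.Λ_le hq _ (h.pow_mem hw)).2
  have hne : w.2 ^ n * (D.R.ρ φ).2⁻¹ ≠ 0 := mul_ne_zero (pow_ne_zero n h0) (inv_ne_zero h.snd)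
  have h2 := (mem_Lp' hne).mp h1 v
  rw [v.ord_mul (pow_ne_zero n h0) (inv_ne_zero h.snd), ord_pow, v.ord_inv] at h2
  push_cast at h2 ⊢
  nlinarith

theorem eval_zero_iff {n : ℕ} (hn : 0 < n) {w g : F'} (hg : g ≠ 0)
    (hm : w ^ n * g⁻¹ ∈ integralClosure (Algebra.adjoin k {D.jb}) F') (s : D.Rb →ₐ[k] k) :
    s ⟨w ^ n * g⁻¹, hm⟩ = 0 ↔ w = 0 ∨ (D.pl s).ord g < n * (D.pl s).ord w := by
  rcases eq_or_ne w 0 with rfl | hw
  · simp only [true_or, iff_true]
    have : (⟨0 ^ n * g⁻¹, hm⟩ : D.Rb) = 0 := Subtype.ext (by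
      change 0 ^ n * g⁻¹ = 0
      rw [zero_pow hn.ne', zero_mul])
    rw [this, map_zero]
  · have hne : w ^ n * g⁻¹ ≠ 0 := mul_ne_zero (pow_ne_zero n hw) (inv_ne_zero hg)
    rw [← ord_pl_pos s (r := ⟨w ^ n * g⁻¹, hm⟩) hne]
    change 0 < (D.pl s).ord (w ^ n * g⁻¹) ↔ _
    rw [(D.pl s).ord_mul (pow_ne_zero n hw) (inv_ne_zero hg), ord_pow, (D.pl s).ord_inv]
    constructor
    · intro h; right; linarith
    · rintro (h | h)
      · exact absurd h hw
      · linarith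

/-- The relation at a node. -/
theorem node_iff (h : D.PreTor n E φ) (T : D.NodeSet) (hq : 0 < q) (hn : 0 < n) {N : ℕ}
    {w : F' × F'} (hw : w ∈ D.M E N) {s : D.Rb →ₐ[k] k} (hs : s ∈ T.Nd) :
    (w.1 = 0 ∨ (D.pl s).ord (D.R.ρ φ).1 < n * (D.pl s).ord w.1) ↔
      (w.2 = 0 ∨ (D.pl (s.comp D.Vb)).ord (D.R.ρ φ).2 < n * (D.pl (s.comp D.Vb)).ord w.2) := by
  have h0 := h.pow_mem hw
  have h1 := D.Λ_le hq _ h0
  have hm₁ := mem_of_mem_Lp h1.1
  have hm₂ := mem_of_mem_Lp h1.2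
  rw [← eval_zero_iff hn h.fst hm₁ s, ← eval_zero_iff hn h.snd hm₂ (s.comp D.Vb)]
  have h2 : ((⟨_, hm₁⟩ : D.Rb), (⟨_, hm₂⟩ : D.Rb)) ∈ D.S := ⟨_, h0⟩
  have h3 := (T.mem_S_iff _ _).mp h2 s hs
  rw [h3]
  rfl

end PreTor

namespace NodeSet

variable (T : D.NodeSet)

open Classical in
/-- The nodes where both orders are not divisible by `n`. -/
noncomputable def badNd (n : ℕ) (g₁ g₂ : F') : Finset (D.Rb →ₐ[k] k) :=
  T.Nd.filter fun s => ¬ (n : ℤ) ∣ (D.pl s).ord g₁ ∧ ¬ (n : ℤ) ∣ (D.pl (s.comp D.Vb)).ord g₂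

theorem comp_Vb_injOn : Set.InjOn (fun s : D.Rb →ₐ[k] k => s.comp D.Vb) T.Nd := by
  intro s hs t ht h
  have h1 : (s.comp D.Vb).comp D.Vb = (t.comp D.Vb).comp D.Vb := congrArg (fun u => u.comp D.Vb) h
  rw [AlgHom.comp_assoc, AlgHom.comp_assoc, T.comp_VV s hs, T.comp_VV t ht] at h1
  exact h1

/-- **The count.** -/
theorem count [IsFF K Fm] [IsAlgClosed k] (hq : 2 ≤ q) {n : ℕ} (hn : 0 < n) {E : Divisor K F}
    {φ : D.R.O} (h : D.PreTor n E φ) :
    Divisor.degree (cdiv (k := k) n (D.R.ρ φ).1) + Divisor.degree (cdiv (k := k) n (D.R.ρ φ).2) ≤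
      (T.badNd n (D.R.ρ φ).1 (D.R.ρ φ).2).card := by
  classical
  obtain ⟨N₀, h₀⟩ := T.exists_codim_card hq
  obtain ⟨c, d₀, hRR⟩ := exists_RR k F'
  set φ₁ := (D.R.ρ φ).1 with hφ₁
  set φ₂ := (D.R.ρ φ).2 with hφ₂
  set C₁ : Divisor k F' := cdiv n φ₁ with hC₁
  set C₂ : Divisor k F' := cdiv n φ₂ with hC₂
  set Nd₁ := T.Nd.filter fun s => (n : ℤ) ∣ (D.pl s).ord φ₁ with hNd₁
  set Nd₂ := T.Nd.filter fun s => (n : ℤ) ∣ (D.pl (s.comp D.Vb)).ord φ₂ with hNd₂
  set P₁ := Nd₁.image D.pl with hP₁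
  set P₂ := Nd₂.image fun s => D.pl (s.comp D.Vb) with hP₂
  set P₁₂ := (Nd₁ ∩ Nd₂).image D.pl with hP₁₂
  have hcard₁ : P₁.card = Nd₁.card := Finset.card_image_of_injective _ pl_injective
  have hcard₁₂ : P₁₂.card = (Nd₁ ∩ Nd₂).card := Finset.card_image_of_injective _ pl_injective
  have hcard₂ : P₂.card = Nd₂.card := by
    apply Finset.card_image_of_injOn
    intro s hs t ht hst
    exact T.comp_Vb_injOn (Finset.mem_filter.mp hs).1 (Finset.mem_filter.mp ht).1
      (pl_injective hst)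
  -- the number of bad nodes
  have hbad : (T.badNd n φ₁ φ₂).card + (Nd₁ ∪ Nd₂).card = T.Nd.card := by
    have hU : Nd₁ ∪ Nd₂ = T.Nd.filter fun s => ¬ (¬ (n : ℤ) ∣ (D.pl s).ord φ₁ ∧
        ¬ (n : ℤ) ∣ (D.pl (s.comp D.Vb)).ord φ₂) := by
      rw [hNd₁, hNd₂, ← Finset.filter_or]
      apply Finset.filter_congr
      intro s _
      tauto
    rw [hU, badNd, Finset.card_filter_add_card_filter_not]
  have hunion := Finset.card_union_add_card_inter Nd₁ Nd₂
  have hψ := D.ψ_pos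
  -- choose `N`
  set B : ℕ := d₀.natAbs + (Divisor.degree C₁).natAbs + (Divisor.degree C₂).natAbs +
    P₁.card + P₂.card + P₁₂.card with hB
  set N := max N₀ B with hN
  have hNB : B ≤ N := le_max_right _ _
  have hN1 : (N : ℤ) ≤ ((N * (q + 1) : ℕ) : ℤ) * D.ψ := by
    have h1 : 1 ≤ (q + 1) * D.ψ := by
      have : 0 < (q + 1) * D.ψ := by positivity
      omega
    have h2 : N * 1 ≤ N * ((q + 1) * D.ψ) := Nat.mul_le_mul_left _ h1
    have h3 : N ≤ N * (q + 1) * D.ψ := by rw [mul_assoc]; simpa using h2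
    exact_mod_cast h3
  have hNB' : (B : ℤ) ≤ N := by exact_mod_cast hNB
  have hd₀ : d₀ ≤ d₀.natAbs := Int.le_natAbs
  have hdC₁ : Divisor.degree C₁ ≤ (Divisor.degree C₁).natAbs := Int.le_natAbs
  have hdC₂ : Divisor.degree C₂ ≤ (Divisor.degree C₂).natAbs := Int.le_natAbs
  have hBz : (B : ℤ) = d₀.natAbs + (Divisor.degree C₁).natAbs + (Divisor.degree C₂).natAbs +
    P₁.card + P₂.card + P₁₂.card := by rw [hB]; push_cast; ring
  set A : Divisor k F' := ((N * (q + 1) : ℕ) : ℤ) • poleD D.jb with hA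
  have hdA : Divisor.degree A = ((N * (q + 1) : ℕ) : ℤ) * D.ψ := by
    rw [hA, map_zsmul, degree_poleD D.jb_transcendental, smul_eq_mul]
    congr 1
    exact_mod_cast D.finrank_F'
  have e₀ := h₀ E h.deg N (le_max_left _ _)
  rw [D.finrank_U] at e₀
  have hA0 : (0 : ℤ) ≤ P₁.card := Int.natCast_nonneg _
  have hA1 : (0 : ℤ) ≤ P₂.card := Int.natCast_nonneg _
  have hA2 : (0 : ℤ) ≤ P₁₂.card := Int.natCast_nonneg _
  have hA3 : (0 : ℤ) ≤ (Divisor.degree C₁).natAbs := Int.natCast_nonneg _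
  have hA4 : (0 : ℤ) ≤ (Divisor.degree C₂).natAbs := Int.natCast_nonneg _
  have e₁ := hRR A (by rw [hdA]; linarith)
  have d₁ : Divisor.degree (A - C₁) = ((N * (q + 1) : ℕ) : ℤ) * D.ψ - Divisor.degree C₁ := by
    rw [map_sub, hdA]
  have d₂ : Divisor.degree (A - C₁ - indDiv P₁₂) =
      ((N * (q + 1) : ℕ) : ℤ) * D.ψ - Divisor.degree C₁ - P₁₂.card := by
    rw [map_sub, d₁, degree_indDiv]
  have d₃ : Divisor.degree (A - C₁ - indDiv P₁) =
      ((N * (q + 1) : ℕ) : ℤ) * D.ψ - Divisor.degree C₁ - P₁.card := by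
    rw [map_sub, d₁, degree_indDiv]
  have d₄ : Divisor.degree (A - C₂ - indDiv P₂) =
      ((N * (q + 1) : ℕ) : ℤ) * D.ψ - Divisor.degree C₂ - P₂.card := by
    rw [map_sub, map_sub, hdA, degree_indDiv]
  have e₂ := hRR (A - C₁) (by rw [d₁]; linarith)
  have e₃ := hRR (A - C₁ - indDiv P₁₂) (by rw [d₂]; linarith)
  have e₄ := hRR (A - C₁ - indDiv P₁) (by rw [d₃]; linarith)
  have e₅ := hRR (A - C₂ - indDiv P₂) (by rw [d₄]; linarith)
  rw [hdA] at e₁
  rw [d₁] at e₂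
  rw [d₂] at e₃
  rw [d₃] at e₄
  rw [d₄] at e₅
  have e₁' : (finrank k (Lp (K := k) D.jb ((N * (q + 1) : ℕ) : ℤ)) : ℤ) =
    ((N * (q + 1) : ℕ) : ℤ) * D.ψ + c := e₁
  have hq0 : 0 < q := by omega
  -- membership
  have hA_apply : ∀ v : Place k F', A v = (N * (q + 1) : ℕ) * max (-v.ord D.jb) 0 := by
    intro v
    rw [hA, Finsupp.smul_apply, poleD_apply, smul_eq_mul]
  have hA_pl : ∀ s, A (D.pl s) = 0 := by
    intro s
    rw [hA_apply, max_eq_right (by have := ord_pl_jb (D := D) s; omega), mul_zero]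
  have hFD : FiniteDimensional k (D.M E N) := RedRing.finiteDimensional_red (D.ortho hq0) _
  have hmap : (D.M E N).map (LinearMap.fst k F' F') ≤ riemannRochSpace (A - C₁) := by
    rintro _ ⟨w, hw, rfl⟩
    change w.1 ∈ _
    rcases eq_or_ne w.1 0 with h0 | h0
    · rw [h0]; exact Submodule.zero_mem _
    rw [mem_L_iff h0]
    intro v
    rw [Finsupp.sub_apply, hA_apply, hC₁, cdiv_apply]
    have := h.le_ord₁ hq0 hn hw h0 v
    rw [← hφ₁] at this
    linarith
  have hLle : riemannRochSpace (A - C₁ - indDiv P₁₂) ≤ riemannRochSpace (A - C₁) := by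
    apply L_mono
    intro v
    rw [Finsupp.sub_apply, indDiv_apply]
    split_ifs <;> omega
  have key₁ := finrank_le_add (LinearMap.fst k F' F') (D.M E N) _ _ hmap hLle
  set M' := (D.M E N ⊓ (riemannRochSpace (A - C₁ - indDiv P₁₂)).comap (LinearMap.fst k F' F') :
    Submodule k (F' × F')) with hM'
  -- vanishing at the good nodes
  have hvan : ∀ w ∈ M', ∀ s ∈ Nd₁ ∪ Nd₂,
      (w.1 = 0 ∨ (D.pl s).ord φ₁ < n * (D.pl s).ord w.1) := by
    intro w hw s hs
    have hsT : s ∈ T.Nd := by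
      rcases Finset.mem_union.mp hs with h' | h'
      · exact (Finset.mem_filter.mp h').1
      · exact (Finset.mem_filter.mp h').1
    by_cases h1 : s ∈ Nd₁
    · by_cases h2 : s ∈ Nd₂
      · rcases eq_or_ne w.1 0 with h0 | h0
        · exact Or.inl h0
        right
        have h3 := (mem_L_iff h0).mp hw.2 (D.pl s)
        have h4 : D.pl s ∈ P₁₂ := Finset.mem_image_of_mem _ (Finset.mem_inter.mpr ⟨h1, h2⟩)
        rw [Finsupp.sub_apply, Finsupp.sub_apply, hA_pl, indDiv_apply, if_pos h4, hC₁,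
          cdiv_apply] at h3
        exact (cl_lt_iff hn (Finset.mem_filter.mp h1).2).mp (by omega)
      · rw [h.node_iff T hq0 hn hw.1 hsT]
        rcases eq_or_ne w.2 0 with h0 | h0
        · exact Or.inl h0
        right
        have h3 : ¬ (n : ℤ) ∣ (D.pl (s.comp D.Vb)).ord φ₂ := fun h' =>
          h2 (Finset.mem_filter.mpr ⟨hsT, h'⟩)
        have h4 := (cl_le_iff hn).mp (h.le_ord₂ hq0 hn hw.1 h0 (D.pl (s.comp D.Vb)))
        rw [max_eq_right (by have := ord_pl_jb (D := D) (s.comp D.Vb); omega), mul_zero,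
          add_zero] at h4
        refine lt_of_le_of_ne h4 fun h5 => h3 ?_
        exact ⟨_, h5⟩
    · have h2 : s ∈ Nd₂ := (Finset.mem_union.mp hs).resolve_left h1
      rcases eq_or_ne w.1 0 with h0 | h0
      · exact Or.inl h0
      right
      have h3 : ¬ (n : ℤ) ∣ (D.pl s).ord φ₁ := fun h' => h1 (Finset.mem_filter.mpr ⟨hsT, h'⟩)
      have h4 := (cl_le_iff hn).mp (h.le_ord₁ hq0 hn hw.1 h0 (D.pl s))
      rw [max_eq_right (by have := ord_pl_jb (D := D) s; omega), mul_zero, add_zero] at h4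
      refine lt_of_le_of_ne h4 fun h5 => h3 ?_
      exact ⟨_, h5⟩
  have hM'le : M' ≤ (riemannRochSpace (A - C₁ - indDiv P₁)).prod
      (riemannRochSpace (A - C₂ - indDiv P₂)) := by
    intro w hw
    constructor
    · rcases eq_or_ne w.1 0 with h0 | h0
      · rw [h0]; exact Submodule.zero_mem _
      rw [SetLike.mem_coe, mem_L_iff h0]
      intro v
      rw [Finsupp.sub_apply, Finsupp.sub_apply, indDiv_apply, hC₁, cdiv_apply]
      split_ifs with hv
      · obtain ⟨s, hs, rfl⟩ := Finset.mem_image.mp hv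
        rw [hA_pl]
        have h1 := (hvan w hw s (Finset.mem_union_left _ hs)).resolve_left h0
        have h2 := (cl_lt_iff hn (Finset.mem_filter.mp hs).2).mpr h1
        omega
      · have := h.le_ord₁ hq0 hn hw.1 h0 v
        rw [hA_apply]
        rw [← hφ₁] at this
        linarith
    · rcases eq_or_ne w.2 0 with h0 | h0
      · rw [h0]; exact Submodule.zero_mem _
      rw [SetLike.mem_coe, mem_L_iff h0]
      intro v
      rw [Finsupp.sub_apply, Finsupp.sub_apply, indDiv_apply, hC₂, cdiv_apply]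
      split_ifs with hv
      · obtain ⟨s, hs, rfl⟩ := Finset.mem_image.mp hv
        rw [hA_pl]
        have h1 := hvan w hw s (Finset.mem_union_right _ hs)
        rw [h.node_iff T hq0 hn hw.1 (Finset.mem_filter.mp hs).1] at h1
        have h2 := (cl_lt_iff hn (Finset.mem_filter.mp hs).2).mpr (h1.resolve_left h0)
        omega
      · have := h.le_ord₂ hq0 hn hw.1 h0 v
        rw [hA_apply]
        rw [← hφ₂] at this
        linarith
  have key₂ : finrank k M' ≤ finrank k (riemannRochSpace (A - C₁ - indDiv P₁)) +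
      finrank k (riemannRochSpace (A - C₂ - indDiv P₂)) := by
    have h0 : Module.Finite k ((riemannRochSpace (A - C₁ - indDiv P₁)).prod
        (riemannRochSpace (A - C₂ - indDiv P₂)) : Submodule k (F' × F')) :=
      Module.Finite.equiv (prodEquiv _ _).symm
    have h1 := Submodule.finrank_mono hM'le
    have h2 : finrank k ((riemannRochSpace (A - C₁ - indDiv P₁)).prod
        (riemannRochSpace (A - C₂ - indDiv P₂)) : Submodule k (F' × F')) =
        finrank k (riemannRochSpace (A - C₁ - indDiv P₁)) +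
        finrank k (riemannRochSpace (A - C₂ - indDiv P₂)) := by
      rw [← Module.finrank_prod]
      exact (prodEquiv _ _).finrank_eq
    omega
  have e₀' : 2 * (finrank k (Lp (K := k) D.jb ((N * (q + 1) : ℕ) : ℤ)) : ℤ) =
    (finrank k (D.M E N) : ℤ) + T.Nd.card := by exact_mod_cast e₀
  rw [e₁'] at e₀'
  zify at key₁ key₂ hbad hunion hcard₁ hcard₂ hcard₁₂
  rw [e₂, e₃] at key₁
  rw [e₄, e₅] at key₂
  linarith

end NodeSet

end Data

end Fermat.Agent.TwoComp
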