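import Fermat.Agent.TwoComp.Twist
import Fermat.Agent.QX.Divisors

/-!
# Gluing data of torsion classes, continued: existence, uniqueness, additivity, injectivity
-/

set_option autoImplicit false
set_option linter.unusedSectionVars false

open AlgebraicCurve WithZero Module Polynomial
open scoped IntermediateField
open Fermat.Agent.RR Fermat.Agent.Deuring Fermat.Agent.FF

namespace Fermat.Agent.TwoComp

namespace Data

variable {K Fm F k F' : Type*} [Field K] [Field Fm] [Algebra K Fm] [Field F]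
    [Algebra K F] [Field k] [Field F'] [Algebra k F'] {q : ℕ} {D : Data K Fm F k F' q}

variable [IsFF K F] [IsFF k F']

namespace NodeSet

variable (T : D.NodeSet)

/-- `Λ N` is cut out by the nodes, for `N` large. -/
theorem exists_Λ_eq [IsFF K Fm] (hq : 2 ≤ q) : ∃ N₂ : ℕ, ∀ N : ℕ, N₂ ≤ N →
    D.Λ N = T.Uz (fun _ => 1) N := by
  obtain ⟨N₂, h₂⟩ := D.exists_saturated hq
  refine ⟨N₂, fun N hN => le_antisymm ?_ ?_⟩
  · intro w hw
    have hU := D.Λ_le (by omega) N hw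
    refine ⟨hU, ⟨w.1, mem_of_mem_Lp hU.1⟩, ⟨w.2, mem_of_mem_Lp hU.2⟩, rfl, fun s hs => ?_⟩
    rw [one_mul]
    exact (T.mem_S_iff _ _).mp ⟨N, hw⟩ s hs
  · rintro _ ⟨hU, a, b, rfl, hab⟩
    obtain ⟨M, hM⟩ : (a, b) ∈ D.S := (T.mem_S_iff _ _).mpr fun s hs => by
      rw [hab s hs, one_mul]
    rw [← h₂ N hN (max M N) (le_max_right _ _)]
    exact ⟨D.Λ_mono (le_max_left _ _) hM, hU⟩

/-- Witnesses for the gluing data. -/
theorem exists_wit : ∃ N₁ : ℕ, ∀ ζ : (D.Rb →ₐ[k] k) → k, ∃ r : D.Rb, (∀ s ∈ T.Nd, s r = ζ s) ∧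
    ∀ N : ℕ, N₁ ≤ N → ((r : F'), ((1 : D.Rb) : F')) ∈ T.Uz ζ N := by
  obtain ⟨n₁, h₁⟩ := T.exists_bound
  refine ⟨n₁, fun ζ => ?_⟩
  obtain ⟨r, hr, hrs⟩ := h₁ ζ
  refine ⟨r, hrs, fun N hN => ?_⟩
  rw [mem_Uz]
  have hle : n₁ ≤ N * (q + 1) := hN.trans (Nat.le_mul_of_pos_right _ (by omega))
  refine ⟨⟨Lp_mono (by exact_mod_cast hle) hr, one_mem_Lp (by positivity)⟩, fun s hs => ?_⟩
  rw [map_one, map_one, mul_one, hrs s hs]

/-- The gluing data is determined by the space. -/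
theorem eq_of_mem {ζ : (D.Rb →ₐ[k] k) → k} {N : ℕ} {r : D.Rb}
    (h : ((r : F'), ((1 : D.Rb) : F')) ∈ T.Uz ζ N) : ∀ s ∈ T.Nd, s r = ζ s := by
  intro s hs
  rw [(mem_Uz.mp h).2 s hs, map_one, map_one, mul_one]

/-- The class of `E` has gluing data `ζ`. -/
def IsGlue (E : Divisor K F) (ζ : (D.Rb →ₐ[k] k) → k) : Prop :=
  ∃ N₃ : ℕ, ∀ N : ℕ, N₃ ≤ N → D.M E N = T.Uz ζ N

variable {T}

theorem isGlue_zero [IsFF K Fm] (hq : 2 ≤ q) : T.IsGlue 0 (fun _ => 1) := by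
  obtain ⟨N₂, h₂⟩ := T.exists_Λ_eq hq
  exact ⟨N₂, fun N hN => by rw [M_zero, h₂ N hN]⟩

theorem IsGlue.congr {E : Divisor K F} {ζ ζ' : (D.Rb →ₐ[k] k) → k} (h : T.IsGlue E ζ)
    (h' : ∀ s ∈ T.Nd, ζ s = ζ' s) : T.IsGlue E ζ' := by
  obtain ⟨N, hN⟩ := h
  exact ⟨N, fun M hM => by rw [hN M hM, Uz_congr h']⟩

theorem IsGlue.exists_wit {E : Divisor K F} {ζ : (D.Rb →ₐ[k] k) → k} (h : T.IsGlue E ζ) :
    ∃ (r : D.Rb) (N₁ : ℕ), (∀ s ∈ T.Nd, s r = ζ s) ∧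
      ∀ N, N₁ ≤ N → ((r : F'), ((1 : D.Rb) : F')) ∈ D.M E N := by
  obtain ⟨N₃, h₃⟩ := h
  obtain ⟨N₁, h₁⟩ := T.exists_wit
  obtain ⟨r, hr, hrN⟩ := h₁ ζ
  refine ⟨r, max N₃ N₁, hr, fun N hN => ?_⟩
  rw [h₃ N ((le_max_left _ _).trans hN)]
  exact hrN N ((le_max_right _ _).trans hN)

theorem IsGlue.unique {E : Divisor K F} {ζ ζ' : (D.Rb →ₐ[k] k) → k} (h : T.IsGlue E ζ)
    (h' : T.IsGlue E ζ') : ∀ s ∈ T.Nd, ζ s = ζ' s := by
  obtain ⟨r, N₁, hr, hN⟩ := h.exists_wit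
  obtain ⟨N₃, h₃⟩ := h'
  have h1 := hN (max N₁ N₃) (le_max_left _ _)
  rw [h₃ _ (le_max_right _ _)] at h1
  intro s hs
  rw [← hr s hs, T.eq_of_mem h1 s hs]

theorem IsGlue.mul {E E' : Divisor K F} {ζ ζ' ζ'' : (D.Rb →ₐ[k] k) → k} (h : T.IsGlue E ζ)
    (h' : T.IsGlue E' ζ') (h'' : T.IsGlue (E + E') ζ'') : ∀ s ∈ T.Nd, ζ'' s = ζ s * ζ' s := by
  obtain ⟨r, N₁, hr, hN⟩ := h.exists_wit
  obtain ⟨r', N₁', hr', hN'⟩ := h'.exists_wit
  obtain ⟨N₃, h₃⟩ := h''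
  have h1 := D.mul_mem_M (hN (max N₁ N₃) (le_max_left _ _)) (hN' N₁' le_rfl)
  rw [h₃ _ (by omega)] at h1
  have h2 : ((r : F'), ((1 : D.Rb) : F')) * ((r' : F'), ((1 : D.Rb) : F')) =
      (((r * r' : D.Rb) : F'), ((1 : D.Rb) : F')) := Prod.ext rfl (by simp)
  rw [h2] at h1
  intro s hs
  rw [← T.eq_of_mem h1 s hs, map_mul, hr s hs, hr' s hs]

/-- **Existence of gluing data.** -/
theorem exists_isGlue [IsFF K Fm] [IsAlgClosed k] (T : D.NodeSet) (hq : 2 ≤ q) :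
    ∃ N₃ : ℕ, ∀ (n : ℕ), 0 < n → ∀ (E : Divisor K F) (φ : D.R.O), D.Tor n E φ →
      ∃ ζ : (D.Rb →ₐ[k] k) → k, (∀ s, ζ s ^ n = 1) ∧ ∀ N, N₃ ≤ N → D.M E N = T.Uz ζ N := by
  classical
  obtain ⟨n₁, h₁⟩ := T.finrank_Uz
  obtain ⟨N₂, h₂⟩ := T.exists_Λ_eq hq
  obtain ⟨t, N₀, ht⟩ := D.exists_codim (by omega)
  obtain ⟨Nw, hw⟩ := T.exists_wit
  have htc : t = T.Nd.card := by
    set N := max (max n₁ N₂) N₀
    have e1 := h₁ (fun _ => 1) N (by omega)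
    have e2 := ht 0 (map_zero _) N (by omega)
    rw [add_zero] at e2
    change (_ : ℤ) = finrank k (D.Λ N) + t at e2
    rw [h₂ N (by omega), e1] at e2
    push_cast at e2
    linarith
  refine ⟨max (max n₁ N₂) (max N₀ Nw), fun n hn E φ h => ?_⟩
  have key : ∀ N, max (max n₁ N₂) (max N₀ Nw) ≤ N →
      ∃ ζ : (D.Rb →ₐ[k] k) → k, (∀ s, ζ s ^ n = 1) ∧ D.M E N = T.Uz ζ N := by
    intro N hN
    have hU := h.M_le_U (by omega) hn N
    have hex : ∀ s : D.Rb →ₐ[k] k, s ∈ T.Nd → ∃ ζ : k, ζ ^ n = 1 ∧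
        ∀ w : D.M E N, s ⟨(w : F' × F').1, mem_of_mem_Lp (hU w.2).1⟩ =
          ζ * s (D.Vb ⟨(w : F' × F').2, mem_of_mem_Lp (hU w.2).2⟩) := by
      intro s hs
      refine exists_root (k := k) (M := D.M E N)
        { toFun := fun w => s ⟨(w : F' × F').1, mem_of_mem_Lp (hU w.2).1⟩
          map_add' := fun a b => by rw [← map_add]; rfl
          map_smul' := fun c a => by rw [RingHom.id_apply, ← map_smul]; rfl }
        { toFun := fun w => s (D.Vb ⟨(w : F' × F').2, mem_of_mem_Lp (hU w.2).2⟩)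
          map_add' := fun a b => by rw [← map_add, ← map_add]; rfl
          map_smul' := fun c a => by rw [RingHom.id_apply, ← map_smul, ← map_smul]; rfl } hn ?_
      intro w
      change s ⟨(w : F' × F').1, mem_of_mem_Lp (hU w.2).1⟩ ^ n =
        s (D.Vb ⟨(w : F' × F').2, mem_of_mem_Lp (hU w.2).2⟩) ^ n
      have h5 := h.pow_mem w.2
      have h6 : ((⟨(w : F' × F').1, mem_of_mem_Lp (hU w.2).1⟩ : D.Rb) ^ n,
          (⟨(w : F' × F').2, mem_of_mem_Lp (hU w.2).2⟩ : D.Rb) ^ n) ∈ D.S := ⟨n * N, h5⟩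
      rw [← map_pow, ← map_pow, ← map_pow]
      exact (T.mem_S_iff _ _).mp h6 s hs
    choose! ζ hζ1 hζ2 using hex
    refine ⟨fun s => if s ∈ T.Nd then ζ s else 1, fun s => ?_, ?_⟩
    · dsimp only
      split_ifs with hs
      · exact hζ1 s hs
      · exact one_pow n
    · have hle : D.M E N ≤ T.Uz (fun s => if s ∈ T.Nd then ζ s else 1) N := by
        intro w hw
        refine ⟨hU hw, ⟨w.1, mem_of_mem_Lp (hU hw).1⟩, ⟨w.2, mem_of_mem_Lp (hU hw).2⟩, rfl,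
          fun s hs => ?_⟩
        have h7 := hζ2 s hs ⟨w, hw⟩
        simp only [if_pos hs]
        exact h7
      have hfd : FiniteDimensional k (T.Uz (fun s => if s ∈ T.Nd then ζ s else 1) N) :=
        Submodule.finiteDimensional_of_le (Uz_le_U _ _)
      apply Submodule.eq_of_le_of_finrank_eq hle
      have e1 := h₁ (fun s => if s ∈ T.Nd then ζ s else 1) N (by omega)
      have e2 := ht (-E) (by rw [map_neg, h.deg, neg_zero]) N (by omega)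
      rw [← sub_eq_add_neg] at e2
      change (_ : ℤ) = finrank k (D.M E N) + t at e2
      rw [htc, e1] at e2
      push_cast at e2
      have e3 : (finrank k (D.M E N) : ℤ) =
        finrank k (T.Uz (fun s => if s ∈ T.Nd then ζ s else 1) N) := by linarith
      exact_mod_cast e3
  obtain ⟨ζ, hζ1, hζ⟩ := key _ le_rfl
  refine ⟨ζ, hζ1, fun N hN => ?_⟩
  obtain ⟨ζ', _, hζ'⟩ := key N hN
  rw [hζ']
  apply Uz_congr
  obtain ⟨r, hr, hrN⟩ := hw ζ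
  have h1 := hrN _ ((le_max_right _ _).trans (le_max_right (max n₁ N₂) (max N₀ Nw)))
  rw [← hζ] at h1
  have h2 := D.M_mono E hN h1
  rw [hζ'] at h2
  intro s hs
  rw [← hr s hs, T.eq_of_mem h2 s hs]

end NodeSet

end Data

end Fermat.Agent.TwoComp
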