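import Fermat.Agent.TwoComp.Glue

/-!
# Torsion classes with trivial gluing data are trivial
-/

set_option autoImplicit false
set_option linter.unusedSectionVars false

open AlgebraicCurve WithZero Module Polynomial
open scoped IntermediateField
open Fermat.Agent.RR Fermat.Agent.Deuring Fermat.Agent.FF

namespace Fermat.Agent.TwoComp

namespace Data

variable {K Fm F k F' : Type*} [Field K] [Field Fm] [Algebra K Fm] [Field F]
    [Algebra K F] [Field k] [Field F'] [Algebra k F'] {q : ℕ} (D : Data K Fm F k F' q)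

/-- The value group of `A` is archimedean. -/
def Arch : Prop := ∀ c ∈ D.G.A.nonunits, ∀ d : K, d ≠ 0 → ∃ n : ℕ, c ^ n / d ∈ D.G.A

variable {D}

/-- The reduction datum in the sense of `QX`. -/
def datum (hq : 0 < q) (arch : D.Arch) : QX.Datum K F k (F' × F') where
  A := D.G.A
  res := D.G.res
  res_surj := D.G.res_surj
  res_eq_zero_iff := D.G.res_eq_zero_iff
  arch := arch
  O := D.R.O
  ρ := D.R.ρ
  algebraMap_mem := fun a ha => (D.R.mem_O_iff a).mpr ha
  ρ_algebraMap := D.R.ρ_algebraMap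
  inv_mem := D.R.inv_mem
  ortho := D.ortho hq

variable [IsFF K F]

theorem redSpace_eq (hq : 0 < q) (arch : D.Arch) (V : Submodule K F) :
    (datum hq arch).redSpace V = D.R.red V := by
  ext e
  constructor
  · rintro ⟨f, hf, hfO, rfl⟩
    refine ⟨⟨f, hfO⟩, hf, ?_⟩
    exact ((datum hq arch).r_of_mem hfO).symm
  · rintro ⟨f, hf, rfl⟩
    exact ⟨f, hf, f.2, (datum hq arch).r_of_mem f.2⟩

variable (D) in
/-- `j j_q` -/
def yy : D.R.O := D.xα * D.xβ

theorem coe_yy : ((D.yy : D.R.O) : F) = D.α D.j * D.β D.j := rfl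

theorem yy_ne_zero : ((D.yy : D.R.O) : F) ≠ 0 := mul_ne_zero D.αj_ne_zero D.βj_ne_zero

theorem ρ_yy : D.R.ρ D.yy = (D.jb ^ (q + 1), D.jb ^ (q + 1)) := by
  rw [yy, map_mul, ρ_xα, ρ_xβ]
  refine Prod.ext ?_ ?_
  · simp only [Prod.mk_mul_mk]; ring
  · simp only [Prod.mk_mul_mk]; ring

theorem generic_yy : D.R.Generic D.yy := by
  apply D.generic_of
  · rw [ρ_yy]; exact D.jb_transcendental.pow (by omega)
  · rw [ρ_yy]; exact D.jb_transcendental.pow (by omega)

theorem yy_inv_mem : ((D.yy : D.R.O) : F)⁻¹ ∈ D.R.O := by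
  apply D.R.inv_mem
  rw [ρ_yy, Prod.isUnit_iff]
  exact ⟨IsUnit.mk0 _ (pow_ne_zero _ D.jb_ne_zero), IsUnit.mk0 _ (pow_ne_zero _ D.jb_ne_zero)⟩

theorem zeroDiv_yy : zeroDiv (K := K) ((D.yy : D.R.O) : F)⁻¹ = D.E₀ := by
  ext v
  rw [zeroDiv_apply, E₀_apply, v.ord_inv, coe_yy, v.ord_mul D.αj_ne_zero D.βj_ne_zero]
  rcases le_or_gt 0 (v.ord (D.α D.j)) with hv | hv
  · have hv' : 0 ≤ v.ord (D.β D.j) := by
      by_contra h
      push Not at h
      have := (D.cusp_β v h).1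
      omega
    rw [max_eq_right (by omega), max_eq_right (by omega), max_eq_right (by omega), add_zero]
  · have hv' := (D.cusp_α v hv).1
    rw [max_eq_left (by omega), max_eq_left (by omega), max_eq_left (by omega)]
    ring

theorem LL_eq (E : Divisor K F) (r : ℕ) :
    QX.LL ((D.yy : D.R.O) : F) E r 0 = riemannRochSpace (r • D.E₀ - E) := by
  rw [QX.LL, zeroDiv_yy]
  simp

variable [IsFF k F'] [IsFF K Fm]

/-- Multiplication by powers of `jb` detects membership in `U`. -/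
theorem mem_Lp_of_jb_pow_mul {N c M : ℕ} {f : F'} (hf : f ∈ Lp (K := k) D.jb M)
    (h : D.jb ^ c * f ∈ Lp (K := k) D.jb (N + c : ℕ)) : f ∈ Lp (K := k) D.jb N := by
  rcases eq_or_ne f 0 with rfl | hf0
  · exact Submodule.zero_mem _
  have hj := pow_ne_zero c D.jb_ne_zero
  rw [mem_Lp' (mul_ne_zero hj hf0)] at h
  rw [mem_Lp' hf0] at hf ⊢
  intro v
  have h1 := hf v
  have h2 := h v
  rw [v.ord_mul hj hf0, ord_pow] at h2
  rcases le_or_gt 0 (v.ord D.jb) with hv | hv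
  · rw [max_eq_right (by omega)] at h1 ⊢
    omega
  · rw [max_eq_left (by omega)] at h2 ⊢
    push_cast at h2
    nlinarith

/-- **Torsion classes with trivial gluing data are trivial.** -/
theorem NodeSet.IsGlue.isPrincipal {T : D.NodeSet} (hq : 2 ≤ q) (arch : D.Arch) {n : ℕ}
    (hn : (n : k) ≠ 0) {E : Divisor K F} {φ : D.R.O} (h : D.Tor n E φ)
    {ζ : (D.Rb →ₐ[k] k) → k} (hζ : T.IsGlue E ζ) (hζ1 : ∀ s ∈ T.Nd, ζ s = 1) :
    AlgebraicCurve.Divisor.IsPrincipal E := by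
  have hq0 : 0 < q := by omega
  obtain ⟨N₃, h₃⟩ := hζ.congr hζ1
  obtain ⟨N₂, h₂⟩ := T.exists_Λ_eq hq
  obtain ⟨Ns, hs⟩ := D.exists_saturated hq
  set X := datum hq0 arch with hX
  have hrφ : X.r (φ : F) = 1 := (X.r_of_mem φ.2).trans h.ρ_eq
  have hry : X.r ((D.yy : D.R.O) : F) = (D.jb ^ (q + 1), D.jb ^ (q + 1)) :=
    (X.r_of_mem D.yy.2).trans ρ_yy
  have key : ∀ a b : ℕ, ∀ e : F' × F', e ∈ X.redSpace (QX.LL ((D.yy : D.R.O) : F) 0 a b) ↔
      (D.jb ^ (q + 1), D.jb ^ (q + 1)) ^ b * e ∈ D.Λ (a + b) := by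
    intro a b e
    have h1 := QX.Datum.mem_redSpace_LL_iff (X := X) D.yy.2 yy_inv_mem yy_ne_zero (D := 0)
      (a := a) (b := 0) (c := b) (e := e)
    rw [zero_add] at h1
    rw [h1, hry, redSpace_eq, LL_eq, sub_zero]
    rfl
  refine QX.Datum.isPrincipal_of_redSpace_eq (X := X) (y := ((D.yy : D.R.O) : F))
    (generic_yy.transcendental) D.yy.2 yy_inv_mem hn h.deg φ.2 hrφ (fun v => (h.ord v).symm)
    (r₁ := max (max N₃ N₂) Ns) ?_ ?_
  · intro r hr
    rw [redSpace_eq, redSpace_eq, LL_eq, LL_eq, sub_zero]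
    change D.M E r = D.Λ r
    rw [h₃ r (by omega), h₂ r (by omega)]
  · intro a b a' b' ha hb hab e he
    obtain ⟨c, rfl⟩ := Nat.exists_eq_add_of_le ha
    obtain ⟨d, rfl⟩ := Nat.exists_eq_add_of_le hb
    have he1 := (key _ _ _).mp he.1
    have he2 := (key _ _ _).mp he.2
    rw [key]
    rw [show a + c + b = (a + b) + c by ring] at he1
    rw [show a + (b + d) = (a + b) + d by ring, pow_add, mul_assoc, mul_left_comm] at he2
    set w := (D.jb ^ (q + 1), D.jb ^ (q + 1)) ^ b * e with hw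
    rw [← hs (a + b) (by omega) (a + b + c) (by omega)]
    refine ⟨he1, ?_⟩
    have hU1 := D.Λ_le hq0 _ he1
    have hU2 := D.Λ_le hq0 _ he2
    rw [SetLike.mem_coe]
    rw [mem_U] at hU1 hU2 ⊢
    have hfst : ((D.jb ^ (q + 1), D.jb ^ (q + 1)) ^ d * w).1 = D.jb ^ (d * (q + 1)) * w.1 := by
      rw [Prod.fst_mul, Prod.pow_fst, ← pow_mul, mul_comm (q + 1)]
    have hsnd : ((D.jb ^ (q + 1), D.jb ^ (q + 1)) ^ d * w).2 = D.jb ^ (d * (q + 1)) * w.2 := by
      rw [Prod.snd_mul, Prod.pow_snd, ← pow_mul, mul_comm (q + 1)]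
    rw [hfst, hsnd, show (a + b + d) * (q + 1) = (a + b) * (q + 1) + d * (q + 1) by ring] at hU2
    exact ⟨mem_Lp_of_jb_pow_mul hU1.1 hU2.1, mem_Lp_of_jb_pow_mul hU1.2 hU2.2⟩

end Data

end Fermat.Agent.TwoComp
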