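import Mathlib.RingTheory.Valuation.ValuationSubring
import Mathlib.LinearAlgebra.Dimension.Finrank
import Mathlib.LinearAlgebra.FiniteDimensional.Lemmas
import Mathlib.Algebra.Polynomial.AlgebraMap

/-!
# Orthonormal bases over a valuation ring
-/

set_option autoImplicit false

open Module Polynomial

namespace Fermat.Agent.TwoComp

section LA

variable {K k : Type*} [Field K] [Field k] (A : ValuationSubring K) (res : A →+* k)

/-- In a finite family of elements of `K`, not all zero, one can divide by a maximal one. -/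
theorem exists_max {ι : Type*} [Finite ι] (w : ι → K) (hw : w ≠ 0) :
    ∃ i, w i ≠ 0 ∧ ∀ l, (w i)⁻¹ * w l ∈ A := by
  classical
  have := Fintype.ofFinite ι
  obtain ⟨i₁, hi₁⟩ : ∃ i, w i ≠ 0 := by
    by_contra h
    push Not at h
    exact hw (funext h)
  obtain ⟨i, _, hi⟩ := Finset.exists_max_image Finset.univ (fun l => A.valuation (w l))
    ⟨i₁, Finset.mem_univ i₁⟩
  have hi0 : w i ≠ 0 := by
    intro h
    have h1 := hi i₁ (Finset.mem_univ _)
    rw [h, map_zero, le_zero_iff, Valuation.zero_iff] at h1
    exact hi₁ h1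
  refine ⟨i, hi0, fun l => ?_⟩
  rw [← ValuationSubring.valuation_le_one_iff, map_mul, map_inv₀]
  have h2 : A.valuation (w i) ≠ 0 := (Valuation.ne_zero_iff _).mpr hi0
  calc (A.valuation (w i))⁻¹ * A.valuation (w l)
      ≤ (A.valuation (w i))⁻¹ * A.valuation (w i) := mul_le_mul_right (hi l (Finset.mem_univ l)) _
    _ = 1 := inv_mul_cancel₀ h2

/-- Every subspace of `K^ι` has a basis in `A^ι` with linearly independent reductions. -/
theorem exists_ortho {ι : Type*} [Fintype ι] (d : ℕ) (W : Submodule K (ι → K))
    (hd : finrank K W = d) :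
    ∃ (b : Fin d → ι → A), (∀ a, (fun i => (b a i : K)) ∈ W) ∧
      LinearIndependent k (fun a i => res (b a i)) := by
  classical
  induction d generalizing W with
  | zero =>
    exact ⟨fun a => a.elim0, fun a => a.elim0, linearIndependent_empty_type⟩
  | succ d ih =>
    have hne : W ≠ ⊥ := by
      rintro rfl
      rw [finrank_bot] at hd
      omega
    obtain ⟨w, hw, hw0⟩ := (Submodule.ne_bot_iff W).mp hne
    obtain ⟨i, hi0, hi⟩ := exists_max A w hw0
    let φ : W →ₗ[K] K := (LinearMap.proj i).comp W.subtype
    let w' : ι → A := fun l => ⟨(w i)⁻¹ * w l, hi l⟩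
    have hw'W : (fun l => (w' l : K)) ∈ W := by
      have : (fun l => (w' l : K)) = (w i)⁻¹ • w := by
        ext l
        simp [w']
      rw [this]
      exact W.smul_mem _ hw
    have hw'i : w' i = 1 := Subtype.ext (inv_mul_cancel₀ hi0)
    have hφ : LinearMap.range φ = ⊤ := by
      rw [LinearMap.range_eq_top]
      intro c
      refine ⟨c • ⟨_, hw'W⟩, ?_⟩
      simp [φ, hw'i]
    let W' : Submodule K (ι → K) := (LinearMap.ker φ).map W.subtype
    have hW' : finrank K W' = d := by
      have h1 := LinearMap.finrank_range_add_finrank_ker φ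
      rw [hφ, finrank_top, finrank_self, hd] at h1
      have h2 : finrank K W' = finrank K (LinearMap.ker φ) :=
        (Submodule.equivMapOfInjective _ W.subtype_injective _).finrank_eq.symm
      omega
    obtain ⟨b, hb, hli⟩ := ih W' hW'
    have hb' : ∀ a, (fun l => (b a l : K)) ∈ W ∧ (b a i : K) = 0 := by
      intro a
      obtain ⟨u, hu, hu'⟩ := Submodule.mem_map.mp (hb a)
      constructor
      · rw [← hu']; exact u.2
      · have h3 : (u : ι → K) i = 0 := hu
        have h4 := congrFun hu' i
        simp only [Submodule.subtype_apply] at h4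
        rw [← h4, h3]
    refine ⟨Fin.cons w' b, ?_, ?_⟩
    · intro a
      refine Fin.cases ?_ (fun a => ?_) a
      · simpa using hw'W
      · simpa using (hb' a).1
    · have heq : (fun (a : Fin (d + 1)) (l : ι) =>
          res ((Fin.cons w' b : Fin (d + 1) → ι → A) a l)) =
          Fin.cons (fun l => res (w' l)) (fun a l => res (b a l)) := by
        funext a
        refine Fin.cases ?_ (fun a => ?_) a <;> simp
      rw [heq, linearIndependent_finCons]
      refine ⟨hli, fun hmem => ?_⟩
      have h5 : ∀ y ∈ Submodule.span k (Set.range fun a l => res (b a l)), y i = 0 := by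
        intro y hy
        have h6 : Submodule.span k (Set.range fun a l => res (b a l)) ≤
            LinearMap.ker (LinearMap.proj (R := k) (φ := fun _ : ι => k) i) := by
          rw [Submodule.span_le]
          rintro _ ⟨a, rfl⟩
          change res (b a i) = 0
          have : b a i = 0 := Subtype.ext (hb' a).2
          rw [this, map_zero]
        exact h6 hy
      have h7 := h5 _ hmem
      simp only [hw'i, map_one] at h7
      exact one_ne_zero h7

/-- Normalisation of a nonzero polynomial. -/
theorem exists_primitive {p : K[X]} (hp : p ≠ 0) :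
    ∃ (c : K) (p₀ : A[X]), c ≠ 0 ∧ p = C c * p₀.map A.subtype ∧ p₀.map res ≠ 0 := by
  classical
  have hne : (fun i : Fin (p.natDegree + 1) => p.coeff i) ≠ 0 := by
    intro h
    apply hp
    have h1 := congrFun h ⟨p.natDegree, Nat.lt_succ_self _⟩
    simpa using h1
  obtain ⟨i, hi0, hi⟩ := exists_max A _ hne
  have hall : ∀ l : ℕ, (p.coeff i)⁻¹ * p.coeff l ∈ A := by
    intro l
    by_cases hl : l < p.natDegree + 1
    · exact hi ⟨l, hl⟩
    · rw [coeff_eq_zero_of_natDegree_lt (show p.natDegree < l by omega), mul_zero]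
      exact A.zero_mem
  let p₀ : A[X] := ∑ l ∈ Finset.range (p.natDegree + 1), monomial l ⟨(p.coeff i)⁻¹ * p.coeff l, hall l⟩
  have hcoeff : ∀ l, ((p₀.coeff l : A) : K) = (p.coeff i)⁻¹ * p.coeff l := by
    intro l
    simp only [p₀, finsetSum_coeff, coeff_monomial]
    rw [Finset.sum_ite_eq']
    split_ifs with hl
    · rfl
    · rw [Finset.mem_range] at hl
      rw [coeff_eq_zero_of_natDegree_lt (show p.natDegree < l by omega), mul_zero]
      rfl
  refine ⟨p.coeff i, p₀, hi0, ?_, ?_⟩
  · ext l
    rw [coeff_C_mul, coeff_map]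
    change p.coeff l = p.coeff i * ((p₀.coeff l : A) : K)
    rw [hcoeff, mul_inv_cancel_left₀ hi0]
  · intro h
    have h1 := congrArg (fun r => r.coeff (i : ℕ)) h
    simp only [coeff_map, coeff_zero] at h1
    have h2 : p₀.coeff (i : ℕ) = 1 := Subtype.ext (by rw [hcoeff]; exact inv_mul_cancel₀ hi0)
    rw [h2, map_one] at h1
    exact one_ne_zero h1

end LA

end Fermat.Agent.TwoComp
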