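import Fermat.Agent.TwoComp.LinAlg
import Mathlib.FieldTheory.IntermediateField.Adjoin.Algebra
import Mathlib.FieldTheory.IntermediateField.Adjoin.Basic
import Mathlib.RingTheory.IntegralClosure.IntegrallyClosed
import Mathlib.FieldTheory.Minpoly.IsIntegrallyClosed

/-!
# Reduction of a subring of a function field

`O ⊆ F` a subring with reduction map `ρ : O → E` over a valuation ring `A` of `K`; `E` need not be
a domain (it is a product of two fields for the bad reduction of `X₀(qm)`).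
-/

set_option autoImplicit false

open Module Polynomial
open scoped IntermediateField

namespace Fermat.Agent.TwoComp

/-- Reduction data. -/
structure RedRing (K F k E : Type*) [Field K] [Field F] [Algebra K F] [Field k] [CommRing E]
    [Algebra k E] where
  A : ValuationSubring K
  res : A →+* k
  res_surj : Function.Surjective res
  res_eq_zero_iff : ∀ a : A, res a = 0 ↔ (a : K) ∈ A.nonunits
  O : Subring F
  ρ : O →+* E
  mem_O_iff : ∀ a : K, algebraMap K F a ∈ O ↔ a ∈ A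
  ρ_algebraMap : ∀ a : A, ρ ⟨algebraMap K F a, (mem_O_iff _).mpr a.2⟩ = algebraMap k E (res a)
  inv_mem : ∀ x : O, IsUnit (ρ x) → (x : F)⁻¹ ∈ O

namespace RedRing

variable {K F k E : Type*} [Field K] [Field F] [Algebra K F] [Field k] [CommRing E]
  [Algebra k E] (R : RedRing K F k E)

/-- The structure map `A → O`. -/
def algA : R.A →+* R.O :=
  ((algebraMap K F).comp R.A.subtype).codRestrict R.O fun a => (R.mem_O_iff _).mpr a.2

@[simp] theorem coe_algA (a : R.A) : ((R.algA a : R.O) : F) = algebraMap K F a := rfl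

theorem ρ_algA (a : R.A) : R.ρ (R.algA a) = algebraMap k E (R.res a) := R.ρ_algebraMap a

/-- Evaluation of polynomials over `A` at an element of `O`. -/
noncomputable def ev (x : R.O) : R.A[X] →+* R.O := eval₂RingHom R.algA x

theorem coe_ev (x : R.O) (p : R.A[X]) : ((R.ev x p : R.O) : F) = aeval (x : F) (p.map R.A.subtype) := by
  rw [ev, coe_eval₂RingHom, aeval_def, eval₂_map]
  exact (hom_eval₂ p R.algA R.O.subtype x)

theorem ρ_ev (x : R.O) (p : R.A[X]) : R.ρ (R.ev x p) = aeval (R.ρ x) (p.map R.res) := by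
  rw [ev, coe_eval₂RingHom, aeval_def, eval₂_map, hom_eval₂]
  congr 1
  ext a
  exact R.ρ_algA a

/-- `x ∈ O` is generic if nonzero polynomials in its reduction are units. -/
def Generic (x : R.O) : Prop := ∀ p : k[X], p ≠ 0 → IsUnit (aeval (R.ρ x) p)

variable {R}

theorem Generic.isUnit_ρ_ev {x : R.O} (hx : R.Generic x) {p : R.A[X]} (hp : p.map R.res ≠ 0) :
    IsUnit (R.ρ (R.ev x p)) := by
  rw [ρ_ev]; exact hx _ hp

theorem Generic.ev_ne_zero [Nontrivial E] {x : R.O} (hx : R.Generic x) {p : R.A[X]}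
    (hp : p.map R.res ≠ 0) : ((R.ev x p : R.O) : F) ≠ 0 := by
  intro h
  have h1 : R.ev x p = 0 := Subtype.ext h
  have h2 := hx.isUnit_ρ_ev hp
  rw [h1, map_zero] at h2
  exact not_isUnit_zero h2

theorem Generic.inv_ev_mem {x : R.O} (hx : R.Generic x) {p : R.A[X]} (hp : p.map R.res ≠ 0) :
    ((R.ev x p : R.O) : F)⁻¹ ∈ R.O := R.inv_mem _ (hx.isUnit_ρ_ev hp)

/-- A generic element is transcendental over `K`. -/
theorem Generic.transcendental [Nontrivial E] {x : R.O} (hx : R.Generic x) :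
    Transcendental K (x : F) := by
  rw [transcendental_iff]
  intro p hp
  by_contra hp0
  obtain ⟨c, p₀, hc, hpc, hp₀⟩ := exists_primitive R.A R.res hp0
  rw [hpc, map_mul, aeval_C, ← coe_ev] at hp
  rcases mul_eq_zero.mp hp with h | h
  · exact hc ((map_eq_zero _).mp h)
  · exact hx.ev_ne_zero hp₀ h

/-- Elements of `K(x)` as normalised fractions. -/
theorem Generic.exists_frac [Nontrivial E] {x : R.O} (hx : R.Generic x) {e : F}
    (he : e ∈ K⟮(x : F)⟯) :
    ∃ (c : K) (p q : R.A[X]), p.map R.res ≠ 0 ∧ q.map R.res ≠ 0 ∧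
      e * ((R.ev x q : R.O) : F) = algebraMap K F c * ((R.ev x p : R.O) : F) := by
  obtain ⟨r, s, rfl⟩ := (IntermediateField.mem_adjoin_simple_iff _ _).mp he
  have htr := hx.transcendental
  rcases eq_or_ne s 0 with rfl | hs
  · refine ⟨0, 1, 1, by simp, by simp, by simp⟩
  rcases eq_or_ne r 0 with rfl | hr
  · refine ⟨0, 1, 1, by simp, by simp, by simp⟩
  obtain ⟨c, p₀, hc, hpc, hp₀⟩ := exists_primitive R.A R.res hr
  obtain ⟨d, q₀, hd, hqd, hq₀⟩ := exists_primitive R.A R.res hs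
  refine ⟨c / d, p₀, q₀, hp₀, hq₀, ?_⟩
  have hq1 := hx.ev_ne_zero hq₀
  have hd1 : algebraMap K F d ≠ 0 := (_root_.map_ne_zero _).mpr hd
  rw [coe_ev] at hq1
  rw [coe_ev, coe_ev, hpc, hqd, map_mul, map_mul, aeval_C, aeval_C, map_div₀]
  field_simp

/-- Elements of `K(x) ∩ O` as fractions with primitive denominator. -/
theorem Generic.exists_frac_of_mem [Nontrivial E] {x : R.O} (hx : R.Generic x) {e : F}
    (he : e ∈ K⟮(x : F)⟯) (heO : e ∈ R.O) :
    ∃ (p q : R.A[X]), q.map R.res ≠ 0 ∧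
      e * ((R.ev x q : R.O) : F) = ((R.ev x p : R.O) : F) := by
  obtain ⟨c, p, q, hp, hq, h⟩ := hx.exists_frac he
  have hc : c ∈ R.A := by
    rw [← R.mem_O_iff]
    have h1 : algebraMap K F c = e * ((R.ev x q : R.O) : F) * ((R.ev x p : R.O) : F)⁻¹ := by
      rw [h, mul_assoc, mul_inv_cancel₀ (hx.ev_ne_zero hp), mul_one]
    rw [h1]
    exact R.O.mul_mem (R.O.mul_mem heO (R.ev x q).2) (hx.inv_ev_mem hp)
  refine ⟨C ⟨c, hc⟩ * p, q, hq, ?_⟩
  rw [h, map_mul, Subring.coe_mul]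
  congr 1
  simp [ev]

/-- The valuation ring `K(x) ∩ O`. -/
def Generic.valL [Nontrivial E] {x : R.O} (hx : R.Generic x) : ValuationSubring K⟮(x : F)⟯ where
  toSubring := R.O.comap (algebraMap K⟮(x : F)⟯ F)
  mem_or_inv_mem' := by
    intro e
    obtain ⟨c, p, q, hp, hq, h⟩ := hx.exists_frac e.2
    rcases R.A.mem_or_inv_mem c with hc | hc
    · left
      change (e : F) ∈ R.O
      have h1 : (e : F) = algebraMap K F c * ((R.ev x p : R.O) : F) * ((R.ev x q : R.O) : F)⁻¹ := by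
        rw [← h, mul_assoc, mul_inv_cancel₀ (hx.ev_ne_zero hq), mul_one]
      rw [h1]
      exact R.O.mul_mem (R.O.mul_mem ((R.mem_O_iff _).mpr hc) (R.ev x p).2) (hx.inv_ev_mem hq)
    · right
      change ((e⁻¹ : K⟮(x : F)⟯) : F) ∈ R.O
      have h1 : ((e⁻¹ : K⟮(x : F)⟯) : F) =
          algebraMap K F c⁻¹ * ((R.ev x q : R.O) : F) * ((R.ev x p : R.O) : F)⁻¹ := by
        rcases eq_or_ne c 0 with rfl | hc0
        · rw [map_zero, zero_mul, mul_eq_zero] at h
          have h2 := h.resolve_right (hx.ev_ne_zero hq)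
          have h3 : e = 0 := Subtype.ext h2
          rw [h3]
          simp
        · have h4 : (e : F) = algebraMap K F c * ((R.ev x p : R.O) : F) *
              ((R.ev x q : R.O) : F)⁻¹ := by
            rw [← h, mul_assoc, mul_inv_cancel₀ (hx.ev_ne_zero hq), mul_one]
          rw [show ((e⁻¹ : K⟮(x : F)⟯) : F) = (e : F)⁻¹ from rfl, h4, mul_inv, mul_inv, inv_inv,
            map_inv₀]
          ring
      rw [h1]
      exact R.O.mul_mem (R.O.mul_mem ((R.mem_O_iff _).mpr hc) (R.ev x q).2) (hx.inv_ev_mem hp)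

theorem Generic.mem_valL [Nontrivial E] {x : R.O} (hx : R.Generic x) (e : K⟮(x : F)⟯) :
    e ∈ hx.valL ↔ (e : F) ∈ R.O := Iff.rfl

/-- Common denominators, elements of `O`. -/
theorem Generic.exists_common [Nontrivial E] {x : R.O} (hx : R.Generic x) {ι : Type*} [Fintype ι]
    (e : ι → F) (he : ∀ i, e i ∈ K⟮(x : F)⟯) (heO : ∀ i, e i ∈ R.O) :
    ∃ (q : R.A[X]) (p : ι → R.A[X]), q.map R.res ≠ 0 ∧
      ∀ i, e i * ((R.ev x q : R.O) : F) = ((R.ev x (p i) : R.O) : F) := by
  classical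
  choose p q hq h using fun i => hx.exists_frac_of_mem (he i) (heO i)
  refine ⟨∏ i, q i, fun i => p i * ∏ l ∈ Finset.univ.erase i, q l, ?_, ?_⟩
  · rw [Polynomial.map_prod]
    exact Finset.prod_ne_zero_iff.mpr fun i _ => hq i
  · intro i
    rw [← Finset.mul_prod_erase Finset.univ q (Finset.mem_univ i), map_mul, map_mul,
      Subring.coe_mul, Subring.coe_mul, ← mul_assoc, h i]

/-- Common denominators, arbitrary elements of `K(x)`. -/
theorem Generic.exists_common' [Nontrivial E] {x : R.O} (hx : R.Generic x) {ι : Type*} [Fintype ι]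
    (e : ι → F) (he : ∀ i, e i ∈ K⟮(x : F)⟯) :
    ∃ (q : R.A[X]) (p : ι → K[X]), q.map R.res ≠ 0 ∧
      ∀ i, e i * ((R.ev x q : R.O) : F) = aeval (x : F) (p i) := by
  classical
  choose c p q hp hq h using fun i => hx.exists_frac (he i)
  refine ⟨∏ i, q i, fun i => C (c i) * ((p i).map R.A.subtype) *
    (∏ l ∈ Finset.univ.erase i, q l).map R.A.subtype, ?_, ?_⟩
  · rw [Polynomial.map_prod]
    exact Finset.prod_ne_zero_iff.mpr fun i _ => hq i
  · intro i
    rw [← Finset.mul_prod_erase Finset.univ q (Finset.mem_univ i), map_mul,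
      Subring.coe_mul, ← mul_assoc, h i, map_mul, map_mul, aeval_C, ← coe_ev, ← coe_ev]

/-- A family in `O` whose reduction is `k[x]`-independent. -/
def Indep (x : R.O) {ι : Type*} [Fintype ι] (f : ι → R.O) : Prop :=
  ∀ p : ι → k[X], ∑ i, aeval (R.ρ x) (p i) * R.ρ (f i) = 0 → ∀ i, p i = 0

theorem Indep.aux [Nontrivial E] {x : R.O} (hx : R.Generic x) {ι : Type*} [Fintype ι]
    {f : ι → R.O} (hf : Indep x f) (e : ι → F) (he : ∀ i, e i ∈ K⟮(x : F)⟯)
    (heO : ∀ i, e i ∈ R.O) (g : R.O) (hg : ∑ i, e i * f i = (g : F)) (hg0 : R.ρ g = 0) (i : ι) :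
    R.ρ ⟨e i, heO i⟩ = 0 := by
  obtain ⟨q, p, hq, h⟩ := hx.exists_common e he heO
  have h1 : ∑ i, R.ev x (p i) * f i = g * R.ev x q := by
    apply Subtype.ext
    rw [AddSubmonoidClass.coe_finsetSum, Subring.coe_mul, ← hg, Finset.sum_mul]
    refine Finset.sum_congr rfl fun l _ => ?_
    rw [Subring.coe_mul, ← h l]
    ring
  have h2 := congrArg R.ρ h1
  rw [map_mul, hg0, zero_mul, map_sum] at h2
  simp only [map_mul, ρ_ev] at h2
  have h3 := hf _ h2 i
  have h4 : R.ρ ⟨e i, heO i⟩ * R.ρ (R.ev x q) = 0 := by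
    rw [← map_mul]
    have : (⟨e i, heO i⟩ * R.ev x q : R.O) = R.ev x (p i) := Subtype.ext (h i)
    rw [this, ρ_ev, h3, map_zero]
  exact ((hx.isUnit_ρ_ev hq).mul_left_eq_zero).mp h4

theorem Indep.mem_of_sum_mem [Nontrivial E] {x : R.O} (hx : R.Generic x) {ι : Type*} [Fintype ι]
    {f : ι → R.O} (hf : Indep x f) (e : ι → K⟮(x : F)⟯)
    (hsum : ∑ i, (e i : F) * f i ∈ R.O) (i : ι) : (e i : F) ∈ R.O := by
  by_contra hi
  have hne : e ≠ 0 := by
    rintro rfl
    exact hi R.O.zero_mem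
  obtain ⟨l, hl0, hl⟩ := exists_max hx.valL e hne
  have hl' : (e l : F) ∉ R.O := by
    intro h
    apply hi
    have h1 : (e i : F) = (e l : F) * (((e l)⁻¹ * e i : K⟮(x : F)⟯) : F) := by
      rw [← IntermediateField.coe_mul, mul_inv_cancel_left₀ hl0]
    rw [h1]
    exact R.O.mul_mem h (hl i)
  have hinv : ((e l)⁻¹ : K⟮(x : F)⟯) ∈ hx.valL := (hx.valL.mem_or_inv_mem _).resolve_left hl'
  have hinvO : (((e l)⁻¹ : K⟮(x : F)⟯) : F) ∈ R.O := hinv
  have hρinv : R.ρ ⟨_, hinvO⟩ = 0 := by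
    obtain ⟨p, q, hq, h⟩ := hx.exists_frac_of_mem ((e l)⁻¹).2 hinvO
    have h0 : R.ρ ⟨_, hinvO⟩ * R.ρ (R.ev x q) = R.ρ (R.ev x p) := by
      rw [← map_mul]; exact congrArg R.ρ (Subtype.ext h)
    by_cases hp : p.map R.res = 0
    · rw [ρ_ev R x p, hp, map_zero] at h0
      exact ((hx.isUnit_ρ_ev hq).mul_left_eq_zero).mp h0
    · exfalso
      have h1 : IsUnit (R.ρ ⟨_, hinvO⟩) := by
        have := hx.isUnit_ρ_ev hp
        rw [← h0] at this
        exact isUnit_of_mul_isUnit_left this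
      have h2 := R.inv_mem _ h1
      apply hl'
      simpa using h2
  have h5 := hf.aux hx (fun i => (((e l)⁻¹ * e i : K⟮(x : F)⟯) : F)) (fun i => SetLike.coe_mem _) hl
    (⟨_, hinvO⟩ * ⟨_, hsum⟩) (by
      rw [Subring.coe_mul, Finset.mul_sum]
      refine Finset.sum_congr rfl fun i _ => ?_
      rw [IntermediateField.coe_mul, mul_assoc]) (by rw [map_mul, hρinv, zero_mul]) l
  have h6 : (⟨(((e l)⁻¹ * e l : K⟮(x : F)⟯) : F), hl l⟩ : R.O) = 1 := by
    apply Subtype.ext
    change (((e l)⁻¹ * e l : K⟮(x : F)⟯) : F) = 1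
    rw [inv_mul_cancel₀ hl0]
    rfl
  rw [h6, map_one] at h5
  exact one_ne_zero h5

theorem Indep.linearIndependent [Nontrivial E] {x : R.O} (hx : R.Generic x) {ι : Type*}
    [Fintype ι] {f : ι → R.O} (hf : Indep x f) :
    LinearIndependent K⟮(x : F)⟯ (fun i => ((f i : R.O) : F)) := by
  rw [Fintype.linearIndependent_iff]
  intro e he
  by_contra hne
  push Not at hne
  have hne' : e ≠ 0 := by
    rintro rfl
    obtain ⟨i, hi⟩ := hne
    exact hi rfl
  obtain ⟨l, hl0, hl⟩ := exists_max hx.valL e hne'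
  have h5 := hf.aux hx (fun i => (((e l)⁻¹ * e i : K⟮(x : F)⟯) : F)) (fun i => SetLike.coe_mem _) hl
    0 (by
      rw [Subring.coe_zero]
      have : ∑ i, (((e l)⁻¹ * e i : K⟮(x : F)⟯) : F) * (f i : F) =
          (((e l)⁻¹ : K⟮(x : F)⟯) : F) * ∑ i, e i • (f i : F) := by
        rw [Finset.mul_sum]
        refine Finset.sum_congr rfl fun i _ => ?_
        rw [IntermediateField.coe_mul, mul_assoc]
        rfl
      rw [this, he, mul_zero]) (map_zero _) l
  have h6 : (⟨(((e l)⁻¹ * e l : K⟮(x : F)⟯) : F), hl l⟩ : R.O) = 1 := by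
    apply Subtype.ext
    change (((e l)⁻¹ * e l : K⟮(x : F)⟯) : F) = 1
    rw [inv_mul_cancel₀ hl0]
    rfl
  rw [h6, map_one] at h5
  exact one_ne_zero h5

end RedRing

end Fermat.Agent.TwoComp
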