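import Fermat.Agent.TwoComp.Torus

/-!
# Semilinear automorphisms exchanging the two components: Frobenius is `-q w` on the torus
-/

set_option autoImplicit false
set_option linter.unusedSectionVars false

open AlgebraicCurve WithZero Module Polynomial
open scoped IntermediateField
open Fermat.Agent.RR Fermat.Agent.Deuring Fermat.Agent.FF Fermat.Agent.QX4

namespace Fermat.Agent.TwoComp

namespace Data

variable {K Fm F k F' : Type*} [Field K] [Field Fm] [Algebra K Fm] [Field F]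
    [Algebra K F] [Field k] [Field F'] [Algebra k F'] {q : ℕ} (D : Data K Fm F k F' q)

/-- The semilinear automorphism `g` exchanges the two components, acting through `θ`. -/
structure SwapAct (g : SemilinearAut K F) (θ : F' → F') : Prop where
  mem₁ : ∀ f ∈ D.O₁, g • f ∈ D.O₂
  mem₂ : ∀ f ∈ D.O₂, g • f ∈ D.O₁
  ρ₁ : ∀ (f : F) (hf : f ∈ D.O₁), D.ρ₂ ⟨g • f, mem₁ f hf⟩ = θ (D.ρ₁ ⟨f, hf⟩)
  ρ₂ : ∀ (f : F) (hf : f ∈ D.O₂), D.ρ₁ ⟨g • f, mem₂ f hf⟩ = θ (D.ρ₂ ⟨f, hf⟩)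
  smul_α : g • D.α D.j = D.β D.j
  smul_β : g • D.β D.j = D.α D.j

variable {D}

namespace SwapAct

variable {g : SemilinearAut K F} {θ : F' → F'}

/-- Composition of an exchange with an automorphism preserving the components. -/
theorem comp_act {g' : SemilinearAut K F} {θ' : F' → F'} (h' : D.Act g' θ')
    (h : D.SwapAct g θ) : D.SwapAct (g' * g) (θ' ∘ θ) where
  mem₁ f hf := by rw [mul_smul]; exact h'.mem₂ _ (h.mem₁ _ hf)
  mem₂ f hf := by rw [mul_smul]; exact h'.mem₁ _ (h.mem₂ _ hf)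
  ρ₁ f hf := by
    rw [Function.comp_apply, ← h.ρ₁ f hf, ← h'.ρ₂ _ (h.mem₁ f hf)]
    rfl
  ρ₂ f hf := by
    rw [Function.comp_apply, ← h.ρ₂ f hf, ← h'.ρ₁ _ (h.mem₂ f hf)]
    rfl
  smul_α := by rw [mul_smul, h.smul_α, h'.smul_β]
  smul_β := by rw [mul_smul, h.smul_β, h'.smul_α]

theorem map_one (h : D.SwapAct g θ) : θ 1 = 1 := by
  have h1 := h.ρ₁ 1 D.O₁.one_mem
  have h2 : (⟨g • (1 : F), h.mem₁ 1 D.O₁.one_mem⟩ : D.O₂) = 1 := Subtype.ext (smul_one g)
  have h3 : (⟨(1 : F), D.O₁.one_mem⟩ : D.O₁) = 1 := rfl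
  rw [h2, h3, _root_.map_one, _root_.map_one] at h1
  exact h1.symm

/-- The action on `O`. -/
def app (h : D.SwapAct g θ) (f : D.R.O) : D.R.O :=
  ⟨g • (f : F), h.mem₂ _ f.2.2, h.mem₁ _ f.2.1⟩

theorem ρ_app (h : D.SwapAct g θ) (f : D.R.O) :
    D.R.ρ (h.app f) = (θ (D.R.ρ f).2, θ (D.R.ρ f).1) :=
  Prod.ext (h.ρ₂ f f.2.2) (h.ρ₁ f f.2.1)

variable [IsFF K F]

theorem smul_E₀ (h : D.SwapAct g θ) : g • D.E₀ = D.E₀ := by
  ext w
  obtain ⟨v, rfl⟩ : ∃ v : Place K F, w = g • v := ⟨g⁻¹ • w, (smul_inv_smul g w).symm⟩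
  have h1 : (g • v).ord (D.β D.j) = v.ord (D.α D.j) := by
    rw [← h.smul_α, SemilinearAut.ord_smul]
  have h2 : (g • v).ord (D.α D.j) = v.ord (D.β D.j) := by
    rw [← h.smul_β, SemilinearAut.ord_smul]
  rw [SemilinearAut.divisor_smul_apply_smul, E₀_apply, E₀_apply, h1, h2]
  ring

theorem mem_M (h : D.SwapAct g θ) {E : Divisor K F} {N : ℕ} {w : F' × F'} (hw : w ∈ D.M E N) :
    (θ w.2, θ w.1) ∈ D.M (g • E) N := by
  obtain ⟨f, hf, rfl⟩ := hw
  refine ⟨h.app f, ?_, h.ρ_app f⟩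
  have h1 := smul_mem_L g hf
  rw [smul_sub, smul_comm, h.smul_E₀] at h1
  exact h1

theorem tor (h : D.SwapAct g θ) {n : ℕ} {E : Divisor K F} {φ : D.R.O} (hφ : D.Tor n E φ) :
    D.Tor n (g • E) (h.app φ) where
  deg := by rw [SemilinearAut.degree_smul, hφ.deg]
  ρ_eq := by
    rw [h.ρ_app, hφ.ρ_eq]
    exact Prod.ext h.map_one h.map_one
  ord w := by
    obtain ⟨v, rfl⟩ : ∃ v : Place K F, w = g • v := ⟨g⁻¹ • w, (smul_inv_smul g w).symm⟩
    change (g • v).ord (g • (φ : F)) = _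
    rw [SemilinearAut.divisor_smul_apply_smul, SemilinearAut.ord_smul, hφ.ord]

variable [IsFF k F'] [IsFF K Fm] [IsAlgClosed k]

/-- **Frobenius composed with an exchange of the components acts as `-q`.** -/
theorem isPrincipal_smul_add {g : SemilinearAut K F} (hg : D.SwapAct g D.σ) (hq : 2 ≤ q)
    (arch : D.Arch) {n : ℕ} (hn : (n : k) ≠ 0) {E : Divisor K F} {φ : D.R.O}
    (h : D.Tor n E φ) : AlgebraicCurve.Divisor.IsPrincipal (g • E + q • E) := by
  have hn0 : 0 < n := Nat.pos_of_ne_zero (by rintro rfl; simp at hn)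
  obtain ⟨T⟩ := D.nonempty_nodeSet hq
  obtain ⟨ζ, hζn, hζ⟩ := h.exists_glue (T := T) hq hn0
  obtain ⟨ζ', -, hζ'⟩ := (hg.tor h).exists_glue (T := T) hq hn0
  -- the inverse of the `q`-th multiple
  have hpow := h.pow q
  obtain ⟨ζm, -, hm⟩ := hpow.inv.exists_glue (T := T) hq hn0
  have hgq := h.glue_nsmul hq hn0 hζ q
  have h1 := NodeSet.glue_neg hq hgq hm
  have key : AlgebraicCurve.Divisor.IsPrincipal (g • E - (-(q • E))) := by
    refine isPrincipal_sub hq arch hn hpow.inv (hg.tor h) hm hζ' fun s hs => ?_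
    obtain ⟨r, N₁, hr, hrN⟩ := hζ.exists_wit
    obtain ⟨N₂, h₂⟩ := hζ'
    have h3 := hg.mem_M (hrN (max N₁ N₂) (le_max_left _ _))
    rw [h₂ _ (le_max_right _ _)] at h3
    obtain ⟨h3U, a, b, hab, h3e⟩ := h3
    have ha : a = 1 := by
      apply Subtype.ext
      have := congrArg Prod.fst hab
      change (a : F') = D.σ 1 at this
      rw [_root_.map_one] at this
      exact this
    have hb : (b : F') = D.σ r := congrArg Prod.snd hab
    have h4 := h3e s hs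
    rw [ha, _root_.map_one] at h4
    have h5 : D.Vb b = r ^ q := by
      apply Subtype.ext
      rw [coe_Vb, hb, D.V_σ]
      rfl
    rw [h5, map_pow, hr s hs] at h4
    have h6 := h1 s hs
    have hz : ζ s ^ q ≠ 0 := by
      intro h0
      rw [h0, zero_mul] at h6
      exact zero_ne_one h6
    have h7 : ζ s ^ q * ζ' s = 1 := by rw [mul_comm]; exact h4.symm
    exact mul_left_cancel₀ hz (h7.trans h6.symm)
  rwa [sub_neg_eq_add] at key

variable [IsAlgClosed K]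

/-- **Frobenius composed with an exchange of the components acts as `-q` on the torus.** -/
theorem smul_eq_neg {g : SemilinearAut K F} (hg : D.SwapAct g D.σ) (hq : 2 ≤ q)
    (arch : D.Arch) {n : ℕ} (hn : (n : k) ≠ 0) {x : Pic0 K F} (hx₁ : Split D.O₁ D.ρ₁ n x)
    (hx₂ : Split D.O₂ D.ρ₂ n x) : g • x = -(q • x) := by
  have hn0 : 0 < n := Nat.pos_of_ne_zero (by rintro rfl; simp at hn)
  obtain ⟨E, φ, rfl, h⟩ := exists_tor (by omega) arch hn0 hx₁ hx₂
  have h2 : -(q • Pic0.mk E) = Pic0.mk (-(q • E)) := rfl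
  rw [SemilinearAut.pic0_smul_mk, h2]
  apply mk_eq_mk_of
  rw [SemilinearAut.coe_degZeroSMulHom, AddSubgroup.coe_neg, AddSubgroup.coe_nsmul, sub_neg_eq_add]
  exact hg.isPrincipal_smul_add hq arch hn h

end SwapAct

end Data

end Fermat.Agent.TwoComp
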