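import Fermat.Agent.TwoComp.NodeData
import Mathlib.GroupTheory.CosetCover

/-!
# Gluing data of torsion classes
-/

set_option autoImplicit false
set_option linter.unusedSectionVars false

open AlgebraicCurve WithZero Module Polynomial
open scoped IntermediateField
open Fermat.Agent.RR Fermat.Agent.Deuring Fermat.Agent.FF

namespace Fermat.Agent.TwoComp

/-- Two linear forms with equal `n`-th powers differ by a root of unity. -/
theorem exists_root {k M : Type*} [Field k] [Infinite k] [AddCommGroup M] [Module k M]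
    (f g : M →ₗ[k] k) {n : ℕ} (hn : 0 < n) (h : ∀ m, f m ^ n = g m ^ n) :
    ∃ ζ : k, ζ ^ n = 1 ∧ ∀ m, f m = ζ * g m := by
  classical
  let p : (nthRootsFinset n (1 : k)) → Subspace k M := fun ζ => LinearMap.ker (f - (ζ : k) • g)
  have hmem : ∀ (ζ) (m : M), m ∈ p ζ ↔ f m = (ζ : k) * g m := by
    intro ζ m
    simp only [p, LinearMap.mem_ker, LinearMap.sub_apply, LinearMap.smul_apply, smul_eq_mul]
    exact sub_eq_zero
  have hcov : ⋃ ζ, (p ζ : Set M) = Set.univ := by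
    rw [Set.eq_univ_iff_forall]
    intro m
    rw [Set.mem_iUnion]
    by_cases hg : g m = 0
    · refine ⟨⟨1, by simp [mem_nthRootsFinset hn]⟩, ?_⟩
      have h0 : f m = 0 := by
        have := h m
        rw [hg, zero_pow hn.ne'] at this
        exact (pow_eq_zero_iff hn.ne').mp this
      exact (hmem _ _).mpr (by rw [h0, hg, mul_zero])
    · refine ⟨⟨f m / g m, ?_⟩, ?_⟩
      · rw [mem_nthRootsFinset hn, div_pow, h m, div_self (pow_ne_zero _ hg)]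
      · exact (hmem _ _).mpr (div_mul_cancel₀ _ hg).symm
  obtain ⟨ζ, hζ⟩ := Subspace.exists_eq_top_of_iUnion_eq_univ hcov
  refine ⟨ζ, (mem_nthRootsFinset hn _).mp ζ.2, fun m => ?_⟩
  rw [← hmem, hζ]
  trivial

namespace Data

variable {K Fm F k F' : Type*} [Field K] [Field Fm] [Algebra K Fm] [Field F]
    [Algebra K F] [Field k] [Field F'] [Algebra k F'] {q : ℕ} (D : Data K Fm F k F' q)

variable [IsFF K F]

/-- The nodes. -/
structure NodeSet where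
  Nd : Finset (D.Rb →ₐ[k] k)
  comp_VV : ∀ s ∈ Nd, s.comp (D.Vb.comp D.Vb) = s
  mem_S_iff : ∀ a b : D.Rb, (a, b) ∈ D.S ↔ ∀ s ∈ Nd, s a = s (D.Vb b)
  crt : ∀ c : (D.Rb →ₐ[k] k) → k, ∃ r : D.Rb, ∀ s ∈ Nd, s r = c s

theorem nonempty_nodeSet [IsFF k F'] [IsFF K Fm] [IsAlgClosed k] (hq : 2 ≤ q) :
    Nonempty D.NodeSet := by
  obtain ⟨Nd, h1, h2, h3⟩ := D.exists_nodes hq
  exact ⟨⟨Nd, h1, h2, h3⟩⟩

/-- The reduction of `L(N E₀ - E)`. -/
noncomputable def M (E : Divisor K F) (N : ℕ) : Submodule k (F' × F') :=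
  D.R.red (riemannRochSpace (N • D.E₀ - E))

theorem M_zero (N : ℕ) : D.M 0 N = D.Λ N := by rw [M, sub_zero]; rfl

/-- `n E = div φ` with `ρ φ = 1`. -/
structure Tor (n : ℕ) (E : Divisor K F) (φ : D.R.O) : Prop where
  deg : Divisor.degree E = 0
  ρ_eq : D.R.ρ φ = 1
  ord : ∀ v : Place K F, v.ord (φ : F) = n * E v

variable {D} in
theorem Tor.ne_zero {n : ℕ} {E : Divisor K F} {φ : D.R.O} (h : D.Tor n E φ) : (φ : F) ≠ 0 := by
  intro h0
  have h1 : φ = 0 := Subtype.ext h0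
  have h2 := h.ρ_eq
  rw [h1, map_zero] at h2
  exact zero_ne_one h2

variable {D} in
theorem Tor.inv_mem {n : ℕ} {E : Divisor K F} {φ : D.R.O} (h : D.Tor n E φ) :
    (φ : F)⁻¹ ∈ D.R.O := D.R.inv_mem φ (by rw [h.ρ_eq]; exact isUnit_one)

variable {D} in
theorem Tor.ρ_inv {n : ℕ} {E : Divisor K F} {φ : D.R.O} (h : D.Tor n E φ) :
    D.R.ρ ⟨(φ : F)⁻¹, h.inv_mem⟩ = 1 := by
  have h1 : D.R.ρ φ * D.R.ρ ⟨(φ : F)⁻¹, h.inv_mem⟩ = 1 := by
    rw [← map_mul, ← map_one D.R.ρ]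
    exact congrArg D.R.ρ (Subtype.ext (mul_inv_cancel₀ h.ne_zero))
  rwa [h.ρ_eq, one_mul] at h1

variable {D} in
theorem Tor.mul {n : ℕ} {E E' : Divisor K F} {φ φ' : D.R.O} (h : D.Tor n E φ)
    (h' : D.Tor n E' φ') : D.Tor n (E + E') (φ * φ') where
  deg := by rw [map_add, h.deg, h'.deg, add_zero]
  ρ_eq := by rw [map_mul, h.ρ_eq, h'.ρ_eq, one_mul]
  ord v := by
    change v.ord ((φ : F) * (φ' : F)) = _
    rw [v.ord_mul h.ne_zero h'.ne_zero, h.ord, h'.ord, Finsupp.add_apply]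
    ring

variable {D} in
theorem Tor.inv {n : ℕ} {E : Divisor K F} {φ : D.R.O} (h : D.Tor n E φ) :
    D.Tor n (-E) ⟨(φ : F)⁻¹, h.inv_mem⟩ where
  deg := by rw [map_neg, h.deg, neg_zero]
  ρ_eq := h.ρ_inv
  ord v := by
    change v.ord ((φ : F)⁻¹) = _
    rw [v.ord_inv, h.ord, Finsupp.neg_apply]
    ring

variable {D} in
theorem Tor.one (n : ℕ) : D.Tor n 0 1 where
  deg := map_zero _
  ρ_eq := map_one _
  ord v := by
    change v.ord (1 : F) = _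
    rw [v.ord_one, Finsupp.zero_apply, mul_zero]

variable {D} in
theorem Tor.pow {n : ℕ} {E : Divisor K F} {φ : D.R.O} (h : D.Tor n E φ) (m : ℕ) :
    D.Tor n (m • E) (φ ^ m) := by
  induction m with
  | zero => rw [zero_smul, pow_zero]; exact Tor.one n
  | succ m ih => rw [succ_nsmul, pow_succ]; exact ih.mul h

variable {D} in
theorem Tor.pow_mem {n : ℕ} {E : Divisor K F} {φ : D.R.O} (h : D.Tor n E φ) {N : ℕ}
    {w : F' × F'} (hw : w ∈ D.M E N) : w ^ n ∈ D.Λ (n * N) := by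
  obtain ⟨f, hf, rfl⟩ := hw
  refine ⟨f ^ n * ⟨(φ : F)⁻¹, h.inv_mem⟩, ?_, by rw [map_mul, map_pow, h.ρ_inv, mul_one]⟩
  change (f : F) ^ n * (φ : F)⁻¹ ∈ _
  rcases eq_or_ne (f : F) 0 with hf0 | hf0
  · rcases Nat.eq_zero_or_pos n with rfl | hn
    · rw [pow_zero, one_mul, mem_L_iff (inv_ne_zero h.ne_zero)]
      intro v
      rw [v.ord_inv, h.ord]
      simp
    · rw [hf0, zero_pow hn.ne', zero_mul]
      exact Submodule.zero_mem _
  · rw [mem_L_iff hf0] at hf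
    rw [mem_L_iff (mul_ne_zero (pow_ne_zero n hf0) (inv_ne_zero h.ne_zero))]
    intro v
    have h1 := hf v
    rw [Finsupp.sub_apply, Finsupp.smul_apply, nsmul_eq_mul] at h1
    rw [v.ord_mul (pow_ne_zero n hf0) (inv_ne_zero h.ne_zero), ord_pow, v.ord_inv, h.ord,
      Finsupp.smul_apply, nsmul_eq_mul]
    have h2 : (0 : ℤ) ≤ n := Int.natCast_nonneg n
    push_cast
    nlinarith

variable {D} in
theorem Tor.M_le_U [IsFF k F'] (hq : 0 < q) {n : ℕ} (hn : 0 < n) {E : Divisor K F} {φ : D.R.O}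
    (h : D.Tor n E φ) (N : ℕ) : D.M E N ≤ D.U (N * (q + 1) : ℕ) := by
  intro w hw
  have h1 := D.Λ_le hq _ (h.pow_mem hw)
  rw [mem_U] at h1 ⊢
  have hc : ((n * N * (q + 1) : ℕ) : ℤ) = n * ((N * (q + 1) : ℕ) : ℤ) := by push_cast; ring
  rw [hc] at h1
  exact ⟨mem_Lp_of_pow_mem hn h1.1, mem_Lp_of_pow_mem hn h1.2⟩

theorem mul_mem_M {E E' : Divisor K F} {N N' : ℕ} {w w' : F' × F'} (hw : w ∈ D.M E N)
    (hw' : w' ∈ D.M E' N') : w * w' ∈ D.M (E + E') (N + N') := by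
  refine RedRing.mul_mem_red ?_ hw hw'
  intro v hv u hu
  have h1 : (N + N') • D.E₀ - (E + E') = (N • D.E₀ - E) + (N' • D.E₀ - E') := by
    rw [add_smul]; abel
  rw [h1]
  exact mem_L_mul hv hu

theorem M_mono (E : Divisor K F) {N N' : ℕ} (h : N ≤ N') : D.M E N ≤ D.M E N' := by
  apply RedRing.red_mono
  apply L_mono
  intro v
  simp only [Finsupp.sub_apply, Finsupp.smul_apply, nsmul_eq_mul]
  have := mul_le_mul_of_nonneg_right (show (N : ℤ) ≤ N' by exact_mod_cast h) (D.E₀_nonneg v)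
  change (N : ℤ) * D.E₀ v ≤ N' * D.E₀ v at this
  linarith


/-- Inclusion of `L(n (j)_∞)²` in the square of the affine ring. -/
noncomputable def toRb [IsFF k F'] (n : ℤ) : D.U n →ₗ[k] D.Rb × D.Rb where
  toFun w := (⟨w.1.1, mem_of_mem_Lp w.2.1⟩, ⟨w.1.2, mem_of_mem_Lp w.2.2⟩)
  map_add' _ _ := rfl
  map_smul' _ _ := rfl

namespace NodeSet

variable {D} [IsFF k F'] (T : D.NodeSet)

/-- Bounded solutions of the interpolation problem. -/
theorem exists_bound : ∃ n₁ : ℕ, ∀ c : (D.Rb →ₐ[k] k) → k, ∃ r : D.Rb,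
    (r : F') ∈ Lp (K := k) D.jb n₁ ∧ ∀ s ∈ T.Nd, s r = c s := by
  classical
  choose e he using fun s : D.Rb →ₐ[k] k => T.crt (Pi.single s 1)
  choose n hn using fun s => exists_mem_Lp D.jb_ne_zero (e s).2
  refine ⟨T.Nd.sup n, fun c => ⟨∑ s ∈ T.Nd, c s • e s, ?_, ?_⟩⟩
  · rw [AddSubmonoidClass.coe_finsetSum]
    refine Submodule.sum_mem _ fun s hs => ?_
    exact Submodule.smul_mem _ (c s) (Lp_mono (by exact_mod_cast Finset.le_sup hs) (hn s))
  · intro s hs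
    rw [map_sum, Finset.sum_eq_single s]
    · rw [map_smul, he s s hs, Pi.single_eq_same, smul_eq_mul, mul_one]
    · intro t _ hts
      rw [map_smul, he t s hs, Pi.single_eq_of_ne' hts, smul_zero]
    · exact fun h => absurd hs h

/-- The space cut out by the gluing data `ζ`. -/
def Uz (ζ : (D.Rb →ₐ[k] k) → k) (N : ℕ) : Submodule k (F' × F') where
  carrier := {w | w ∈ D.U (N * (q + 1) : ℕ) ∧
    ∃ a b : D.Rb, ((a : F'), (b : F')) = w ∧ ∀ s ∈ T.Nd, s a = ζ s * s (D.Vb b)}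
  zero_mem' := ⟨Submodule.zero_mem _, 0, 0, rfl, fun s _ => by simp⟩
  add_mem' := by
    rintro _ _ ⟨h1, a, b, rfl, hab⟩ ⟨h2, c, d, rfl, hcd⟩
    refine ⟨Submodule.add_mem _ h1 h2, a + c, b + d, rfl, fun s hs => ?_⟩
    rw [map_add, map_add, map_add, hab s hs, hcd s hs]
    ring
  smul_mem' := by
    rintro r _ ⟨h1, a, b, rfl, hab⟩
    refine ⟨Submodule.smul_mem _ r h1, r • a, r • b, rfl, fun s hs => ?_⟩
    rw [map_smul, map_smul, map_smul, hab s hs, smul_eq_mul, smul_eq_mul]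
    ring

variable {T}

theorem mem_Uz {ζ : (D.Rb →ₐ[k] k) → k} {N : ℕ} {a b : D.Rb} :
    ((a : F'), (b : F')) ∈ T.Uz ζ N ↔ ((a : F'), (b : F')) ∈ D.U (N * (q + 1) : ℕ) ∧
      ∀ s ∈ T.Nd, s a = ζ s * s (D.Vb b) := by
  constructor
  · rintro ⟨h1, a', b', hab, h⟩
    have ha : a' = a := Subtype.ext (congrArg Prod.fst hab)
    have hb : b' = b := Subtype.ext (congrArg Prod.snd hab)
    subst ha hb
    exact ⟨h1, h⟩
  · rintro ⟨h1, h⟩
    exact ⟨h1, a, b, rfl, h⟩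

theorem Uz_le_U (ζ : (D.Rb →ₐ[k] k) → k) (N : ℕ) : T.Uz ζ N ≤ D.U (N * (q + 1) : ℕ) :=
  fun _ hw => hw.1

theorem Uz_congr {ζ ζ' : (D.Rb →ₐ[k] k) → k} (h : ∀ s ∈ T.Nd, ζ s = ζ' s) (N : ℕ) :
    T.Uz ζ N = T.Uz ζ' N := by
  ext w
  constructor
  · rintro ⟨h1, a, b, hab, h2⟩
    exact ⟨h1, a, b, hab, fun s hs => by rw [h2 s hs, h s hs]⟩
  · rintro ⟨h1, a, b, hab, h2⟩
    exact ⟨h1, a, b, hab, fun s hs => by rw [h2 s hs, h s hs]⟩

variable (T)

/-- The defining linear map. -/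
noncomputable def Φ (ζ : (D.Rb →ₐ[k] k) → k) (n : ℤ) : D.U n →ₗ[k] (T.Nd → k) :=
  LinearMap.pi fun s =>
    (((s : D.Rb →ₐ[k] k).toLinearMap.comp (LinearMap.fst k D.Rb D.Rb)) -
      ζ s • ((s : D.Rb →ₐ[k] k).toLinearMap.comp (D.Vb.toLinearMap.comp
        (LinearMap.snd k D.Rb D.Rb)))).comp (D.toRb n)

theorem Φ_apply (ζ : (D.Rb →ₐ[k] k) → k) (n : ℤ) (w : D.U n) (s : T.Nd) :
    T.Φ ζ n w s = (s : D.Rb →ₐ[k] k) (D.toRb n w).1 -
      ζ s * (s : D.Rb →ₐ[k] k) (D.Vb (D.toRb n w).2) := rfl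

theorem ker_Φ (ζ : (D.Rb →ₐ[k] k) → k) (N : ℕ) :
    LinearMap.ker (T.Φ ζ (N * (q + 1) : ℕ)) = (T.Uz ζ N).comap (D.U (N * (q + 1) : ℕ)).subtype := by
  ext w
  rw [LinearMap.mem_ker, Submodule.mem_comap, Submodule.subtype_apply]
  constructor
  · intro h
    refine ⟨w.2, (D.toRb _ w).1, (D.toRb _ w).2, rfl, fun s hs => ?_⟩
    have := congrFun h ⟨s, hs⟩
    rw [Φ_apply] at this
    exact sub_eq_zero.mp this
  · intro h
    have h1 := (mem_Uz (a := (D.toRb _ w).1) (b := (D.toRb _ w).2)).mp h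
    funext s
    rw [Φ_apply]
    exact sub_eq_zero.mpr (h1.2 s s.2)

theorem finrank_Uz : ∃ N₁ : ℕ, ∀ ζ : (D.Rb →ₐ[k] k) → k, ∀ N : ℕ, N₁ ≤ N →
    finrank k (D.U (N * (q + 1) : ℕ)) = finrank k (T.Uz ζ N) + T.Nd.card := by
  classical
  obtain ⟨n₁, h₁⟩ := T.exists_bound
  refine ⟨n₁, fun ζ N hN => ?_⟩
  have hsurj : Function.Surjective (T.Φ ζ (N * (q + 1) : ℕ)) := by
    intro c
    obtain ⟨r, hr, hrs⟩ := h₁ fun s => if h : s ∈ T.Nd then c ⟨s, h⟩ else 0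
    have hle : (n₁ : ℤ) ≤ (N * (q + 1) : ℕ) := by
      have : N ≤ N * (q + 1) := Nat.le_mul_of_pos_right _ (by omega)
      exact_mod_cast hN.trans this
    refine ⟨⟨((r : F'), 0), Lp_mono hle hr, Submodule.zero_mem _⟩, ?_⟩
    funext s
    rw [Φ_apply]
    have e1 : (D.toRb (N * (q + 1) : ℕ)
        ⟨((r : F'), 0), Lp_mono hle hr, Submodule.zero_mem _⟩).1 = r := rfl
    have e2 : (D.toRb (N * (q + 1) : ℕ)
        ⟨((r : F'), 0), Lp_mono hle hr, Submodule.zero_mem _⟩).2 = 0 := rfl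
    rw [e1, e2, map_zero, map_zero, mul_zero, sub_zero, hrs s s.2, dif_pos s.2]
  have h1 := LinearMap.finrank_range_add_finrank_ker (T.Φ ζ (N * (q + 1) : ℕ))
  rw [LinearMap.range_eq_top.mpr hsurj, finrank_top, Module.finrank_fintype_fun_eq_card,
    Fintype.card_coe, ker_Φ,
    (Submodule.comapSubtypeEquivOfLe (Uz_le_U ζ N)).finrank_eq] at h1
  omega

end NodeSet

end Data

end Fermat.Agent.TwoComp
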